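import Fermat.Agent.HeckeH.Final
import Fermat.Agent.Degen.Cor
import Fermat.Agent.Kronecker.Inputs

/-!
# Pushforward along `α` is corestriction on characters

The norm of a function of level `N ℓ` along `α` is the product of its translates over
`Γ₀(N ℓ) \ Γ₀(N)` (`ev_norm`, `multNorm`). Hence the pushforward of a torsion class is the
corestriction of its character (`jTorsionEquiv_push`).
-/

set_option autoImplicit false
set_option linter.style.haveILetI false
set_option linter.unusedSectionVars false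

open UpperHalfPlane CongruenceSubgroup Filter Topology ModularCurve AlgebraicCurve
open scoped MatrixGroups

noncomputable section

namespace FLTAgent.Lower.Lift

open FLTAgent.Modular
open FLTAgent.HeckeH (M2 matOf GrowsAtCusps HasGrowth baseSigma cuspHom embFC_alpha cuspSer_eq
  hasQExp_cuspHom comp_eq_of_cuspHom_eq mem_Gamma0_of_jMulFun_smul)
open FLTAgent.Degen (subG0 subG0Hom corFun)

local notation "Qb" => AlgebraicClosure ℚ

variable {N ℓ : ℕ} [NeZero N] [NeZero ℓ]

/-- The right coset representatives of `Γ₀(N ℓ)` in `Γ₀(N)`. -/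
def cosRep (q : Gamma0 N ⧸ subG0 N (N * ℓ)) : Gamma0 N := (Quotient.out q)⁻¹

theorem cosRep_injective {q q' : Gamma0 N ⧸ subG0 N (N * ℓ)}
    (h : (cosRep q : SL(2, ℤ)) * (cosRep q' : SL(2, ℤ))⁻¹ ∈ Gamma0 (N * ℓ)) : q = q' := by
  rw [← QuotientGroup.out_eq' q, ← QuotientGroup.out_eq' q', QuotientGroup.eq]
  simpa [cosRep, subG0, Subgroup.mem_subgroupOf] using h

theorem cosRep_mul (q : Gamma0 N ⧸ subG0 N (N * ℓ)) (γ : Gamma0 N) :
    ∃ c : subG0 N (N * ℓ), cosRep q * γ = (c : Gamma0 N) * cosRep (γ⁻¹ • q) ∧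
      (c : Gamma0 N) = (Quotient.out q)⁻¹ * (γ * Quotient.out (γ⁻¹ • q)) := by
  have hmem : (Quotient.out q)⁻¹ * (γ * Quotient.out (γ⁻¹ • q)) ∈ subG0 N (N * ℓ) := by
    rw [← QuotientGroup.eq]
    show _ = γ • ((Quotient.out (γ⁻¹ • q) : Gamma0 N) : Gamma0 N ⧸ subG0 N (N * ℓ))
    rw [QuotientGroup.out_eq', QuotientGroup.out_eq', smul_inv_smul]
  exact ⟨⟨_, hmem⟩, by simp [cosRep, mul_assoc], rfl⟩

variable [Fintype (Gamma0 N ⧸ subG0 N (N * ℓ))]

/-- The product of the translates over the cosets. -/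
def multNorm (f : ℍ → ℂ) : ℍ → ℂ :=
  nfH (∏ q : Gamma0 N ⧸ subG0 N (N * ℓ), fun z => f ((cosRep q : SL(2, ℤ)) • z))

theorem isMeroRaw_multNorm {f : ℍ → ℂ} (hf : IsMero f) :
    IsMeroRaw (∏ q : Gamma0 N ⧸ subG0 N (N * ℓ), fun z => f ((cosRep q : SL(2, ℤ)) • z)) :=
  IsMeroRaw.finprod _ fun q _ => hf.raw.comp_glSmul (det_pos_SL (cosRep q : SL(2, ℤ)))

theorem hasGrowth_multNorm {f : ℍ → ℂ} (hf : IsMero f) (γ : SL(2, ℤ))
    {κ : Gamma0 N ⧸ subG0 N (N * ℓ) → ℝ}
    (hκ : ∀ q, HasGrowth (fun z => f (((cosRep q : SL(2, ℤ)) * γ) • z)) (κ q)) :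
    HasGrowth (fun z => multNorm (N := N) (ℓ := ℓ) f (γ • z)) (∑ q, κ q) := by
  have e : (fun z => multNorm (N := N) (ℓ := ℓ) f (γ • z)) = nfH (∏ q : Gamma0 N ⧸ subG0 N (N * ℓ),
      fun z => f (((cosRep q : SL(2, ℤ)) * γ) • z)) := by
    rw [multNorm]
    refine (nfH_comp_glSmul (isMeroRaw_multNorm hf) (det_pos_SL γ)).symm.trans ?_
    congr 1
    funext z
    simp only [Finset.prod_apply, mul_smul]
    rfl
  rw [e]
  exact HeckeH.HasGrowth.nfH_prod (fun q => hf.comp_sl _) hκ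

theorem order_multNorm {f : ℍ → ℂ} (hf : IsMero f) (z : ℍ) :
    meromorphicOrderAt (multNorm (N := N) (ℓ := ℓ) f ∘ ofComplex) (z : ℂ) =
      ∑ q : Gamma0 N ⧸ subG0 N (N * ℓ), meromorphicOrderAt (f ∘ ofComplex)
        (((cosRep q : SL(2, ℤ)) • z : ℍ) : ℂ) := by
  rw [multNorm, meromorphicOrderAt_nfH (isMeroRaw_multNorm hf)]
  have e : (∏ q : Gamma0 N ⧸ subG0 N (N * ℓ), fun z => f ((cosRep q : SL(2, ℤ)) • z)) ∘
      ofComplex = fun w => ∏ q : Gamma0 N ⧸ subG0 N (N * ℓ),
        ((fun z => f ((cosRep q : SL(2, ℤ)) • z)) ∘ ofComplex) w := by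
    funext w
    simp [Finset.prod_apply]
  rw [e, meromorphicOrderAt_fun_prod (fun q _ => (hf.comp_sl _).meromorphicAt z)]
  exact Finset.sum_congr rfl fun q _ =>
    meromorphicOrderAt_comp_glSmul f (det_pos_SL (cosRep q : SL(2, ℤ))) z

theorem isMult_multNorm {n : ℕ} [NeZero n] {φ : Additive (Gamma0 (N * ℓ)) →+ ZMod n} {f : ℍ → ℂ}
    (hf : IsMult (N * ℓ) f (Torsion.expChar φ)) {D : Divisor ℂ (FC (N * ℓ))}
    (hD : Torsion.HasDivisor (N * ℓ) f D) :
    IsMult N (multNorm (N := N) (ℓ := ℓ) f) (Torsion.expChar (corFun (N := N) φ)) where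
  mero := isMero_nfH (isMeroRaw_multNorm hf.mero)
  meroCusp γ :=
    (hasGrowth_multNorm hf.mero γ fun q =>
      HeckeH.hasGrowth_of_hasDivisor hD ((cosRep q : SL(2, ℤ)) * γ)).exists_bounded
        (by exact_mod_cast Nat.pos_of_ne_zero (NeZero.ne N))
  nonzero := by
    refine ⟨UpperHalfPlane.I, ?_⟩
    rw [order_multNorm hf.mero]
    simp only [hD.order]
    rw [← WithTop.coe_sum]
    exact WithTop.coe_ne_top
  smul γ z := by
    set G : Gamma0 N ⧸ subG0 N (N * ℓ) → ℍ → ℂ :=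
      fun q z => f ((cosRep q : SL(2, ℤ)) • z) with hG
    set c : ℂ := (Torsion.expChar (corFun (N := N) φ) γ : ℂ) with hc
    have hinv : (fun z => (∏ q, G q) ((γ : SL(2, ℤ)) • z)) = fun z => c * (∏ q, G q) z := by
      funext z
      simp only [Finset.prod_apply]
      choose cq hcq hcq' using fun q => cosRep_mul (ℓ := ℓ) q γ
      have hstep : ∀ q, G q ((γ : SL(2, ℤ)) • z) =
          (Torsion.expChar φ (subG0Hom (cq q)) : ℂ) * G (γ⁻¹ • q) z := by
        intro q
        simp only [hG]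
        rw [← mul_smul, ← Subgroup.coe_mul, hcq q, Subgroup.coe_mul, mul_smul]
        exact hf.smul (subG0Hom (cq q)) _
      rw [Finset.prod_congr rfl fun q _ => hstep q, Finset.prod_mul_distrib]
      congr 1
      · rw [hc, Torsion.coe_expChar, Degen.corFun_apply _ Quotient.out
          (fun q => QuotientGroup.out_eq' q)]
        simp only [Torsion.coe_expChar]
        classical
        induction (Finset.univ : Finset (Gamma0 N ⧸ subG0 N (N * ℓ))) using Finset.induction with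
        | empty => simp
        | insert a s ha ih =>
          rw [Finset.prod_insert ha, Finset.sum_insert ha, AddChar.map_add_eq_mul, ih]
          congr 4
          exact Subtype.ext (congrArg (fun x : Gamma0 N => (x : SL(2, ℤ))) (hcq' a))
      · exact Equiv.prod_comp (MulAction.toPerm γ⁻¹) fun q => G q z
    have hraw := isMeroRaw_multNorm (N := N) (ℓ := ℓ) hf.mero
    show nfH (∏ q, G q) ((γ : SL(2, ℤ)) • z) = c * nfH (∏ q, G q) z
    rw [show nfH (∏ q, G q) ((γ : SL(2, ℤ)) • z) =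
      nfH (fun w => (∏ q, G q) ((γ : SL(2, ℤ)) • w)) z from
        (congrFun (nfH_comp_glSmul hraw (det_pos_SL (γ : SL(2, ℤ)))) z).symm]
    rw [hinv, HeckeH.nfH_const_mul hraw c (Units.ne_zero _)]

variable (ι : Qb →+* ℂ)

/-- The embedding attached to a coset. -/
def cosSigma (q : Gamma0 N ⧸ subG0 N (N * ℓ)) :
    modularFunctionFieldBar (N * ℓ) →+* LaurentSeries ℂ :=
  (cuspHom (M := N * ℓ) (cosRep q : SL(2, ℤ))).toRingHom.comp (Torsion.embFC (N * ℓ) ι)

theorem cosSigma_alpha (q : Gamma0 N ⧸ subG0 N (N * ℓ)) (y : modularFunctionFieldBar N) :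
    cosSigma ι q (heckeAlphaBar Qb N ℓ y) = baseSigma N ℓ ι y := by
  refine cuspSer_eq ?_
  rw [embFC_alpha]
  have h := (hasQExp_ev (Torsion.embFC N ι y)).qExpand (N * ℓ)
  have h2 : (fun z => ev ((Torsion.embFC N ι y : FC N) : LaurentSeries ℂ)
      ((cosRep q : SL(2, ℤ)) • z)) = ev ((Torsion.embFC N ι y : FC N) : LaurentSeries ℂ) :=
    funext fun z => (isModFun_ev _).smul (cosRep q) z
  rw [h2]
  show HasQExp _ _ (qExpand ℂ (N * ℓ) ((Torsion.embFC N ι y : FC N) : LaurentSeries ℂ))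
  simpa using h

theorem cosSigma_injective : Function.Injective (cosSigma (N := N) (ℓ := ℓ) ι) := by
  intro i k hik
  refine cosRep_injective (mem_Gamma0_of_jMulFun_smul _ fun z => ?_)
  let jM : modularFunctionFieldBar (N * ℓ) :=
    ⟨coeffEmb Qb (qExpand ℚ (N * ℓ) jq),
      coeffEmb_mem_laurentBaseChange Qb (jqd_mem_full (N * ℓ) dvd_rfl)⟩
  have he : ((Torsion.embFC (N * ℓ) ι jM : FC (N * ℓ)) : LaurentSeries ℂ) =
      coeffEmb ℂ (qExpand ℚ (N * ℓ) jq) := by
    rw [Torsion.coe_embFC]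
    show coeffMap ι (coeffEmb Qb (qExpand ℚ (N * ℓ) jq)) = _
    rw [coeffEmb, coeffMap_coeffMap,
      coeffMap_congr (Subsingleton.elim (ι.comp (algebraMap ℚ Qb)) (algebraMap ℚ ℂ))]
    rfl
  have h1 := congrFun (comp_eq_of_cuspHom_eq (M := N * ℓ) (y := Torsion.embFC (N * ℓ) ι jM)
    (RingHom.congr_fun hik jM)) ((cosRep k : SL(2, ℤ))⁻¹ • z)
  simp only [he, ev_jq_qExpand] at h1
  rw [smul_inv_smul, ← mul_smul] at h1
  exact h1

set_option maxHeartbeats 1000000 in
set_option synthInstance.maxHeartbeats 200000 in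
/-- The norm along `α` is the product of the translates. -/
theorem ev_norm (hfin : FiniteAlong Qb (heckeAlphaBar Qb N ℓ))
    (hdeg : finrankAlong Qb (heckeAlphaBar Qb N ℓ) = Fintype.card (Gamma0 N ⧸ subG0 N (N * ℓ)))
    (y : modularFunctionFieldBar (N * ℓ)) :
    ev ((Torsion.embFC N ι (letI := algebraAlong (heckeAlphaBar Qb N ℓ);
        Algebra.norm (modularFunctionFieldBar N) y) : FC N) : LaurentSeries ℂ) =
      multNorm (N := N) (ℓ := ℓ) (ev ((Torsion.embFC (N * ℓ) ι y : FC (N * ℓ)) : LaurentSeries ℂ)) := by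
  letI := algebraAlong (heckeAlphaBar Qb N ℓ)
  haveI : Module.Finite (modularFunctionFieldBar N) (modularFunctionFieldBar (N * ℓ)) := hfin
  have hnorm : baseSigma N ℓ ι (Algebra.norm (modularFunctionFieldBar N) y) =
      ∏ q, cosSigma ι q y :=
    ModularCosets.norm_eq_prod_sigma (F := modularFunctionFieldBar N)
      (E := modularFunctionFieldBar (N * ℓ)) (ι := Gamma0 N ⧸ subG0 N (N * ℓ)) (baseSigma N ℓ ι)
      (cosSigma (N := N) (ℓ := ℓ) ι)
      (fun q x => cosSigma_alpha ι q x) (cosSigma_injective ι) hdeg.symm y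
  rw [HeckeH.baseSigma_apply] at hnorm
  set y' : FC N := Torsion.embFC N ι (Algebra.norm (modularFunctionFieldBar N) y) with hy'
  have h1 : HasQExp ((N * ℓ : ℕ) : ℝ) (ev ((y' : FC N) : LaurentSeries ℂ))
      (qExpand ℂ (N * ℓ) ((y' : FC N) : LaurentSeries ℂ)) := by
    simpa using (hasQExp_ev y').qExpand (N * ℓ)
  rw [hnorm] at h1
  have h2 := (HasQExp.finprod (Finset.univ (α := Gamma0 N ⧸ subG0 N (N * ℓ))) fun q _ =>
    hasQExp_cuspHom (M := N * ℓ) (cosRep q : SL(2, ℤ)) (Torsion.embFC (N * ℓ) ι y)).nfH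
      (HeckeH.natCast_pos_real (N * ℓ))
  exact (isMero_ev y').eq_of_hasQExp (HeckeH.natCast_pos_real (N * ℓ))
    (isMero_nfH (isMeroRaw_multNorm (isMero_ev _))) h1 h2

set_option maxHeartbeats 1000000 in
set_option synthInstance.maxHeartbeats 200000 in
/-- **Pushforward along `α` is corestriction on characters.** -/
theorem jTorsionEquiv_push
    (hdeg : finrankAlong Qb (heckeAlphaBar Qb N ℓ) = Fintype.card (Gamma0 N ⧸ subG0 N (N * ℓ)))
    (hα : (heckeAlphaBar Qb N ℓ).toRingHom.IsIntegral) {n : ℕ} [NeZero n]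
    (D : Divisor.degZero (K := Qb) (F := modularFunctionFieldBar (N * ℓ)))
    (hDn : Pic0.mk D ∈ Pic0.torsion Qb (modularFunctionFieldBar (N * ℓ)) n)
    (E : Divisor.degZero (K := Qb) (F := modularFunctionFieldBar N))
    (hE : (E : Divisor Qb (modularFunctionFieldBar N)) =
      Divisor.pushforwardAlong (heckeAlphaBar Qb N ℓ) hα D)
    (hEn : Pic0.mk E ∈ Pic0.torsion Qb (modularFunctionFieldBar N) n) :
    Torsion.jTorsionEquiv N ι n ⟨Pic0.mk E, hEn⟩ =
      Degen.corH (ZMod n) (ZMod n) (Torsion.jTorsionEquiv (N * ℓ) ι n ⟨Pic0.mk D, hDn⟩) := by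
  haveI := Kronecker.isFF_bar N
  haveI := Kronecker.isFF_bar (N * ℓ)
  have hfin : FiniteAlong Qb (heckeAlphaBar Qb N ℓ) := FF.finiteAlong _
  have hN : NormFormulaAlong Qb (heckeAlphaBar Qb N ℓ) hfin :=
    FF.normFormulaAlong _ hfin (FF.separableAlong _)
  have hnD : n • (D : Divisor Qb (modularFunctionFieldBar (N * ℓ))) ∈
      Divisor.principal (K := Qb) (F := modularFunctionFieldBar (N * ℓ)) := by
    have h0 : Pic0.mk (n • D) = 0 := by
      have := Pic0.mem_torsion.mp hDn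
      rw [natCast_zsmul] at this
      exact this
    have := (QuotientAddGroup.eq_zero_iff _).mp h0
    simpa [AddSubgroup.mem_addSubgroupOf] using this
  obtain ⟨y, hy0, hy⟩ := hnD
  letI := algebraAlong (heckeAlphaBar Qb N ℓ)
  haveI : Module.Finite (modularFunctionFieldBar N) (modularFunctionFieldBar (N * ℓ)) := hfin
  set y' : modularFunctionFieldBar N := Algebra.norm (modularFunctionFieldBar N) y with hy'
  have hy'0 : y' ≠ 0 := Algebra.norm_ne_zero_iff.mpr hy0
  have hnE : ∀ v, (n • (E : Divisor Qb (modularFunctionFieldBar N))) v = v.ord y' := by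
    intro v
    have h1 : n • (E : Divisor Qb (modularFunctionFieldBar N)) =
        Divisor.pushforwardAlong (heckeAlphaBar Qb N ℓ) hα
          (n • (D : Divisor Qb (modularFunctionFieldBar (N * ℓ)))) := by
      rw [map_nsmul, hE]
    rw [h1]
    exact hN _ hy0 _ (fun w => hy w) v
  have hDC : n • Torsion.divExt ι (D : Divisor Qb (modularFunctionFieldBar (N * ℓ))) ∈
      Divisor.principal (K := ℂ) (F := FC (N * ℓ)) := by
    rw [← map_nsmul, Torsion.divExt_mem_principal_iff]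
    exact ⟨y, hy0, hy⟩
  obtain ⟨φ, hφ, f, hfm, hfD⟩ := Torsion.exists_mult_of_nsmul_principal hDC
  have hx1 : Pic0.mk (Torsion.degZeroExt ι D) ∈ Pic0.torsion ℂ (FC (N * ℓ)) n :=
    (Torsion.picExtTorsion ι n ⟨Pic0.mk D, hDn⟩).2
  have hex : (Torsion.jTorsionEquiv (N * ℓ) ι n ⟨Pic0.mk D, hDn⟩ :
      Additive (Gamma0 (N * ℓ)) →+ ZMod n) = φ :=
    Torsion.torsionEquiv_eq (D := Torsion.degZeroExt ι D) hx1 hfm hfD
  have hTφ : corFun (N := N) φ ∈ Period.H N (ZMod n) (ZMod n) := Degen.corFun_mem_H hφ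
  have hfT := isMult_multNorm (N := N) hfm hfD
  obtain ⟨D₀, hD₀, -⟩ := Torsion.exists_divisor_of_mult hTφ hfT
  have hY : Torsion.HasDivisor (N * ℓ)
      (ev ((Torsion.embFC (N * ℓ) ι y : FC (N * ℓ)) : LaurentSeries ℂ))
      (n • Torsion.divExt ι (D : Divisor Qb (modularFunctionFieldBar (N * ℓ)))) := by
    refine Torsion.hasDivisor_ev ((map_ne_zero_iff _ (Torsion.embFC (N * ℓ) ι).injective).mpr hy0)
      fun w => ?_
    rw [← map_nsmul]
    exact HeckeH.divExt_apply_eq_ord ι hy w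
  have hY' : Torsion.HasDivisor N (ev ((Torsion.embFC N ι y' : FC N) : LaurentSeries ℂ))
      (n • Torsion.divExt ι (E : Divisor Qb (modularFunctionFieldBar N))) := by
    refine Torsion.hasDivisor_ev ((map_ne_zero_iff _ (Torsion.embFC N ι).injective).mpr hy'0)
      fun w => ?_
    rw [← map_nsmul]
    exact HeckeH.divExt_apply_eq_ord ι hnE w
  rw [hy', ev_norm ι hfin hdeg y] at hY'
  have hkey : D₀ = Torsion.degZeroExt ι E := by
    refine Subtype.ext (Finsupp.ext fun v => ?_)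
    show (D₀ : Divisor ℂ (FC N)) v = Torsion.divExt ι (E : Divisor Qb (modularFunctionFieldBar N)) v
    have hn : (n : ℤ) ≠ 0 := by exact_mod_cast NeZero.ne n
    rcases place_exhaustive v with ⟨z, rfl⟩ | ⟨γ, rfl⟩
    · have he : (ellOrder N z : ℤ) ≠ 0 := by
        exact_mod_cast (ModularPlaces.ellOrder_pos (N := N) z).ne'
      have h1 := hD₀.order z
      rw [order_multNorm hfm.mero] at h1
      simp only [hfD.order] at h1
      rw [← WithTop.coe_sum, WithTop.coe_eq_coe] at h1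
      have h2 := hY'.order z
      rw [order_multNorm (isMero_ev _)] at h2
      simp only [hY.order] at h2
      rw [← WithTop.coe_sum, WithTop.coe_eq_coe] at h2
      simp only [Finsupp.smul_apply, nsmul_eq_mul] at h2
      refine mul_left_cancel₀ hn (mul_left_cancel₀ he ?_)
      rw [← h2, mul_left_comm, ← h1, Finset.mul_sum]
      exact Finset.sum_congr rfl fun q _ => by ring
    · have h1 := (hasGrowth_multNorm hfm.mero γ fun q : Gamma0 N ⧸ subG0 N (N * ℓ) =>
        HeckeH.hasGrowth_of_hasDivisor hfD ((cosRep q : SL(2, ℤ)) * γ)).unique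
          (HeckeH.hasGrowth_of_hasDivisor hD₀ γ)
      have h2 := (hasGrowth_multNorm (isMero_ev _) γ fun q : Gamma0 N ⧸ subG0 N (N * ℓ) =>
        HeckeH.hasGrowth_of_hasDivisor hY ((cosRep q : SL(2, ℤ)) * γ)).unique
          (HeckeH.hasGrowth_of_hasDivisor hY' γ)
      simp only [Finsupp.smul_apply, nsmul_eq_mul, Int.cast_mul, Int.cast_natCast] at h2
      simp only [mul_div_assoc] at h2
      rw [← Finset.mul_sum, h1] at h2
      have hw : (cuspWidth N γ : ℝ) ≠ 0 := by exact_mod_cast (HeckeH.cuspWidth_pos (N := N) γ).ne'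
      have hn' : (n : ℝ) ≠ 0 := by exact_mod_cast NeZero.ne n
      field_simp at h2
      exact_mod_cast h2
  refine Subtype.ext ?_
  rw [Degen.coe_corH, hex, Torsion.jTorsionEquiv_apply]
  have hx2 : Pic0.mk D₀ ∈ Pic0.torsion ℂ (FC N) n := (Torsion.mk_mem_torsion_of_mult hfT hD₀).1
  have he : Torsion.picExtTorsion ι n ⟨Pic0.mk E, hEn⟩ = ⟨Pic0.mk D₀, hx2⟩ := by
    refine Subtype.ext ?_
    show Torsion.picExt N ι (Pic0.mk E) = _
    rw [Torsion.picExt_mk, ← hkey]
  rw [he]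
  exact Torsion.torsionEquiv_eq hx2 hfT hD₀

end FLTAgent.Lower.Lift
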