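import Fermat.Agent.Lower.Lift.HopP.Algebra
import Fermat.Agent.Lower.Lift.Descend
import Fermat.Agent.LocP.Place

/-!
# Strict ordinarity from vanishing on a module with quadratic relations

`isStrictOrdinaryAt_of_action`: let `ρ` act through quadratic relations on a faithful module with a
separated filtration. If `(τ - a) ^ n (σ - 1)` and `B (τ - a) ^ n (g² - 1)` land in the `n`th step
for `σ, τ` in inertia and `g` in the decomposition group at `p`, then `ρ` is strictly ordinary at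
`p`: the idempotent of `exists_proj_kills` cuts out the stable line.
-/

set_option autoImplicit false
set_option linter.style.haveILetI false

noncomputable section

namespace FLTAgent.Lower.Lift

open IsLocalRing (maximalIdeal)

local notation "ℚ̄" => AlgebraicClosure ℚ
local notation "Γℚ" => (AlgebraicClosure ℚ ≃ₐ[ℚ] AlgebraicClosure ℚ)

/-- On a separated filtered module over `ρ`, `(τ - a) ^ n (σ - 1)` and `B (τ - a) ^ n (g² - 1)`
landing in the `n`th step force strict ordinarity at `p`. -/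
theorem isStrictOrdinaryAt_of_action {p : ℕ} [Fact p.Prime] (hp2 : p ≠ 2) {T : Type} [CommRing T]
    [IsLocalRing T] [IsNoetherianRing T] [IsAdicComplete (maximalIdeal T) T] (ρ : GaloisRepAdic T)
    (hdetc : ρ.DetIsCyclotomic p) (habs : ρ.residual.IsAbsolutelyIrreducible)
    {Y : Type*} [AddCommGroup Y] [Module T Y] [Nontrivial Y] (γ : Γℚ →* Module.End T Y)
    (hrel : ∀ g, γ g * γ g - ρ.trace g • γ g + LinearMap.det (ρ.ρ g) • 1 = 0)
    (hfaith : ∀ t : T, (∀ y : Y, t • y = 0) → t = 0)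
    (htor : ∀ (B : ℕ), B ≠ 0 → ∀ y : Y, B • y = 0 → y = 0)
    (F : ℕ → Submodule T Y) (hsep : ∀ y, (∀ n, y ∈ F n) → y = 0)
    (hstab : ∀ g n, ∀ y ∈ F n, γ g y ∈ F n)
    (hloc : ∀ P : ValuationSubring ℚ̄, P.LiesOverPrime p → ∀ τ ∈ P.inertiaSubgroupIn ℚ, ∀ a : ℕ,
      (∀ μ : ℚ̄, μ ^ p ^ 1 = 1 → τ μ = μ ^ a) → ¬ p ∣ a →
      (∀ σ ∈ P.inertiaSubgroupIn ℚ, ∀ n y,
        ((γ τ - (a : T) • 1) ^ n * (γ σ - 1)) y ∈ F n) ∧
      ∃ B : ℕ, B ≠ 0 ∧ ∀ g ∈ P.decompositionSubgroup ℚ, ∀ n y,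
        B • ((γ τ - (a : T) • 1) ^ n * (γ g * γ g - 1)) y ∈ F n) :
    ρ.IsStrictOrdinaryAt p := by
  refine ⟨hdetc.1, fun P hP => ?_⟩
  let b : Module.Basis (Fin 2) T ρ.V :=
    (Module.finBasis T ρ.V).reindex (finCongr ρ.finrank_eq)
  have hspan := GalCommon.span_range_eq_top ρ habs
  have h2 : ∀ y : Y, (2 : T) • y = 0 → y = 0 := fun y hy => htor 2 two_ne_zero y (by
    rwa [← Nat.cast_smul_eq_nsmul T, Nat.cast_ofNat])
  obtain ⟨ψ, hψ⟩ := exists_hom_of_quadratic b hrel h2 hspan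
  have hψinj := injective_of_faithful b ψ hfaith
  obtain ⟨τ, hτ, a, ha, ha1⟩ := exists_inertia_exponent hp2 hP
  have hpa : ¬ p ∣ a := by
    rintro ⟨c, rfl⟩
    obtain ⟨ζ, hζ⟩ := HasEnoughRootsOfUnity.exists_primitiveRoot ℚ̄ p
    have h := ha ζ (by rw [pow_one, hζ.pow_eq_one])
    rw [pow_mul, hζ.pow_eq_one, one_pow] at h
    exact hζ.ne_one (Fact.out : p.Prime).one_lt (τ.injective (h.trans (map_one τ).symm))
  obtain ⟨hI, B, hB, hD⟩ := hloc P hP τ hτ a ha hpa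
  have hau : IsUnit (a : T) := by
    refine IsLocalRing.notMem_maximalIdeal.mp fun h => ?_
    obtain ⟨u, v, huv⟩ := ((Fact.out : p.Prime).coprime_iff_not_dvd.2 hpa).isCoprime
    refine (IsLocalRing.maximalIdeal.isMaximal T).ne_top ((Ideal.eq_top_iff_one _).mpr ?_)
    have h1 : (u : T) * (p : T) + (v : T) * (a : T) = 1 := by
      simpa using congrArg (Int.cast : ℤ → T) huv
    rw [← h1]
    exact add_mem (Ideal.mul_mem_left _ _ hdetc.1) (Ideal.mul_mem_left _ _ h)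
  have hdet1 : LinearMap.det (ρ.ρ τ) - (a : T) ∈ maximalIdeal T := by
    refine (Ideal.span_le.mpr ?_) (hdetc.2 1 τ a ha)
    simpa using hdetc.1
  let Z : (P.inertiaSubgroupIn ℚ) ⊕ (P.decompositionSubgroup ℚ) → Module.End T ρ.V :=
    Sum.elim (fun σ => ρ.ρ σ.1 - 1) fun g => ρ.ρ g.1 * ρ.ρ g.1 - 1
  obtain ⟨e, hee, htr, -, hkill, hker⟩ := exists_proj_kills b ψ hψinj F hsep
    (fun X n y hy => apply_mem_of_span ψ hψ hspan (fun g y hy => hstab g n y hy) X hy) htor (ρ.ρ τ)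
    (a : T) hdet1 hau (isUnit_natCast_sub_one hdetc.1 ha1) Z (i₀ := Sum.inl ⟨τ, hτ⟩) rfl hB
    fun i n y => by
      rcases i with σ | g
      · rw [map_mul, map_pow, map_sub, map_smul, map_one, hψ]
        show B • ((γ τ - (a : T) • 1) ^ n * ψ (ρ.ρ σ.1 - 1)) y ∈ F n
        rw [map_sub, map_one, hψ]
        exact (F n).nsmul_mem (hI σ.1 σ.2 n y) B
      · rw [map_mul, map_pow, map_sub, map_smul, map_one, hψ]
        show B • ((γ τ - (a : T) • 1) ^ n * ψ (ρ.ρ g.1 * ρ.ρ g.1 - 1)) y ∈ F n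
        rw [map_sub, map_one, map_mul, hψ]
        exact hD g.1 g.2 n y
  have hee' : (1 - e) * (1 - e) = 1 - e := by simp [mul_sub, sub_mul, hee]
  have htr' : LinearMap.trace T ρ.V (1 - e) = 1 := by
    rw [map_sub, htr, LinearMap.trace_one, ρ.finrank_eq]
    norm_num
  obtain ⟨b', hrange, hfix⟩ := exists_basis_of_idempotent b (1 - e) hee' htr'
  have hmem : ∀ v, v ∈ T ∙ b' 0 ↔ e v = 0 := fun v => by
    refine ⟨fun hv => ?_, fun hv => ?_⟩
    · simpa using hfix v hv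
    · simpa [hv] using hrange v
  have hσL : ∀ σ ∈ P.inertiaSubgroupIn ℚ, ∀ v, ρ.ρ σ v - v ∈ T ∙ b' 0 := fun σ hσ v =>
    (hmem _).mpr (LinearMap.congr_fun (hkill (Sum.inl ⟨σ, hσ⟩)) v)
  have hDL : ∀ σ ∈ P.decompositionSubgroup ℚ, ∀ v ∈ T ∙ b' 0, ρ.ρ σ v ∈ T ∙ b' 0 := by
    intro σ hσ v hv
    obtain ⟨w, rfl⟩ := hker v ((hmem v).mp hv)
    have h := hσL _ (LocP.conj_mem_inertia hσ hτ) (ρ.ρ σ w)
    rwa [← Module.End.mul_apply (ρ.ρ (σ * τ * σ⁻¹)), ← map_mul, inv_mul_cancel_right, map_mul,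
      Module.End.mul_apply, ← map_sub] at h
  refine ⟨T ∙ b' 0, ⟨b', rfl⟩, hDL, hσL, fun σ hσ => ?_⟩
  obtain ⟨x, hx⟩ := Submodule.mem_span_singleton.mp (hDL σ hσ _ (Submodule.mem_span_singleton_self _))
  set z := b'.repr (ρ.ρ σ (b' 1)) 1 with hz
  have hxw : ∀ w ∈ T ∙ b' 0, ρ.ρ σ w = x • w := fun w hw => by
    obtain ⟨c, rfl⟩ := Submodule.mem_span_singleton.mp hw
    rw [map_smul, ← hx, smul_comm]
  have hzv : ∀ v, ρ.ρ σ v - z • v ∈ T ∙ b' 0 := by
    have h1 : ρ.ρ σ (b' 1) - z • b' 1 ∈ T ∙ b' 0 := by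
      rw [← b'.sum_repr (ρ.ρ σ (b' 1)), Fin.sum_univ_two, ← hz, add_sub_cancel_right]
      exact Submodule.smul_mem _ _ (Submodule.mem_span_singleton_self _)
    intro v
    rw [← b'.sum_repr v, Fin.sum_univ_two, map_add, smul_add, add_sub_add_comm, map_smul,
      map_smul, smul_comm z, smul_comm z, ← smul_sub, ← smul_sub]
    refine add_mem (Submodule.smul_mem _ _ (sub_mem (hDL σ hσ _ ?_) (Submodule.smul_mem _ _ ?_)))
      (Submodule.smul_mem _ _ h1) <;> exact Submodule.mem_span_singleton_self _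
  refine ⟨x, z, hxw, hzv, fun n c hc => ?_⟩
  have hdet := (trace_det_of_line b' hxw hzv).2
  have hz2 : z * z = 1 := by
    have h1 := (hmem _).mpr (LinearMap.congr_fun (hkill (Sum.inr ⟨σ, hσ⟩)) (b' 1))
    have h3 : ρ.ρ σ (ρ.ρ σ (b' 1)) - (z * z) • b' 1 ∈ T ∙ b' 0 := by
      have h4 := add_mem (hzv (ρ.ρ σ (b' 1))) (Submodule.smul_mem _ z (hzv (b' 1)))
      rwa [smul_sub, smul_smul, sub_add_sub_cancel] at h4
    have h5 : ((z * z) - 1) • b' 1 ∈ T ∙ b' 0 := by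
      have h6 := sub_mem h1 h3
      simp only [Z, Sum.elim_inr, LinearMap.sub_apply, Module.End.mul_apply,
        Module.End.one_apply, sub_sub_sub_cancel_left] at h6
      rwa [sub_smul, one_smul]
    obtain ⟨c, hc⟩ := Submodule.mem_span_singleton.mp h5
    have h := congrArg (fun v => b'.repr v 1) hc
    simp at h
    exact sub_eq_zero.mp h.symm
  have : x - (c : T) * z = z * (LinearMap.det (ρ.ρ σ) - (c : T)) := by
    rw [hdet]
    linear_combination (-x) * hz2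
  rw [this]
  exact Ideal.mul_mem_left _ _ (hdetc.2 n σ c hc)

end FLTAgent.Lower.Lift
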