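import Fermat.Agent.Lower.Lift.HopP.Coords
import Fermat.Agent.Lower.Lift.HopP.Ordinary
import Fermat.Agent.Lower.Levels.Construct
import Fermat.Agent.Lower.Levels.RepModule
import Fermat.Agent.Lower.Lift.HopTW.Natural
import Fermat.Agent.Lower.Lift.HopQ.Maps

/-!
# New at `p` implies strictly ordinary

`isStrictOrdinaryAt_of_corU`: if a Hecke lattice of level `L p` consists of classes killed by both
corestrictions to level `L`, its Galois representation is strictly ordinary at `p`. The Galois
span of the lattice in characters lies in `corKer`; filtered by divisibility by `p ^ n`, it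
satisfies the hypotheses of `isStrictOrdinaryAt_of_action` by `exists_nsmul_eq_local`.
-/

set_option autoImplicit false
set_option linter.style.haveILetI false
set_option linter.unusedSectionVars false
set_option maxSynthPendingDepth 4
set_option synthInstance.maxHeartbeats 400000

noncomputable section

open CongruenceSubgroup CuspForm
open scoped MatrixGroups Matrix

namespace FLTAgent.Lower.Lift

open IsLocalRing (maximalIdeal ResidueField residue)
open FLTAgent.Lower FLTAgent.Lower.Levels
open HopTW (IsRaise corU corWU wU cor_w w_w_one inj_corT)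
open HopQ (corEquiv corEquiv_apply wMatV_eq wTwist)

local notation "ℚ̄" => AlgebraicClosure ℚ
local notation "Γℚ" => (AlgebraicClosure ℚ ≃ₐ[ℚ] AlgebraicClosure ℚ)

section Compare

variable {R : Type} [CommRing R] {A : Type} [AddCommGroup A] [Module R A] {L p : ℕ} [NeZero L]
  [Fact p.Prime]

theorem h1Triv_wU (h : IsRaise L (L * p) p) (z : H1 R A (tchi (L * p) R)) :
    h1Triv (L * p) R A ((wU R h).map A z) =
      (h1Triv (L * p) R A z).comp (MonoidHom.toAdditive (Ihara.theta h.not_dvd)) := by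
  induction z using Submodule.Quotient.induction_on with
  | _ c =>
    refine AddMonoidHom.ext fun γ => ?_
    obtain ⟨γ, rfl⟩ := Additive.ofMul.surjective γ
    rw [Sys.map_mk, h1Triv_mk, Sys.coe_op, Fintype.sum_unique, w_w_one h, one_smul,
      ((wU R h).eq_of_mul (fun _ _ _ _ => rfl) (i := default)
      (j := ()) (δ := wTwist h.not_dvd * Ihara.theta h.not_dvd γ * (wTwist h.not_dvd)⁻¹) (by
        show wMatV L p * HeckeH.matOf γ = HeckeH.matOf _ * wMatV L p
        rw [wMatV_eq h.not_dvd, Matrix.mul_assoc, Ihara.wMatQ_mul, ← Matrix.mul_assoc,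
          ← Matrix.mul_assoc, ← HeckeH.matOf_mul, ← HeckeH.matOf_mul, inv_mul_cancel_right])).1,
      Z1_tchi_mul, Z1_tchi_mul, Z1_tchi_inv, add_neg_cancel_comm]
    rfl

theorem h1Triv_corU [NeZero (L * p)] (h : IsRaise L (L * p) p) (z : H1 R A (tchi (L * p) R)) :
    h1Triv L R A ((corU R h).map A z) = Degen.corFun (h1Triv (L * p) R A z) := by
  classical
  haveI := Fintype.ofEquiv _ (corEquiv (N := L) h.not_dvd)
  induction z using Submodule.Quotient.induction_on with
  | _ c =>
    refine AddMonoidHom.ext fun γ => ?_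
    obtain ⟨γ, rfl⟩ := Additive.ofMul.surjective γ
    set S := corU R h
    set C := corEquiv (N := L) h.not_dvd with hC
    rw [Sys.map_mk, h1Triv_mk, Sys.coe_op, Degen.corFun_apply _
      (fun x => (corRep (Fact.out : p.Prime) h.not_dvd (C.symm x))⁻¹)
      (fun x => by rw [← corEquiv_apply h.not_dvd]; exact C.apply_symm_apply x) γ]
    refine Fintype.sum_equiv C _ _ fun i => ?_
    rw [cor_w h, one_smul, h1Triv_mk]
    refine congrArg _ ((S.eq_of_mul (inj_corT h _) (j := C.symm (γ⁻¹ • C i)) ?_).1)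
    show HeckeH.matOf (corRep _ h.not_dvd i) * HeckeH.matOf γ =
      HeckeH.matOf ((corRep _ h.not_dvd (C.symm (C i)))⁻¹⁻¹ *
      (γ * (corRep _ h.not_dvd (C.symm (γ⁻¹ • C i)))⁻¹)) * HeckeH.matOf (corRep _ h.not_dvd _)
    rw [C.symm_apply_apply, inv_inv, ← HeckeH.matOf_mul, ← HeckeH.matOf_mul, mul_assoc,
      inv_mul_cancel_right]

/-- Both corestrictions, in homomorphisms. -/
theorem mem_corKer_of_corU [NeZero (L * p)] [NeZero p] (h : IsRaise L (L * p) p)
    {y : Period.H (L * p) R R} {z : H1 R R (tchi (L * p) R)}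
    (hz : h1Triv (L * p) R R z = (y : Additive (Gamma0 (L * p)) →+ R))
    (h1 : (corU R h).map R z = 0) (h2 : (corWU R h).map R z = 0) :
    y ∈ corKer h.not_dvd R := by
  refine Submodule.mem_inf.mpr ⟨LinearMap.mem_ker.mpr (Subtype.ext ?_),
    LinearMap.mem_ker.mpr (Subtype.ext ?_)⟩
  · rw [Degen.coe_corH, ← hz, ← h1Triv_corU h, h1, map_zero]
    rfl
  · rw [LinearMap.comp_apply, Degen.coe_corH]
    show Degen.corFun ((y : Additive (Gamma0 (L * p)) →+ R).comp
      (MonoidHom.toAdditive (Ihara.theta h.not_dvd))) = _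
    have h3 : (corWU R h).map R z = (corU R h).map R ((wU R h).map R z) := by
      rw [corWU, Sys.map_comp]
    rw [← hz, ← h1Triv_wU h, ← h1Triv_corU h, ← h3, h2, map_zero]
    rfl

end Compare

variable {O : Type} [CommRing O] [IsDomain O] [IsDiscreteValuationRing O]
  [IsAdicComplete (maximalIdeal O) O] [Finite (ResidueField O)] [CharZero O]
  {p : ℕ} [Fact p.Prime] {ρbar : ResidualGaloisRep (ResidueField O)}

/-- Powers of `p` have trivial intersection in a finite module over `O`. -/
theorem eq_zero_of_forall_dvd (hp : (p : O) ∈ maximalIdeal O) {R : Type} [CommRing R] [Algebra O R]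
    [Module.Finite O R] (r : R) (h : ∀ n : ℕ, ∃ x, ((p ^ n : ℕ) : R) * x = r) : r = 0 := by
  refine IsHausdorff.haus (I := maximalIdeal O) inferInstance r fun n => ?_
  obtain ⟨x, rfl⟩ := h n
  rw [SModEq.sub_mem, sub_zero, ← map_natCast (algebraMap O R), ← Algebra.smul_def]
  push_cast
  exact Submodule.smul_mem_smul (Ideal.pow_mem_pow hp n) Submodule.mem_top

/-- **New at `p` implies strictly ordinary.** -/
theorem isStrictOrdinaryAt_of_corU (hp2 : p ≠ 2) (hp : (p : O) ∈ maximalIdeal O)
    (habs : ρbar.IsAbsolutelyIrreducible)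
    (hdet : (GaloisRepAdic.ofResidualGaloisRep ρbar).DetIsCyclotomic p) {L M : ℕ} [NeZero L]
    [NeZero M] (h : IsRaise L M p) {S : Finset ℕ} {R : Type} [CommRing R] [Algebra O R]
    [Module.Finite O R] [Module.Free O R] [Nontrivial R] {d : ℕ} [NeZero d]
    (X : HeckeLattice p M S ρbar R d) {f : ℤ_[p] →+* O} {ρ : GaloisRepAdic X.T}
    (hρ : X.IsRep f ρ)
    (hker : ∀ x, ∃ z : H1 R R (tchi M R), h1Triv M R R z = (X.emb x : Additive (Gamma0 M) →+ R) ∧
      (corU R h).map R z = 0 ∧ (corWU R h).map R z = 0) :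
    ρ.IsStrictOrdinaryAt p := by
  obtain rfl : L * p = M := h.eq
  haveI : NeZero p := ⟨(Fact.out : p.Prime).ne_zero⟩
  set g : ℤ_[p] →+* R := (algebraMap O R).comp f with hg
  have hsep : ∀ r : R, (∀ n : ℕ, ∃ x, ((p ^ n : ℕ) : R) * x = r) → r = 0 :=
    eq_zero_of_forall_dvd hp
  have hnat : ∀ (B : ℕ), B ≠ 0 → ∀ r : R, (B : R) * r = 0 → r = 0 := fun B hB r hr => by
    rw [← map_natCast (algebraMap O R), ← Algebra.smul_def] at hr
    exact (smul_eq_zero.mp hr).resolve_left (Nat.cast_ne_zero.mpr hB)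
  -- the Galois span of the module and its two actions
  let Y := RepModule.span f X.emb
  let aT := RepModule.actSpan f X.hom (imgAct X.act) X.emb X.adjoin_range_hom X.emb_hom
  let gS := RepModule.galSpan f X.hom (imgAct X.act) X.emb X.adjoin_range_hom X.emb_hom
  letI : Module X.T ↥Y := Module.compHom ↥Y aT
  have hsmul : ∀ (t : X.T) (y : ↥Y), t • y = aT t y := fun _ _ => rfl
  have hcomm : ∀ (σ : Γℚ) (t : X.T) (y : ↥Y), (gS σ).1 (t • y) = t • (gS σ).1 y := fun σ t y =>
    (LinearMap.congr_fun (Subring.mem_centralizer_iff.mp (gS σ).2 _ ⟨t, rfl⟩) y).symm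
  let γ : Γℚ →* Module.End X.T ↥Y :=
    { toFun := fun σ =>
        { toFun := fun y => (gS σ).1 y
          map_add' := fun y z => map_add (gS σ).1 y z
          map_smul' := fun t y => hcomm σ t y }
      map_one' := LinearMap.ext fun y =>
        LinearMap.congr_fun (congrArg Subtype.val (map_one gS)) y
      map_mul' := fun σ τ => LinearMap.ext fun y =>
        LinearMap.congr_fun (congrArg Subtype.val (map_mul gS σ τ)) y }
  have hγ : ∀ σ (y : ↥Y), ((γ σ y : ↥Y) : Period.H (L * p) R R) =
      galH (L * p) g σ (y : Period.H (L * p) R R) := fun _ _ => rfl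
  have hY : Y ≤ corKer h.not_dvd R := Submodule.span_le.mpr (by
    rintro _ ⟨⟨σ, x⟩, rfl⟩
    obtain ⟨z, hz, h1, h2⟩ := hker x
    exact galH_mem_corKer g h.not_dvd σ (mem_corKer_of_corU h hz h1 h2) hsep)
  have hnatT : ∀ (a : ℕ) (y : ↥Y), (((a : X.T) • y : ↥Y) : Period.H (L * p) R R) =
      (a : R) • (y : Period.H (L * p) R R) := fun a y => by
    rw [Nat.cast_smul_eq_nsmul X.T, Nat.cast_smul_eq_nsmul R]
    exact map_nsmul Y.subtype a y
  -- operators built from Galois on `Y` and on the ambient space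
  have hpow : ∀ (τ : Γℚ) (a : ℕ) (n : ℕ) (y : ↥Y),
      ((((γ τ - (a : X.T) • 1) ^ n) y : ↥Y) : Period.H (L * p) R R) =
        ((galH (L * p) g τ - (a : R) • 1) ^ n) (y : Period.H (L * p) R R) := by
    intro τ a n
    induction n with
    | zero => intro y; rfl
    | succ n ih =>
      intro y
      rw [pow_succ, pow_succ]
      exact (ih _).trans (congrArg _ (congrArg₂ (· - ·) (hγ τ y) (hnatT a y)))
  -- the filtration
  let F : ℕ → Submodule X.T ↥Y := fun n =>
    { carrier := {y | ∀ t : X.T, ∃ ψ, (p ^ n) • ψ = ((t • y : ↥Y) : Period.H (L * p) R R)}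
      zero_mem' := fun t => ⟨0, by rw [smul_zero, smul_zero]; rfl⟩
      add_mem' := fun {y z} hy hz t => by
        obtain ⟨a, ha⟩ := hy t
        obtain ⟨b, hb⟩ := hz t
        exact ⟨a + b, (smul_add _ a b).trans ((congrArg₂ (· + ·) ha hb).trans
          (congrArg Subtype.val (smul_add t y z)).symm)⟩
      smul_mem' := fun s y hy t => by rw [smul_smul]; exact hy (t * s) }
  haveI : Nontrivial ↥Y := by
    refine ⟨⟨RepModule.gen f X.emb 1 (Pi.single ⟨0, Nat.pos_of_ne_zero (NeZero.ne d)⟩ 1),
      RepModule.gen_mem f X.emb _ _⟩, 0, fun h0 => ?_⟩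
    have h1 := congrArg Subtype.val h0
    have h2 := ((RepModule.gen_one f X.emb _).symm.trans h1).trans (map_zero X.emb).symm
    simpa using congrFun (X.emb_injective h2) ⟨0, Nat.pos_of_ne_zero (NeZero.ne d)⟩
  refine isStrictOrdinaryAt_of_action (Y := ↥Y) hp2 ρ
    (detIsCyclotomic_of_attached hρ.attached) (hρ.residual_absIrr habs) (γ := γ) ?_ ?_ ?_ F ?_ ?_ ?_
  · -- the quadratic relation on translates
    intro σ
    have hrelY : ∀ (u : Γℚ) (x : Fin d → R),
        (((γ σ * γ σ - ρ.trace σ • γ σ + LinearMap.det (ρ.ρ σ) • 1 : Module.End X.T ↥Y)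
          ⟨RepModule.gen f X.emb u x, RepModule.gen_mem f X.emb u x⟩ : ↥Y) :
            Period.H (L * p) R R) = 0 := by
      intro u x
      have hrel := congrArg (galH (L * p) g u) (hρ.galH_rel (u⁻¹ * σ * u) x)
      have htr : ρ.trace (u⁻¹ * σ * u) = ρ.trace σ := by
        rw [GaloisRepAdic.trace, GaloisRepAdic.trace, map_mul ρ.ρ, map_mul ρ.ρ,
          LinearMap.trace_mul_cycle, ← map_mul ρ.ρ, mul_inv_cancel, map_one, one_mul]
      have hdet : LinearMap.det (ρ.ρ (u⁻¹ * σ * u)) = LinearMap.det (ρ.ρ σ) := by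
        rw [map_mul ρ.ρ, map_mul ρ.ρ, map_mul, map_mul, mul_right_comm, ← map_mul, ← map_mul,
          ← map_mul ρ.ρ, inv_mul_cancel, map_one, one_mul]
      rw [map_zero, map_add, map_sub, htr, hdet, ← hg] at hrel
      simp only [← Module.End.mul_apply, ← galH_mul] at hrel
      rw [show u * (u⁻¹ * σ * u) = σ * u by group,
        show u * ((u⁻¹ * σ * u) * (u⁻¹ * σ * u)) = σ * σ * u by group] at hrel
      show galH (L * p) g σ (galH (L * p) g σ (RepModule.gen f X.emb u x)) -
        ((aT (ρ.trace σ) (γ σ ⟨RepModule.gen f X.emb u x, RepModule.gen_mem f X.emb u x⟩) : ↥Y) :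
          Period.H (L * p) R R) +
        ((aT (LinearMap.det (ρ.ρ σ)) ⟨RepModule.gen f X.emb u x, RepModule.gen_mem f X.emb u x⟩ :
          ↥Y) : Period.H (L * p) R R) = 0
      have hgen : ∀ (t : X.T) (v : Γℚ) (w : Fin d → R) (hv : RepModule.gen f X.emb v w ∈ Y),
          ((aT t ⟨RepModule.gen f X.emb v w, hv⟩ : ↥Y) : Period.H (L * p) R R) =
            galH (L * p) g v (X.emb (imgAct X.act t *ᵥ w)) := fun t v w _ =>
        RepModule.actSpan_gen f X.hom (imgAct X.act) X.emb X.adjoin_range_hom X.emb_hom t v w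
      have hσu : (γ σ ⟨RepModule.gen f X.emb u x, RepModule.gen_mem f X.emb u x⟩ : ↥Y) =
          ⟨RepModule.gen f X.emb (σ * u) x, RepModule.gen_mem f X.emb _ x⟩ :=
        Subtype.ext ((hγ _ _).trans (RepModule.galH_gen f X.emb σ u x))
      rw [show galH (L * p) g σ (galH (L * p) g σ (RepModule.gen f X.emb u x)) =
          galH (L * p) g (σ * σ * u) (X.emb x) by
        rw [RepModule.galH_gen, RepModule.galH_gen, RepModule.gen, mul_assoc]]
      rw [hσu, hgen, hgen]
      exact hrel
    refine LinearMap.ext fun y => Subtype.ext ?_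
    obtain ⟨y, hy⟩ := y
    induction hy using Submodule.span_induction with
    | mem y hy =>
      obtain ⟨⟨u, x⟩, rfl⟩ := hy
      exact hrelY u x
    | zero => exact congrArg Subtype.val (map_zero _)
    | add y z hy hz hy' hz' =>
      exact (congrArg Subtype.val (map_add _ (⟨y, hy⟩ : ↥Y) ⟨z, hz⟩)).trans
        ((congrArg₂ (· + ·) hy' hz').trans (add_zero _))
    | smul r y hy hy' =>
      have hR : ∀ (E : Module.End X.T ↥Y), (∀ z : ↥Y, E (r • z) = r • E z) →
          ((E ⟨r • y, Submodule.smul_mem _ r hy⟩ : ↥Y) : Period.H (L * p) R R) =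
            r • ((E ⟨y, hy⟩ : ↥Y) : Period.H (L * p) R R) := fun E hE =>
        congrArg Subtype.val (hE ⟨y, hy⟩)
      rw [hR _ fun z => ?_, hy']
      · exact smul_zero r
      · have hγr : ∀ (v : Γℚ) (w : ↥Y), γ v (r • w) = r • γ v w := fun v w => map_smul (gS v).1 r w
        have htr' : ∀ (t : X.T) (w : ↥Y), t • r • w = r • t • w := fun t w => map_smul (aT t) r w
        exact (congrArg₂ (· + ·) (congrArg₂ (· - ·) ((congrArg (γ σ) (hγr σ z)).trans (hγr σ _))
          ((congrArg (ρ.trace σ • ·) (hγr σ z)).trans (htr' _ _))) (htr' _ z)).trans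
          ((congrArg (· + _) (smul_sub r _ _).symm).trans (smul_add r _ _).symm)
  · -- faithfulness
    intro t ht
    refine RepModule.eq_of_forall_gen (imgAct X.act) X.emb (imgAct_injective X.act) X.emb_injective
      fun x => ?_
    rw [map_zero, Matrix.zero_mulVec, map_zero, ← RepModule.gen_one f X.emb (imgAct X.act t *ᵥ x),
      ← RepModule.actSpan_gen f X.hom (imgAct X.act) X.emb X.adjoin_range_hom X.emb_hom t 1 x]
    exact congrArg Subtype.val (ht ⟨_, RepModule.gen_mem f X.emb 1 x⟩)
  · -- no torsion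
    intro B hB y hy
    refine Subtype.ext ((Period.evalEquiv (L * p) R R).injective (funext fun i => ?_))
    have := congrFun (congrArg (Period.evalEquiv (L * p) R R) (congrArg Subtype.val hy)) i
    rw [Submodule.coe_zero, map_zero, Pi.zero_apply,
      show ((B • y : ↥Y) : Period.H (L * p) R R) = B • (y : Period.H (L * p) R R) from
        map_nsmul Y.subtype B y, map_nsmul, Pi.smul_apply, nsmul_eq_mul] at this
    rw [Submodule.coe_zero, map_zero, Pi.zero_apply]
    exact hnat B hB _ this
  · -- separated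
    intro y hy
    refine Subtype.ext ((Period.evalEquiv (L * p) R R).injective (funext fun i => ?_))
    rw [Submodule.coe_zero, map_zero, Pi.zero_apply]
    refine hsep _ fun n => ?_
    obtain ⟨ψ, hψ⟩ := hy n 1
    rw [one_smul] at hψ
    exact ⟨Period.evalEquiv (L * p) R R ψ i, by rw [← hψ, map_nsmul, Pi.smul_apply, nsmul_eq_mul]⟩
  · -- stable
    intro σ n y hy t
    obtain ⟨ψ, hψ⟩ := hy t
    exact ⟨galH (L * p) g σ ψ, ((map_nsmul (galH (L * p) g σ) (p ^ n) ψ).symm.trans
      (congrArg (galH (L * p) g σ) hψ)).trans (congrArg Subtype.val ((γ σ).map_smul t y))⟩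
  · -- the local identities
    intro P hP τ hτ a ha _
    have hloc := exists_nsmul_eq_local g h.not_dvd P hP hτ ha
    have hI := hloc.1
    obtain ⟨B, hB, hD⟩ := hloc.2
    have hop : ∀ (E : Module.End X.T ↥Y) (E' : Module.End R ↥(Period.H (L * p) R R)),
        (∀ z : ↥Y, ((E z : ↥Y) : Period.H (L * p) R R) = E' (z : Period.H (L * p) R R)) →
        ∀ (n : ℕ) (y : ↥Y) (t : X.T),
          ((t • ((γ τ - (a : X.T) • 1) ^ n * E) y : ↥Y) : Period.H (L * p) R R) =
            ((galH (L * p) g τ - (a : R) • 1) ^ n * E') ((t • y : ↥Y) : Period.H (L * p) R R) := by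
      intro E E' hE n y t
      exact ((congrArg Subtype.val (map_smul ((γ τ - (a : X.T) • 1) ^ n * E) t y).symm).trans
        (hpow τ a n _)).trans (congrArg _ (hE _))
    have hone : ∀ (σ : Γℚ) (z : ↥Y), (((γ σ - 1 : Module.End X.T ↥Y) z : ↥Y) :
        Period.H (L * p) R R) = galH (L * p) g σ (z : Period.H (L * p) R R) - z := fun σ z =>
      congrArg (· - (z : Period.H (L * p) R R)) (hγ σ z)
    have htwo : ∀ (σ : Γℚ) (z : ↥Y), (((γ σ * γ σ - 1 : Module.End X.T ↥Y) z : ↥Y) :
        Period.H (L * p) R R) = galH (L * p) g σ (galH (L * p) g σ (z : Period.H (L * p) R R)) - z :=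
      fun σ z => congrArg (· - (z : Period.H (L * p) R R))
        ((hγ σ (γ σ z)).trans (congrArg _ (hγ σ z)))
    refine ⟨fun σ hσ n y t => ?_, B, hB, fun v hv n y t => ?_⟩
    · exact (hI σ hσ n _ (hY (t • y).2)).imp fun ψ hψ =>
        hψ.trans (hop (γ σ - 1) (galH (L * p) g σ - 1) (fun z => hone σ z) n y t).symm
    · refine (hD v hv n _ (hY (t • y).2)).imp fun ψ hψ => ?_
      have h3 := hop (γ v * γ v - 1) (galH (L * p) g v * galH (L * p) g v - 1)
        (fun z => htwo v z) n y t
      exact hψ.trans ((congrArg (B • ·) h3.symm).trans ((map_nsmul Y.subtype B _).symm.trans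
        (congrArg Y.subtype (smul_comm t B _).symm)))

end FLTAgent.Lower.Lift
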