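import Fermat.Agent.GalCommon.Burnside

/-!
# Modules with quadratic relations over a two dimensional representation

If `γ g² - tr ρ g • γ g + det ρ g • 1 = 0` on `Y`, the identity `γ g + det ρ g • γ g⁻¹ = tr ρ g`
shows that `g ↦ γ g` factors through the span of `ρ`, so `Y` is a module over `End V`
(`exists_hom_of_quadratic`, when `ρ` spans and `2` is injective on `Y`). `exists_proj_kills`: if
`(M - a) ^ n Z i` lands in the `n`th step of a separated filtration for all `n`, the idempotent
at the eigenvalue `1` of `M` kills every `Z i`.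
-/

set_option autoImplicit false
set_option linter.style.haveILetI false

noncomputable section

namespace FLTAgent.Lower.Lift

open IsLocalRing (maximalIdeal)

section Hom

variable {T : Type*} [CommRing T] {V : Type*} [AddCommGroup V] [Module T V]
  {Y : Type*} [AddCommGroup Y] [Module T Y] {G : Type*} [Group G]
  {ρ : G →* Module.End T V} {γ : G →* Module.End T Y}

theorem det_mul_det_inv (ρ : G →* Module.End T V) (g : G) :
    LinearMap.det (ρ g) * LinearMap.det (ρ g⁻¹) = 1 := by
  rw [← map_mul LinearMap.det, ← map_mul ρ, mul_inv_cancel, map_one, map_one]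

theorem add_det_smul_inv
    (hrel : ∀ g, γ g * γ g - LinearMap.trace T V (ρ g) • γ g + LinearMap.det (ρ g) • 1 = 0)
    (g : G) :
    γ g + LinearMap.det (ρ g) • γ g⁻¹ = LinearMap.trace T V (ρ g) • (1 : Module.End T Y) := by
  have h1 : γ g * γ g⁻¹ = 1 := by rw [← map_mul, mul_inv_cancel, map_one]
  have h := congrArg (· * γ g⁻¹) (hrel g)
  simp only [add_mul, sub_mul, smul_mul_assoc, mul_assoc, h1, one_mul, zero_mul, mul_one] at h
  rw [← sub_eq_zero, ← h]
  abel

/-- `g ↦ det ρ g • γ g⁻¹`. -/
def conjHom (ρ : G →* Module.End T V) (γ : G →* Module.End T Y) :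
    G →* (Module.End T Y)ᵐᵒᵖ where
  toFun g := MulOpposite.op (LinearMap.det (ρ g) • γ g⁻¹)
  map_one' := by simp
  map_mul' g h := by
    rw [← MulOpposite.op_mul, smul_mul_smul_comm, ← map_mul γ, ← _root_.mul_inv_rev,
      mul_comm (LinearMap.det (ρ h)), ← map_mul LinearMap.det, ← map_mul ρ]

/-- **The module is a module over the endomorphisms of the representation.** -/
theorem exists_hom_of_quadratic (b : Module.Basis (Fin 2) T V)
    (hrel : ∀ g, γ g * γ g - LinearMap.trace T V (ρ g) • γ g + LinearMap.det (ρ g) • 1 = 0)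
    (htwo : ∀ y : Y, (2 : T) • y = 0 → y = 0)
    (hspan : Submodule.span T (Set.range ρ) = ⊤) :
    ∃ ψ : Module.End T V →ₐ[T] Module.End T Y, ∀ g, ψ (ρ g) = γ g := by
  classical
  haveI : Module.Free T V := Module.Free.of_basis b
  haveI : Module.Finite T V := Module.Finite.of_basis b
  let Pρ := MonoidAlgebra.lift T (Module.End T V) G ρ
  let Pγ := MonoidAlgebra.lift T (Module.End T Y) G γ
  let Pc := MonoidAlgebra.lift T (Module.End T Y)ᵐᵒᵖ G (conjHom ρ γ)
  have hsum : ∀ X, Pγ X + (Pc X).unop = LinearMap.trace T V (Pρ X) • 1 := by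
    intro X
    induction X using MonoidAlgebra.induction_on with
    | of g =>
      simp only [Pγ, Pρ, Pc, MonoidAlgebra.lift_of]
      exact add_det_smul_inv hrel g
    | add X X' hX hX' =>
      simp only [map_add, MulOpposite.unop_add, add_smul, ← hX, ← hX']
      abel
    | smul r X hX =>
      simp only [map_smul, MulOpposite.unop_smul, ← smul_add, hX, smul_smul, smul_eq_mul]
  have hsurj : Function.Surjective Pρ := by
    refine fun f => ?_
    have hf : f ∈ Submodule.span T (Set.range ρ) := hspan ▸ Submodule.mem_top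
    refine (Submodule.span_le (p := LinearMap.range Pρ.toLinearMap)).mpr ?_ hf
    rintro _ ⟨g, rfl⟩
    exact ⟨MonoidAlgebra.of T G g, MonoidAlgebra.lift_of _ _⟩
  obtain ⟨u, hu⟩ := hsurj (Matrix.toLinAlgEquiv b !![0, 1; 0, 0])
  obtain ⟨v, hv⟩ := hsurj (Matrix.toLinAlgEquiv b !![0, 0; 1, 0])
  set c := u * v - v * u with hc
  have hρc : Pρ c = Matrix.toLinAlgEquiv b !![1, 0; 0, -1] := by
    rw [hc, map_sub, map_mul, map_mul, hu, hv, ← map_mul (Matrix.toLinAlgEquiv b),
      ← map_mul (Matrix.toLinAlgEquiv b), ← map_sub (Matrix.toLinAlgEquiv b)]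
    congr 1
    ext i j
    fin_cases i <;> fin_cases j <;> simp
  have htrρ : ∀ A : Matrix (Fin 2) (Fin 2) T,
      LinearMap.trace T V (Matrix.toLinAlgEquiv b A) = A 0 0 + A 1 1 := fun A => by
    rw [LinearMap.trace_eq_matrix_trace T b]
    show (LinearMap.toMatrixAlgEquiv b (Matrix.toLinAlgEquiv b A)).trace = _
    rw [LinearMap.toMatrixAlgEquiv_toLinAlgEquiv, Matrix.trace_fin_two]
  have hPc : (Pc c).unop = -Pγ c := by
    rw [eq_neg_iff_add_eq_zero, add_comm, hsum, hρc, htrρ]
    simp
  have hc2 : Pγ c * Pγ c = 1 := by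
    have h := hsum (c * c)
    rw [map_mul, map_mul, map_mul, MulOpposite.unop_mul, hPc, neg_mul_neg, hρc, ← map_mul (Matrix.toLinAlgEquiv b),
      htrρ, ← two_smul T] at h
    refine LinearMap.ext fun y => sub_eq_zero.mp (htwo _ ?_)
    rw [smul_sub, ← LinearMap.smul_apply, h]
    simp [one_add_one_eq_two]
  have hker : ∀ X, Pρ X = 0 → Pγ X = 0 := by
    intro X hX
    have hneg : ∀ Z, Pρ Z = 0 → (Pc Z).unop = -Pγ Z := fun Z hZ => by
      rw [eq_neg_iff_add_eq_zero, add_comm, hsum, hZ, map_zero, zero_smul]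
    have hcomm : ∀ h, Pγ X * Pγ h = (Pc h).unop * Pγ X := fun h => by
      have h1 := hneg (X * h) (by rw [map_mul, hX, zero_mul])
      rw [map_mul, MulOpposite.unop_mul, hneg X hX, map_mul, mul_neg] at h1
      exact (neg_injective h1).symm
    have h2 : Pγ X * Pγ c = 0 := by
      rw [hc, map_sub, map_mul, map_mul, mul_sub, sub_eq_zero]
      calc Pγ X * (Pγ u * Pγ v) = (Pc (u * v)).unop * Pγ X := by rw [← map_mul, hcomm]
        _ = (Pc v).unop * ((Pc u).unop * Pγ X) := by rw [map_mul, MulOpposite.unop_mul, mul_assoc]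
        _ = (Pc v).unop * (Pγ X * Pγ u) := by rw [hcomm]
        _ = Pγ X * Pγ v * Pγ u := by rw [← mul_assoc, ← hcomm]
        _ = Pγ X * (Pγ v * Pγ u) := mul_assoc _ _ _
    rw [← mul_one (Pγ X), ← hc2, ← mul_assoc, h2, zero_mul]
  choose s hs using hsurj
  have key : ∀ X f, Pρ X = f → Pγ (s f) = Pγ X := fun X f h => by
    rw [← sub_eq_zero, ← map_sub]
    exact hker _ (by rw [map_sub, hs, h, sub_self])
  refine ⟨
    { toFun := fun f => Pγ (s f)
      map_one' := (key 1 1 (map_one _)).trans (map_one _)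
      map_mul' := fun f g => (key (s f * s g) _ (by rw [map_mul, hs, hs])).trans (map_mul _ _ _)
      map_zero' := (key 0 0 (map_zero _)).trans (map_zero _)
      map_add' := fun f g => (key (s f + s g) _ (by rw [map_add, hs, hs])).trans (map_add _ _ _)
      commutes' := fun t => (key (algebraMap T _ t) _ (AlgHom.commutes _ t)).trans
        (AlgHom.commutes _ t) }, fun g => ?_⟩
  exact (key (MonoidAlgebra.of T G g) _ (MonoidAlgebra.lift_of _ _)).trans
    (MonoidAlgebra.lift_of _ _)

/-- A faithful module gives a faithful action of the endomorphisms. -/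
theorem injective_of_faithful (b : Module.Basis (Fin 2) T V)
    (ψ : Module.End T V →ₐ[T] Module.End T Y) (hY : ∀ t : T, (∀ y : Y, t • y = 0) → t = 0) :
    Function.Injective ψ := by
  refine (injective_iff_map_eq_zero ψ).mpr fun X hX => ?_
  set e := Matrix.toLinAlgEquiv b with he
  obtain ⟨A, rfl⟩ : ∃ A, e A = X := ⟨e.symm X, e.apply_symm_apply X⟩
  suffices A = 0 by rw [this, map_zero]
  ext j k
  refine hY _ fun y => ?_
  have hsc : Matrix.scalar (Fin 2) (A j k) =
      ∑ i, Matrix.single i j (1 : T) * A * Matrix.single k i 1 := by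
    ext a c
    fin_cases a <;> fin_cases c <;>
      simp [Fin.sum_univ_two]
  have h := congrArg (fun M => ψ (e M)) hsc
  simp only [map_sum, map_mul, hX, mul_zero, zero_mul, Finset.sum_const_zero] at h
  rw [show Matrix.scalar (Fin 2) (A j k) = algebraMap T _ (A j k) from rfl, AlgEquiv.commutes,
    AlgHom.commutes] at h
  exact LinearMap.congr_fun h y

theorem sq_sub_trace_smul (b : Module.Basis (Fin 2) T V) (f : Module.End T V) :
    f * f - LinearMap.trace T V f • f + LinearMap.det f • 1 = 0 := by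
  apply (LinearMap.toMatrixAlgEquiv b).injective
  rw [map_add, map_sub, map_mul, map_smul, map_smul, map_one, map_zero,
    LinearMap.trace_eq_matrix_trace T b, ← LinearMap.det_toMatrix b]
  show LinearMap.toMatrixAlgEquiv b f * _ - (LinearMap.toMatrixAlgEquiv b f).trace • _ +
    (LinearMap.toMatrixAlgEquiv b f).det • (1 : Matrix (Fin 2) (Fin 2) T) = 0
  generalize LinearMap.toMatrixAlgEquiv b f = A
  rw [Matrix.trace_fin_two, Matrix.det_fin_two]
  ext i j
  fin_cases i <;> fin_cases j <;> simp [Matrix.mul_apply, Fin.sum_univ_two] <;> ring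

theorem apply_mem_of_span (ψ : Module.End T V →ₐ[T] Module.End T Y)
    (hψ : ∀ g, ψ (ρ g) = γ g) (hspan : Submodule.span T (Set.range ρ) = ⊤) {F : Submodule T Y}
    (hF : ∀ g, ∀ y ∈ F, γ g y ∈ F) (X : Module.End T V) {y : Y} (hy : y ∈ F) : ψ X y ∈ F := by
  have hX : X ∈ Submodule.span T (Set.range ρ) := hspan ▸ Submodule.mem_top
  induction hX using Submodule.span_induction with
  | mem x hx => obtain ⟨g, rfl⟩ := hx; rw [hψ]; exact hF g y hy
  | zero => simp
  | add x x' _ _ hx hx' => rw [map_add, LinearMap.add_apply]; exact add_mem hx hx'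
  | smul a x _ hx => rw [map_smul, LinearMap.smul_apply]; exact F.smul_mem a hx

end Hom

section Line

variable {T : Type} [CommRing T] [IsLocalRing T] [IsAdicComplete (maximalIdeal T) T]
  {V : Type*} [AddCommGroup V] [Module T V] {Y : Type*} [AddCommGroup Y] [Module T Y]

/-- If `(M - a) ^ n * Z i` acts into the `n`th step of a separated filtration, with `M - 1` among
the `Z i`, the idempotent at the eigenvalue `1` of `M` kills all `Z i`. -/
theorem exists_proj_kills {ι : Type*} (b : Module.Basis (Fin 2) T V)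
    (ψ : Module.End T V →ₐ[T] Module.End T Y) (hinj : Function.Injective ψ) [Nontrivial Y]
    (F : ℕ → Submodule T Y) (hsep : ∀ y, (∀ n, y ∈ F n) → y = 0)
    (hstab : ∀ (X : Module.End T V) (n : ℕ), ∀ y ∈ F n, ψ X y ∈ F n)
    (htor : ∀ (B : ℕ), B ≠ 0 → ∀ y : Y, B • y = 0 → y = 0)
    (M : Module.End T V) (a : T) (hdet : LinearMap.det M - a ∈ maximalIdeal T) (ha0 : IsUnit a)
    (ha1 : IsUnit (a - 1)) (Z : ι → Module.End T V) {i₀ : ι} (hi₀ : Z i₀ = M - 1) {B : ℕ}
    (hB : B ≠ 0) (hZ : ∀ i n y, B • ψ ((M - a • 1) ^ n * Z i) y ∈ F n) :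
    ∃ e : Module.End T V, e * e = e ∧ LinearMap.trace T V e = 1 ∧ IsUnit a ∧
      (∀ i, e * Z i = 0) ∧ ∀ v, e v = 0 → ∃ w, M w - w = v := by
  set t := LinearMap.trace T V M with ht
  set d := LinearMap.det M with hd
  have hCH : M * M = t • M - d • 1 := by
    linear_combination (norm := abel) sq_sub_trace_smul b M
  -- multiples of `u` vanish when `u` kills every `(M - a) ^ n * X`
  have hkill : ∀ (i : ι) (W : ℕ → Module.End T V) (e : Module.End T V),
      (∀ n, W n * (M - a • 1) ^ n = e) → e * Z i = 0 := by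
    intro i W e hW
    refine hinj ((LinearMap.ext fun y => ?_).trans (map_zero ψ).symm)
    refine htor B hB _ (hsep _ fun n => ?_)
    rw [← hW n, mul_assoc, map_mul, Module.End.mul_apply, ← map_nsmul (ψ (W n))]
    exact hstab _ _ _ (hZ i n y)
  have hcomm : ∀ x y : T, Commute (M - x • 1) (M - y • 1) := fun x y =>
    ((Commute.refl M).sub_right ((Commute.one_right M).smul_right y)).sub_left
      (((Commute.one_left _).smul_left x))
  -- the eigenvalue `1` modulo the maximal ideal
  have hpoly : ∀ x : T, (M - x • 1) * (M - (t - x) • 1) = (x * (t - x) - d) • 1 := fun x => by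
    simp only [sub_mul, mul_sub, smul_one_mul, mul_smul_one, hCH, sub_smul]
    module
  have hroot : 1 - t + d ∈ maximalIdeal T := by
    by_contra hu
    have hu1 : IsUnit (1 * (t - 1) - d) := by
      have h := (IsLocalRing.notMem_maximalIdeal.mp hu).neg
      rwa [show -(1 - t + d) = 1 * (t - 1) - d by ring] at h
    have hua : IsUnit (a * (t - a) - d) := by
      refine IsLocalRing.notMem_maximalIdeal.mp fun h => hu ?_
      have h2 : a * (1 - t + d) ∈ maximalIdeal T := by
        rw [show a * (1 - t + d) = -(a * (t - a) - d) + (a - 1) * (d - a) by ring]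
        exact add_mem (neg_mem h) (Ideal.mul_mem_left _ _ hdet)
      exact ((IsLocalRing.maximalIdeal.isMaximal T).isPrime.mem_or_mem h2).resolve_left
        (IsLocalRing.notMem_maximalIdeal.mpr ha0)
    obtain ⟨w1, hw1⟩ := hu1.exists_left_inv
    obtain ⟨wa, hwa⟩ := hua.exists_left_inv
    have e1 : (w1 • (M - (t - 1) • 1)) * (M - (1 : T) • 1) = 1 := by
      rw [smul_mul_assoc, (hcomm (t - 1) 1).eq, hpoly, smul_smul, hw1, one_smul]
    have ea : (wa • (M - (t - a) • 1)) * (M - a • 1) = 1 := by
      rw [smul_mul_assoc, (hcomm (t - a) a).eq, hpoly, smul_smul, hwa, one_smul]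
    have h := hkill i₀ (fun n => (wa • (M - (t - a) • 1)) ^ n) 1 fun n => by
      rw [← (((hcomm (t - a) a).smul_left wa)).mul_pow, ea, one_pow]
    rw [one_mul, hi₀] at h
    rw [one_smul, h, mul_zero] at e1
    obtain ⟨y, hy⟩ := exists_ne (0 : Y)
    exact hy (by rw [← Module.End.one_apply (R := T) y, ← map_one ψ, ← e1, map_zero]; rfl)
  -- a root congruent to `1`
  have hta : t - 1 - a ∈ maximalIdeal T := by
    rw [show t - 1 - a = -(1 - t + d) + (d - a) by ring]; exact add_mem (neg_mem hroot) hdet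
  obtain ⟨l, hl, hl1⟩ := HenselianRing.is_henselian (R := T) (I := maximalIdeal T)
    (Polynomial.X ^ 2 - Polynomial.C t * Polynomial.X + Polynomial.C d)
    (by monicity!) 1 (by simpa using hroot) (by
      refine IsUnit.map _ (IsLocalRing.notMem_maximalIdeal.mp fun h => ?_)
      simp [one_add_one_eq_two] at h
      refine IsLocalRing.notMem_maximalIdeal.mpr ha1 ?_
      rw [show a - 1 = -((2 : T) - t) - (t - 1 - a) by ring]
      exact sub_mem (neg_mem h) hta)
  simp only [Polynomial.IsRoot.def, Polynomial.eval_add, Polynomial.eval_sub, Polynomial.eval_pow,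
    Polynomial.eval_mul, Polynomial.eval_X, Polynomial.eval_C] at hl
  set l' := t - l with hl'
  have hcross : (M - l • 1) * (M - l' • 1) = 0 := by
    rw [hpoly, show l * (t - l) - d = -(l ^ 2 - t * l + d) by ring, hl, neg_zero, zero_smul]
  have hla : IsUnit (l - a) := by
    refine IsLocalRing.notMem_maximalIdeal.mp fun h => IsLocalRing.notMem_maximalIdeal.mpr ha1 ?_
    rw [show a - 1 = (l - 1) - (l - a) by ring]
    exact sub_mem hl1 h
  have hll : IsUnit (l - l') := by
    refine IsLocalRing.notMem_maximalIdeal.mp fun h => IsLocalRing.notMem_maximalIdeal.mpr ha1 ?_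
    rw [show a - 1 = -(l - l') + (l - 1) + (l - 1) - (t - 1 - a) by rw [hl']; ring]
    exact sub_mem (add_mem (add_mem (neg_mem h) hl1) hl1) hta
  obtain ⟨w, hw⟩ := hll.exists_left_inv
  obtain ⟨c, hc⟩ := hla.exists_left_inv
  set e := w • (M - l' • 1) with he
  have hMe : M * e = l • e := by
    rw [he, mul_smul_comm, smul_comm l w, ← smul_one_mul l (M - l' • 1)]
    congr 1
    rwa [← sub_eq_zero, ← sub_mul]
  have heM : e * M = l • e := by
    rw [← hMe, he, smul_mul_assoc, mul_smul_comm]
    congr 1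
    simp only [sub_mul, mul_sub, smul_one_mul, mul_smul_one]
  have hee : e * e = e := by
    conv_lhs => arg 2; rw [he]
    rw [mul_smul_comm, mul_sub, heM, mul_smul_one, ← sub_smul, smul_smul, hw, one_smul]
  have htr : LinearMap.trace T V e = 1 := by
    rw [he, map_smul, map_sub, map_smul, ← ht,
      LinearMap.trace_eq_matrix_trace T b (1 : Module.End T V), LinearMap.toMatrix_one,
      Matrix.trace_one, Fintype.card_fin, smul_eq_mul, smul_eq_mul, ← hw, hl']
    push_cast
    ring
  have hkills : ∀ i, e * Z i = 0 := fun i => hkill i (fun n => c ^ n • e) e fun n => by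
    have he1 : ∀ n : ℕ, e * (M - a • 1) ^ n = (l - a) ^ n • e := fun n => by
      induction n with
      | zero => simp
      | succ n ih =>
        rw [pow_succ', ← mul_assoc, mul_sub, heM, mul_smul_one, ← sub_smul, smul_mul_assoc, ih,
          smul_smul, ← pow_succ']
    rw [smul_mul_assoc, he1, smul_smul, ← mul_pow, hc, one_pow, one_smul]
  refine ⟨e, hee, htr, ha0, hkills, fun v hv => ?_⟩
  have hl_one : l • e = e := by
    have h := hkills i₀
    rwa [hi₀, mul_sub, heM, mul_one, sub_eq_zero] at h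
  have hMv : M v = l' • v := by
    rw [he, LinearMap.smul_apply] at hv
    have h : (M - l' • 1) v = 0 := by
      rw [← one_smul T ((M - l' • 1) v), ← hw, mul_comm, mul_smul, hv, smul_zero]
    simpa [sub_eq_zero] using h
  obtain ⟨w', hw'⟩ : ∃ w', w' * (l' - 1) = 1 := (IsLocalRing.notMem_maximalIdeal.mp fun h =>
    IsLocalRing.notMem_maximalIdeal.mpr ha1 (show a - 1 ∈ maximalIdeal T by
      rw [show a - 1 = (l' - 1) + (l - 1) - (t - 1 - a) by rw [hl']; ring]
      exact sub_mem (add_mem h hl1) hta)).exists_left_inv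
  refine ⟨w' • v, ?_⟩
  rw [map_smul, hMv, smul_smul, ← sub_smul, ← mul_sub_one, hw', one_smul]

end Line

end FLTAgent.Lower.Lift
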