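import Fermat.Agent.Lower.Bases
import Fermat.Agent.Lower.Levels.Construct
import Fermat.Agent.GalCommon.Carayol
import Fermat.Agent.LocP.Ordinary
import Fermat.Agent.Reps.Existence
import Fermat.Prelude.Def_GaloisRep_StrictOrdinary

/-!
# An adapted basis of a deformation of a strictly ordinary representation

`exists_ordinary_frame`: a basis in which an element of inertia at `p` is residually
`diag (-1, 1)` and the decomposition group is residually triangular; moreover the square of the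
unit eigenvalue of Frobenius is residually `1`.
-/

set_option autoImplicit false
set_option linter.style.haveILetI false
set_option linter.unusedSectionVars false

noncomputable section

open Matrix

namespace FLTAgent.Lower.Lift.HopP

open FLTAgent.Deform FLTAgent.TW FLTAgent.LocP FLTAgent.Lower
open IsLocalRing (ResidueField maximalIdeal residue)

local notation "Qb" => AlgebraicClosure ℚ
local notation "GQ" => (AlgebraicClosure ℚ ≃ₐ[ℚ] AlgebraicClosure ℚ)

variable {p : ℕ} [Fact p.Prime] {k : Type} [Field k] [Finite k] [CharP k p]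
  {T : Type} [CommRing T] [IsLocalRing T] [Finite (ResidueField T)] [CharP (ResidueField T) p]

/-- The adapted basis, and the square of the unit eigenvalue of Frobenius is one. -/
theorem exists_ordinary_frame (hp2 : p ≠ 2) (ρ : GaloisRepAdic T) {ρbar : ResidualGaloisRep k}
    (im : k →+* ResidueField T) (he : ρ.residual.IsEquiv (ρbar.baseChangeAlong im))
    (habs : ρbar.IsAbsolutelyIrreducible)
    (hdet : (GaloisRepAdic.ofResidualGaloisRep ρbar).DetIsCyclotomic p)
    (hord : (GaloisRepAdic.ofResidualGaloisRep ρbar).IsStrictOrdinaryAt p) :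
    ∃ (b : Module.Basis (Fin 2) T ρ.V) (A : ValuationSubring Qb) (φ τ₀ : GQ) (ϖ ζ : Qb),
      A.LiesOverPrime p ∧ A.IsFrobeniusAt φ p ∧
      DetCyclotomic (mapRep (residue T) (matHom ρ b)) p ∧
      RedNormal (mapRep (residue T) (matHom ρ b)) A p ϖ ζ τ₀ ∧
      Submodule.span T (Set.range (matHom ρ b)) = ⊤ ∧
      residue T (matHom ρ b φ 1 1) ^ 2 = 1 := by
  obtain ⟨A, hA, φ, hφ⟩ := GalCommon.exists_place_frobenius (Fact.out : p.Prime)
  have hord' : ∃ L : Submodule k ρbar.V,
      (∃ b : Module.Basis (Fin 2) k ρbar.V, L = k ∙ b 0) ∧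
      (∀ σ ∈ A.decompositionSubgroup ℚ, ∀ v ∈ L, ρbar.ρ σ v ∈ L) ∧
      (∀ σ ∈ A.inertiaSubgroupIn ℚ, ∀ v : ρbar.V, ρbar.ρ σ v - v ∈ L) ∧
      (∀ σ ∈ A.decompositionSubgroup ℚ, ∃ x z : k,
        (∀ w ∈ L, ρbar.ρ σ w = x • w) ∧ (∀ v : ρbar.V, ρbar.ρ σ v - z • v ∈ L) ∧
        ∀ (n a : ℕ), (∀ μ : Qb, μ ^ p ^ n = 1 → σ μ = μ ^ a) →
          x - (a : k) * z ∈ Ideal.span {((p ^ n : ℕ) : k)}) := hord.2 A hA
  obtain ⟨L, ⟨c, hLc⟩, hD, hI, hXZ⟩ := hord'
  have hmem : ∀ v : ρbar.V, v ∈ L → c.repr v 1 = 0 := fun v hv => by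
    rw [hLc] at hv
    obtain ⟨a, rfl⟩ := Submodule.mem_span_singleton.mp hv
    simp
  obtain ⟨b₀, hb₀⟩ := exists_basis_residual ρ ρbar c im he
  set M₀ := mapRep (residue T) (matHom ρ b₀) with hM₀
  have hM : ∀ σ, M₀ σ = (resMat ρbar c σ).map im := fun σ => hb₀ σ
  have hdet₀ : ∀ σ (a : ℕ), (∀ μ : Qb, μ ^ p ^ 1 = 1 → σ μ = μ ^ a) →
      LinearMap.det (ρbar.ρ σ) = (a : k) := fun σ a ha => by
    have h := hdet.2 1 σ a ha
    rw [pow_one, CharP.cast_eq_zero, Ideal.span_singleton_eq_bot.mpr rfl, Ideal.mem_bot,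
      sub_eq_zero] at h
    exact h
  have hres : ∀ σ, resMat ρbar c σ = LinearMap.toMatrix c c (ρbar.ρ σ) := fun σ => by
    ext i j
    rw [resMat, Matrix.of_apply, LinearMap.toMatrix_apply]
  have hdetM : DetCyclotomic M₀ p := fun σ a ha => by
    rw [hM, hres, ← RingHom.mapMatrix_apply, ← RingHom.map_det, LinearMap.det_toMatrix,
      hdet₀ σ a (fun μ hμ => ha μ (by rwa [pow_one] at hμ)), map_natCast]
  have h10 : ∀ σ ∈ A.decompositionSubgroup ℚ, M₀ σ 1 0 = 0 := fun σ hσ => by
    rw [hM, Matrix.map_apply, resMat, Matrix.of_apply,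
      hmem _ (hD σ hσ _ (hLc ▸ Submodule.mem_span_singleton_self _)), map_zero]
  have h11 : ∀ σ ∈ A.inertiaSubgroupIn ℚ, M₀ σ 1 1 = 1 := fun σ hσ => by
    have h := hmem _ (hI σ hσ (c 1))
    rw [map_sub, Finsupp.sub_apply, Module.Basis.repr_self, Finsupp.single_eq_same,
      sub_eq_zero] at h
    rw [hM, Matrix.map_apply, resMat, Matrix.of_apply, h, map_one]
  have hlow : ∀ σ ∈ A.decompositionSubgroup ℚ, det2 ![1, 0] (M₀ σ *ᵥ ![1, 0]) = 0 :=
    fun σ hσ => by simp [det2, Matrix.mulVec, dotProduct, Fin.sum_univ_two, h10 σ hσ]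
  have hin : ∀ σ ∈ A.inertiaSubgroupIn ℚ, ∀ x, det2 ![1, 0] (M₀ σ *ᵥ x - x) = 0 :=
    fun σ hσ x => by
      simp [det2, Matrix.mulVec, dotProduct, Fin.sum_univ_two, h11 σ hσ,
        h10 σ (GalCommon.inertiaSubgroupIn_le_decomposition hσ)]
  obtain ⟨g, ϖ, ζ, τ₀, hN⟩ := exists_redNormal hdetM hA hp2 (d := ![1, 0])
    (fun h => one_ne_zero (α := ResidueField T) (by simpa using congrFun h 0)) hlow hin
  -- lift the change of basis
  choose s hs using (IsLocalRing.residue_surjective : Function.Surjective (residue T))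
  have hG : (residue T).mapMatrix (g.val.map s) = g.val := by
    ext i j
    simp [hs]
  have hGu : IsUnit (g.val.map s) := by
    rw [Matrix.isUnit_iff_isUnit_det]
    refine IsLocalRing.notMem_maximalIdeal.mp fun h => ?_
    rw [← IsLocalRing.residue_eq_zero_iff, RingHom.map_det, hG] at h
    exact (g.isUnit.map Matrix.detMonoidHom).ne_zero h
  obtain ⟨G, hG'⟩ := hGu
  rw [← hG'] at hG
  let Lg : ρ.V ≃ₗ[T] ρ.V := LinearMap.GeneralLinearGroup.generalLinearEquiv T ρ.V
    (Units.map (Matrix.toLinAlgEquiv b₀).toAlgHom.toRingHom.toMonoidHom G⁻¹)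
  have hLg : Lg.toLinearMap = Matrix.toLinAlgEquiv b₀ (G⁻¹).val := rfl
  have hLgs : Lg.symm.toLinearMap = Matrix.toLinAlgEquiv b₀ G.val := rfl
  set b := b₀.map Lg
  have hconj : ∀ σ, matHom ρ b σ = G.val * matHom ρ b₀ σ * (G⁻¹).val := fun σ => by
    have e : matHom ρ b σ =
        LinearMap.toMatrixAlgEquiv b₀ (Lg.symm.toLinearMap * ρ.ρ σ * Lg.toLinearMap) := by
      ext i j
      rw [matHom_apply, LinearMap.toMatrixAlgEquiv_apply]
      rfl
    rw [e, map_mul, map_mul, hLg, hLgs]
    simp only [← LinearMap.toMatrixAlgEquiv_symm, AlgEquiv.apply_symm_apply]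
    rfl
  have hGinv : (residue T).mapMatrix (G⁻¹).val = (g⁻¹).val := by
    have h : Units.map (residue T).mapMatrix.toMonoidHom G = g := Units.ext hG
    rw [← h, ← map_inv]
    rfl
  have hbar : mapRep (residue T) (matHom ρ b) = LocP.conjRep g M₀ := MonoidHom.ext fun σ => by
    show (residue T).mapMatrix (matHom ρ b σ) = g.val * M₀ σ * (g⁻¹).val
    rw [hconj, map_mul, map_mul, hG, hGinv]
    rfl
  refine ⟨b, A, φ, τ₀, ϖ, ζ, hA, hφ, ?_, hbar ▸ hN, ?_, ?_⟩
  · intro σ a ha
    rw [hbar, LocP.conjRep_apply, Matrix.det_units_conj, hdetM σ a ha]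
  · have habs' : ρ.residual.IsAbsolutelyIrreducible := by
      obtain ⟨e⟩ := he
      exact GalCommon.isAbsolutelyIrreducible_of_isEquiv ⟨e.symm⟩
        (Levels.absIrr_baseChangeAlong im ρbar habs)
    have h := congrArg (Submodule.map (LinearMap.toMatrixAlgEquiv b).toLinearMap)
      (GalCommon.span_range_eq_top ρ habs')
    rw [Submodule.map_span, Submodule.map_top, ← Set.range_comp] at h
    exact h.trans (LinearMap.range_eq_top.mpr (LinearMap.toMatrixAlgEquiv b).surjective)
  · set z := resMat ρbar c φ 1 1 with hz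
    have hφD := hφ.mem_decompositionSubgroup
    have hτD := GalCommon.inertiaSubgroupIn_le_decomposition hN.tau_mem
    -- the change of basis is triangular
    have hcomm : ∀ σ, LocP.conjRep g M₀ σ * g.val = g.val * M₀ σ := fun σ => by
      show g.val * M₀ σ * (g⁻¹).val * g.val = _
      rw [mul_assoc, Units.inv_mul, mul_one]
    have hdetτ : M₀ τ₀ 0 0 = -1 := by
      have h := congrArg Matrix.det hN.tau
      rw [LocP.conjRep_apply, Matrix.det_units_conj, Matrix.det_fin_two, h10 τ₀ hτD,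
        h11 τ₀ hN.tau_mem, Matrix.det_fin_two] at h
      simpa using h
    have hg10 : g.val 1 0 = 0 := by
      have h := congrFun (congrFun (hcomm τ₀) 1) 0
      rw [hN.tau] at h
      simp [Matrix.mul_apply, Fin.sum_univ_two, hdetτ, h10 τ₀ hτD] at h
      have h' : (2 : ResidueField T) * g.val 1 0 = 0 := by linear_combination h
      exact (mul_eq_zero.mp h').resolve_left (two_ne_zero' hp2)
    have hg11 : g.val 1 1 ≠ 0 := fun h => by
      refine (g.isUnit.map Matrix.detMonoidHom).ne_zero ?_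
      show g.val.det = 0
      rw [Matrix.det_fin_two, h, hg10]
      ring
    have hzz : residue T (matHom ρ b φ 1 1) = im z := by
      show mapRep (residue T) (matHom ρ b) φ 1 1 = _
      rw [hbar]
      have h := congrFun (congrFun (hcomm φ) 1) 1
      simp [Matrix.mul_apply, Fin.sum_univ_two, hN.lower φ hφD, hg10] at h
      refine mul_right_cancel₀ hg11 (h.trans ?_)
      rw [hM, Matrix.map_apply, mul_comm]
    rw [hzz, ← map_pow, ← map_one im]
    congr 1
    -- `det = x z`, and `x = a z`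
    obtain ⟨x, z', hx, hz', hxz⟩ := hXZ φ hφD
    haveI : NeZero (p ^ 1) := ⟨pow_ne_zero _ (Fact.out : p.Prime).ne_zero⟩
    set a := (Reps.cycMod p 1 φ).val
    have ha : ∀ μ : Qb, μ ^ p ^ 1 = 1 → φ μ = μ ^ a := fun μ hμ => Reps.cycMod_spec p 1 φ hμ
    have hzz' : z' = z := by
      have h := hmem _ (hz' (c 1))
      rw [map_sub, map_smul, Finsupp.sub_apply, Finsupp.smul_apply, Module.Basis.repr_self,
        Finsupp.single_eq_same, smul_eq_mul, mul_one, sub_eq_zero] at h
      rw [hz, resMat, Matrix.of_apply, h]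
    have e1 : x = (a : k) * z := by
      have h := hxz 1 a ha
      rw [pow_one, CharP.cast_eq_zero, Ideal.span_singleton_eq_bot.mpr rfl, Ideal.mem_bot,
        sub_eq_zero, hzz'] at h
      exact h
    have hd := hdet₀ φ a ha
    have hcol0 : ρbar.ρ φ (c 0) = x • c 0 := hx (c 0) (hLc ▸ Submodule.mem_span_singleton_self _)
    rw [← LinearMap.det_toMatrix c, ← hres, Matrix.det_fin_two, ← hz] at hd
    have e00 : resMat ρbar c φ 0 0 = x := by
      rw [resMat, Matrix.of_apply, hcol0]; simp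
    have e10 : resMat ρbar c φ 1 0 = 0 := by
      rw [resMat, Matrix.of_apply, hcol0]; simp
    rw [e00, e10, mul_zero, sub_zero, e1] at hd
    have ha0 : (a : k) ≠ 0 := fun h => by
      refine ((Group.isUnit φ).map (LinearMap.det.comp ρbar.ρ)).ne_zero ?_
      show LinearMap.det (ρbar.ρ φ) = 0
      rw [hdet₀ φ a ha, h]
    exact mul_left_cancel₀ ha0 (by rw [mul_one]; linear_combination hd)

end FLTAgent.Lower.Lift.HopP
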