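import Fermat.Agent.Lower.Lift.HopP.RedSocle
import Fermat.Agent.Lower.Lift.HopP.Algebra
import Fermat.Agent.Lower.Lift.HopP.OldFrame
import Fermat.Agent.Lower.Lift.Descend
import Fermat.Agent.Lower.Levels.Construct
import Fermat.Agent.Lower.Levels.GaloisNew
import Fermat.Prelude.Def_GaloisRep_StrictOrdinary

/-!
# `T_p` at a level prime to `p` with strictly ordinary residual representation

`exists_unitRoot`: there is a unit `u` of the ring of traces with `u T_p = u² + p` on the lattice
and `u² ≡ 1` modulo the maximal ideal, read off Frobenius in the adapted basis, the kernel of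
reduction being killed by a power of `τ₀ + 1`. Hence `exists_heckeTp`: `T_p` lies in the ring of
traces and `T_p² ≡ (p + 1)²`.
-/

set_option autoImplicit false
set_option linter.style.haveILetI false
set_option linter.unusedSectionVars false
set_option maxSynthPendingDepth 4

noncomputable section

open CongruenceSubgroup
open scoped Matrix

namespace FLTAgent.Lower.Lift

open FLTAgent.Lower.Levels
open IsLocalRing (maximalIdeal ResidueField residue)
open FLTAgent.LocP (two_ne_zero')

local notation "Qb" => AlgebraicClosure ℚ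
local notation "Γℚ" => (AlgebraicClosure ℚ ≃ₐ[ℚ] AlgebraicClosure ℚ)

variable {p M : ℕ} [Fact p.Prime] [NeZero M] {S : Finset ℕ} {O : Type} [CommRing O] [IsDomain O]
  [IsDiscreteValuationRing O] [IsAdicComplete (maximalIdeal O) O] [Finite (ResidueField O)]
  [CharZero O] {ρbar : ResidualGaloisRep (ResidueField O)} {R : Type} [CommRing R] [Algebra O R]
  [Module.Finite O R] [Module.Free O R] [Nontrivial R] {d : ℕ} [NeZero d]
  (X : HeckeLattice p M S ρbar R d)

/-- A finite module algebra over `O` is finite modulo `p ^ n`. -/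
theorem finite_quot_pPow {p : ℕ} [Fact p.Prime] {O : Type} [CommRing O] [IsDomain O]
    [IsDiscreteValuationRing O] [Finite (ResidueField O)] [CharZero O]
    (A : Type) [CommRing A] [Algebra O A] [Module.Finite O A] (n : ℕ) :
    Finite (A ⧸ Ideal.span {((p ^ n : ℕ) : A)}) := by
  obtain ⟨g, r, hr⟩ := Module.Finite.exists_fin' O A
  obtain ⟨ϖ, hϖ⟩ := IsDiscreteValuationRing.exists_irreducible O
  obtain ⟨e, he⟩ := IsDiscreteValuationRing.ideal_eq_span_pow_irreducible
    (s := Ideal.span {((p ^ n : ℕ) : O)})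
    (by simp [(Fact.out : p.Prime).ne_zero]) hϖ
  haveI : Finite (O ⧸ Ideal.span {((p ^ n : ℕ) : O)}) := by
    rw [he, ← Ideal.span_singleton_pow, ← hϖ.maximalIdeal_eq]
    exact finite_quot_pow (T := O) e
  refine Finite.of_surjective
    (fun c : Fin g → O ⧸ Ideal.span {((p ^ n : ℕ) : O)} =>
      Ideal.Quotient.mk (Ideal.span {((p ^ n : ℕ) : A)}) (r fun i => Quotient.out (c i))) fun y => ?_
  obtain ⟨a, rfl⟩ := Ideal.Quotient.mk_surjective y
  obtain ⟨v, rfl⟩ := hr a
  refine ⟨fun i => Ideal.Quotient.mk _ (v i), Ideal.Quotient.eq.mpr ?_⟩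
  have h : ∀ i, ∃ w, Quotient.out (Ideal.Quotient.mk (Ideal.span {((p ^ n : ℕ) : O)}) (v i)) - v i =
      ((p ^ n : ℕ) : O) * w := fun i =>
    Ideal.mem_span_singleton.mp (Ideal.Quotient.eq.mp (Quotient.out_eq _))
  choose w hw using h
  rw [← map_sub, show ((fun i => Quotient.out (Ideal.Quotient.mk _ (v i))) - v : Fin g → O) =
    ((p ^ n : ℕ) : O) • w from funext hw, map_smul, Algebra.smul_def, map_natCast]
  exact Ideal.mul_mem_right _ _ (Ideal.mem_span_singleton_self _)

/-- A power of the maximal ideal of a finite local algebra is in `(p)`. -/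
theorem exists_pow_le_span {p : ℕ} [Fact p.Prime] (O : Type) [CommRing O] [IsDomain O]
    [IsDiscreteValuationRing O] [Finite (ResidueField O)] [CharZero O]
    (A : Type) [CommRing A] [IsLocalRing A] [Algebra O A] [Module.Finite O A]
    (hpA : (p : A) ∈ maximalIdeal A) :
    ∃ J : ℕ, 0 < J ∧ maximalIdeal A ^ J ≤ Ideal.span {(p : A)} := by
  haveI : Finite (A ⧸ Ideal.span {(p : A)}) := by
    simpa using finite_quot_pPow (p := p) (O := O) A 1
  set I := Ideal.span {(p : A)}
  haveI : Nontrivial (A ⧸ I) := Ideal.Quotient.nontrivial_iff.mpr fun h =>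
    (IsLocalRing.maximalIdeal.isMaximal A).ne_top
      (top_le_iff.mp (h ▸ (Ideal.span_singleton_le_iff_mem _).mpr hpA))
  haveI : IsLocalRing (A ⧸ I) := .of_surjective' (Ideal.Quotient.mk I) Ideal.Quotient.mk_surjective
  haveI : IsArtinianRing (A ⧸ I) := inferInstance
  obtain ⟨J, hJ⟩ := IsArtinianRing.isNilpotent_jacobson_bot (R := A ⧸ I)
  rw [IsLocalRing.jacobson_eq_maximalIdeal ⊥ bot_ne_top, Ideal.zero_eq_bot] at hJ
  refine ⟨J + 1, J.succ_pos, fun x hx => ?_⟩
  have h := Ideal.mem_map_of_mem (Ideal.Quotient.mk I) (Ideal.pow_le_pow_right J.le_succ hx)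
  rw [Ideal.map_pow] at h
  have hle : (maximalIdeal A).map (Ideal.Quotient.mk I) ≤ maximalIdeal (A ⧸ I) := by
    refine IsLocalRing.le_maximalIdeal fun ht => ?_
    have := congrArg (Ideal.comap (Ideal.Quotient.mk I)) ht
    rw [Ideal.comap_map_of_surjective _ Ideal.Quotient.mk_surjective, Ideal.comap_top,
      ← RingHom.ker_eq_comap_bot, Ideal.mk_ker, sup_eq_left.mpr
        ((Ideal.span_singleton_le_iff_mem _).mpr hpA)] at this
    exact (IsLocalRing.maximalIdeal.isMaximal A).ne_top this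
  have h' := Ideal.pow_right_mono hle J h
  rw [hJ, Ideal.mem_bot, Ideal.Quotient.eq_zero_iff_mem] at h'
  exact h'

/-- The functionals to the `ZMod (p ^ n)` separate a finite free algebra. -/
theorem exists_hom_ne_zero_of_free {p : ℕ} [Fact p.Prime] {O : Type} [CommRing O] [IsDomain O]
    [IsDiscreteValuationRing O] [Finite (ResidueField O)] [CharZero O]
    (hp : (p : O) ∈ maximalIdeal O) {A : Type} [CommRing A] [Algebra O A] [Module.Finite O A]
    [Module.Free O A] {r : A} (hr : r ≠ 0) : ∃ (n : ℕ) (c : A →+ ZMod (p ^ n)), c r ≠ 0 := by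
  let b := Module.Free.chooseBasis O A
  obtain ⟨i, hi⟩ : ∃ i, b.repr r i ≠ 0 := by
    by_contra h
    push Not at h
    exact hr (b.repr.map_eq_zero_iff.mp (Finsupp.ext h))
  obtain ⟨n, hn⟩ : ∃ n, b.repr r i ∉ maximalIdeal O ^ n := by
    by_contra h
    push Not at h
    refine hi (Ideal.mem_bot.mp ?_)
    rw [← Ideal.iInf_pow_eq_bot_of_isLocalRing (maximalIdeal O)
      (IsLocalRing.maximalIdeal.isMaximal O).ne_top]
    exact Submodule.mem_iInf _ |>.mpr h
  haveI := finite_quot_pPow (p := p) (O := O) A n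
  haveI : NeZero (p ^ n) := ⟨pow_ne_zero _ (Fact.out : p.Prime).ne_zero⟩
  set I := Ideal.span {((p ^ n : ℕ) : A)}
  have hne : Ideal.Quotient.mk I r ≠ 0 := by
    rw [Ne, Ideal.Quotient.eq_zero_iff_mem, Ideal.mem_span_singleton]
    rintro ⟨a, ha⟩
    refine hn ?_
    rw [ha, ← nsmul_eq_mul, map_nsmul, Finsupp.smul_apply, nsmul_eq_mul, Nat.cast_pow]
    exact Ideal.mul_mem_right _ _ (Ideal.pow_mem_pow hp n)
  obtain ⟨c, hc⟩ := HopP.exists_zmod_hom_ne_zero (p ^ n)
    (fun g : A ⧸ I => by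
      rw [nsmul_eq_mul, ← map_natCast (Ideal.Quotient.mk I),
        Ideal.Quotient.eq_zero_iff_mem.mpr (Ideal.mem_span_singleton_self _), zero_mul]) hne
  exact ⟨n, c.comp (Ideal.Quotient.mk I).toAddMonoidHom, hc⟩

/-- The functionals to `ZMod (p ^ n)` are finitely many. -/
theorem finite_hom_zmod {p : ℕ} [Fact p.Prime] {O : Type} [CommRing O] [IsDomain O]
    [IsDiscreteValuationRing O] [Finite (ResidueField O)] [CharZero O]
    (A : Type) [CommRing A] [Algebra O A] [Module.Finite O A] (n : ℕ) :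
    Finite (A →+ ZMod (p ^ n)) := by
  haveI : NeZero (p ^ n) := ⟨pow_ne_zero _ (Fact.out : p.Prime).ne_zero⟩
  haveI := finite_quot_pPow (p := p) (O := O) A n
  set I := Ideal.span {((p ^ n : ℕ) : A)}
  refine Finite.of_injective (fun (c : A →+ ZMod (p ^ n)) (q : A ⧸ I) => c (Quotient.out q))
    fun c c' h => AddMonoidHom.ext fun a => ?_
  obtain ⟨w, hw⟩ := Ideal.mem_span_singleton.mp
    (Ideal.Quotient.eq.mp (Quotient.out_eq (Ideal.Quotient.mk I a)).symm)
  have hk : ∀ c : A →+ ZMod (p ^ n), c a = c (Quotient.out (Ideal.Quotient.mk I a)) := fun c => by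
    rw [← sub_eq_zero, ← map_sub, hw, ← nsmul_eq_mul, map_nsmul, nsmul_eq_mul, ZMod.natCast_self,
      zero_mul]
  rw [hk c, hk c']
  exact congrFun h (Ideal.Quotient.mk I a)

/-- An idempotent of trace one and determinant zero sandwiches to a multiple of itself. -/
theorem idem_sandwich {T : Type*} [CommRing T] (E X : Matrix (Fin 2) (Fin 2) T) (hd : E.det = 0) :
    E * X * E = (E * X).trace • E := by
  rw [Matrix.det_fin_two] at hd
  ext i j
  fin_cases i <;> fin_cases j <;>
    simp [Matrix.mul_apply, Matrix.trace_fin_two, Fin.sum_univ_two]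
  · linear_combination (-X 1 1) * hd
  · linear_combination (X 0 1) * hd
  · linear_combination (X 1 0) * hd
  · linear_combination (-X 0 0) * hd

/-- Commutation with the images of spanning elements extends to the algebra. -/
theorem commutes_of_span {T Y G : Type*} [CommRing T] [AddCommGroup Y] [Module T Y]
    {Mr : G → Matrix (Fin 2) (Fin 2) T} (hspan : Submodule.span T (Set.range Mr) = ⊤)
    (Ψ : Matrix (Fin 2) (Fin 2) T →ₐ[T] Module.End T Y) (T' : Y →+ Y)
    (hT't : ∀ (t : T) y, T' (t • y) = t • T' y)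
    (h : ∀ σ y, T' (Ψ (Mr σ) y) = Ψ (Mr σ) (T' y)) (Z : Matrix (Fin 2) (Fin 2) T) (y : Y) :
    T' (Ψ Z y) = Ψ Z (T' y) := by
  have hZ : Z ∈ Submodule.span T (Set.range Mr) := hspan ▸ Submodule.mem_top
  induction hZ using Submodule.span_induction generalizing y with
  | mem Z hZ => obtain ⟨σ, rfl⟩ := hZ; exact h σ y
  | zero => simp
  | add Z Z' _ _ hZ hZ' => simp [hZ, hZ']
  | smul t Z _ hZ => simp [hT't, hZ]

/-- The quadratic relation of Frobenius at a line extends to the module. -/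
theorem sub_smul_eq_zero_of_frobenius {T Y : Type*} [CommRing T] [AddCommGroup Y] [Module T Y]
    (Ψ : Matrix (Fin 2) (Fin 2) T →ₐ[T] Module.End T Y) (T' : Y →+ Y)
    (hT't : ∀ (t : T) y, T' (t • y) = t • T' y)
    (hT'Ψ : ∀ Z y, T' (Ψ Z y) = Ψ Z (T' y)) {E F : Matrix (Fin 2) (Fin 2) T} {u c : T}
    (hEF : E * F = u • E) (hE : IsUnit (E 1 1))
    (h0 : ∀ y, Ψ E (Ψ (F * F) y - T' (Ψ F y) + c • y) = 0) (y : Y) :
    (u ^ 2 + c) • y - u • T' y = 0 := by
  let D : Y → Y := fun y => (u ^ 2 + c) • y - u • T' y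
  have hDE : ∀ y, D (Ψ E y) = 0 := fun y => by
    have h2 : E * (F * F) = (u ^ 2) • E := by
      rw [← mul_assoc, hEF, smul_mul_assoc, hEF, smul_smul, sq]
    have h := h0 y
    rw [map_add, map_sub, map_smul, ← Module.End.mul_apply, ← map_mul Ψ, h2, map_smul,
      LinearMap.smul_apply, ← hT'Ψ E, ← Module.End.mul_apply, ← map_mul Ψ, hEF, map_smul,
      LinearMap.smul_apply, hT't] at h
    show (u ^ 2 + c) • Ψ E y - u • T' (Ψ E y) = 0
    rw [← h, add_smul]
    abel
  have hDadd : ∀ a b, D (a + b) = D a + D b := fun a b => by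
    simp only [D, map_add, smul_add]
    abel
  have hDΨ : ∀ Z y, D (Ψ Z y) = Ψ Z (D y) := fun Z y => by
    simp only [D, map_sub, map_smul, hT'Ψ]
  obtain ⟨w, hw⟩ := hE.exists_left_inv
  have hsum : (1 : Matrix (Fin 2) (Fin 2) T) =
      w • (Matrix.single 0 1 1 * E * Matrix.single 1 0 1 +
        Matrix.single 1 1 1 * E * Matrix.single 1 1 1) := by
    have e1 : Matrix.single (0 : Fin 2) (1 : Fin 2) (1 : T) * E * Matrix.single 1 0 1 +
        Matrix.single 1 1 1 * E * Matrix.single 1 1 1 = E 1 1 • 1 := by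
      ext a b
      fin_cases a <;> fin_cases b <;> simp
    rw [e1, smul_smul, hw, one_smul]
  have hz : ∀ Z Z', D (Ψ (Z * E * Z') y) = 0 := fun Z Z' => by
    rw [map_mul Ψ, map_mul Ψ, Module.End.mul_apply, Module.End.mul_apply, hDΨ, hDE, map_zero]
  have e2 : y = w • (Ψ (Matrix.single 0 1 1 * E * Matrix.single 1 0 1) y +
      Ψ (Matrix.single 1 1 1 * E * Matrix.single 1 1 1) y) := by
    conv_lhs => rw [← Module.End.one_apply (R := T) y, ← map_one Ψ, hsum]
    rw [map_smul, LinearMap.smul_apply, map_add Ψ, LinearMap.add_apply]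
  have hDsm : ∀ a, D (w • a) = w • D a := fun a => by
    simp only [D, smul_sub, hT't, smul_comm w]
  show D y = 0
  rw [e2, hDsm, hDadd, hz, hz, add_zero, smul_zero]

set_option synthInstance.maxHeartbeats 400000 in
/-- The unit root: `u T_p = u ^ 2 + p`. -/
theorem exists_unitRoot (hp2 : p ≠ 2) (hp : (p : O) ∈ maximalIdeal O) (hpM : ¬ p ∣ M)
    {f : ℤ_[p] →+* O} {ρ : GaloisRepAdic X.T} (h : X.IsRep f ρ)
    (habs : ρbar.IsAbsolutelyIrreducible)
    (hdet : (GaloisRepAdic.ofResidualGaloisRep ρbar).DetIsCyclotomic p)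
    (hord : (GaloisRepAdic.ofResidualGaloisRep ρbar).IsStrictOrdinaryAt p)
    (Tp : Matrix (Fin d) (Fin d) R)
    (hTp : ∀ x, X.emb (Tp *ᵥ x) = HeckeH.heckeH M (Fact.out : p.Prime) R R (X.emb x)) :
    ∃ u : X.T, IsUnit u ∧ imgAct X.act u * Tp = imgAct X.act (u ^ 2 + (p : X.T)) ∧
      u ^ 2 - 1 ∈ maximalIdeal X.T := by
  classical
  have hpp : p.Prime := Fact.out
  have hpT : (p : X.T) ∈ maximalIdeal X.T := by
    rw [← map_natCast (algebraMap O X.T)]
    exact map_nonunit _ _ hp
  haveI : CharP (ResidueField O) p := (CharP.charP_iff_prime_eq_zero hpp).mpr (by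
    rw [← map_natCast (residue O), IsLocalRing.residue_eq_zero_iff]; exact hp)
  haveI : CharP (ResidueField X.T) p := (CharP.charP_iff_prime_eq_zero hpp).mpr (by
    rw [← map_natCast (residue X.T), IsLocalRing.residue_eq_zero_iff]; exact hpT)
  have htwo : IsUnit (2 : X.T) := IsLocalRing.notMem_maximalIdeal.mp fun h2 =>
    two_ne_zero' (k := ResidueField X.T) hp2 (by
      rw [← IsLocalRing.residue_eq_zero_iff, map_ofNat] at h2; exact h2)
  obtain ⟨b, A, φ, τ₀, ϖ, ζ, hA, hφ, hdetM, hN, hspanM, hu1⟩ :=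
    HopP.exists_ordinary_frame hp2 ρ (ResidueField.map (algebraMap O X.T)) h.residual habs hdet hord
  set Mr := matHom ρ b
  set f' := (algebraMap O R).comp f
  -- the span of the translates as a module over the ring of traces
  set act := imgAct X.act
  let sp := RepModule.actSpan f X.hom act X.emb X.adjoin_range_hom X.emb_hom
  letI : Module X.T ↥(RepModule.span f X.emb) := Module.compHom ↥(RepModule.span f X.emb) sp
  have hsm : ∀ (t : X.T) (y : ↥(RepModule.span f X.emb)), t • y = sp t y := fun _ _ => rfl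
  have hcen : ∀ σ t (y : ↥(RepModule.span f X.emb)),
      sp t ⟨galH M f' σ y.1, RepModule.galH_mem f X.emb σ y.2⟩ =
        ⟨galH M f' σ (sp t y).1, RepModule.galH_mem f X.emb σ (sp t y).2⟩ := fun σ t y => by
    have hc := RepModule.galH_mem_centr f X.hom act X.emb X.adjoin_range_hom X.emb_hom σ
    rw [RepModule.centr, Subring.mem_centralizer_iff] at hc
    exact LinearMap.congr_fun (hc (sp t) ⟨t, rfl⟩) y
  let γ : Γℚ →* Module.End X.T ↥(RepModule.span f X.emb) :=
    { toFun := fun σ =>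
        { toFun := fun y => ⟨galH M f' σ y.1, RepModule.galH_mem f X.emb σ y.2⟩
          map_add' := fun y y' => Subtype.ext (map_add (galH M f' σ) y.1 y'.1)
          map_smul' := fun t y => (hcen σ t y).symm }
      map_one' := LinearMap.ext fun y => Subtype.ext (by
        show galH M f' 1 y.1 = y.1
        rw [galH_one, Module.End.one_apply])
      map_mul' := fun σ τ => LinearMap.ext fun y => Subtype.ext (by
        show galH M f' (σ * τ) y.1 = galH M f' σ (galH M f' τ y.1)
        rw [galH_mul, Module.End.mul_apply]) }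
  have hγ : ∀ σ (y : ↥(RepModule.span f X.emb)), (γ σ y : Period.H M R R) = galH M f' σ y.1 := fun _ _ => rfl
  let g₀ : Γℚ → (Fin d → R) → ↥(RepModule.span f X.emb) := fun g x =>
    ⟨RepModule.gen f X.emb g x, RepModule.gen_mem f X.emb g x⟩
  have hgt : ∀ (t : X.T) g x, t • g₀ g x = g₀ g (act t *ᵥ x) := fun t g x =>
    Subtype.ext (RepModule.actSpan_gen f X.hom act X.emb X.adjoin_range_hom X.emb_hom t g x)
  have hgγ : ∀ σ g x, γ σ (g₀ g x) = g₀ (σ * g) x := fun σ g x =>
    Subtype.ext (RepModule.galH_gen f X.emb σ g x)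
  have hgen : ∀ {Z : Type} [AddCommGroup Z] (F G : ↥(RepModule.span f X.emb) →+ Z), (∀ g x, F (g₀ g x) = G (g₀ g x)) →
      ∀ y, F y = G y := by
    intro Z _ F G hFG y
    obtain ⟨y, hy⟩ := y
    revert hy
    intro hy
    have key : ∀ (r : R) (z : Period.H M R R) (hz : z ∈ RepModule.span f X.emb),
        F ⟨r • z, Submodule.smul_mem _ r hz⟩ = G ⟨r • z, Submodule.smul_mem _ r hz⟩ := by
      intro r z hz
      induction hz using Submodule.span_induction generalizing r with
      | mem z hz =>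
        obtain ⟨⟨g, x⟩, rfl⟩ := hz
        have e : (⟨r • RepModule.gen f X.emb g x, Submodule.smul_mem _ r
            (RepModule.gen_mem f X.emb g x)⟩ : ↥(RepModule.span f X.emb)) = g₀ g (r • x) :=
          Subtype.ext (RepModule.gen_smul f X.emb g r x).symm
        rw [e]
        exact hFG _ _
      | zero =>
        have e : (⟨r • (0 : Period.H M R R), Submodule.smul_mem _ r (zero_mem _)⟩ : ↥(RepModule.span f X.emb)) = 0 :=
          Subtype.ext (smul_zero r)
        rw [e, map_zero, map_zero]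
      | add z z' hz hz' ih ih' =>
        have e : (⟨r • (z + z'), Submodule.smul_mem _ r (add_mem hz hz')⟩ : ↥(RepModule.span f X.emb)) =
            ⟨r • z, Submodule.smul_mem _ r hz⟩ + ⟨r • z', Submodule.smul_mem _ r hz'⟩ :=
          Subtype.ext (smul_add r z z')
        exact (congrArg F e).trans ((map_add F _ _).trans ((congrArg₂ (· + ·) (ih r) (ih' r)).trans
          ((map_add G _ _).symm.trans (congrArg G e).symm)))
      | smul a z hz ih =>
        have e : (⟨r • a • z, Submodule.smul_mem _ r (Submodule.smul_mem _ a hz)⟩ : ↥(RepModule.span f X.emb)) =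
            ⟨(r * a) • z, Submodule.smul_mem _ _ hz⟩ := Subtype.ext (smul_smul r a z)
        rw [e]
        exact ih _
    simpa using key 1 y hy
  have hfaith : ∀ t : X.T, (∀ y : ↥(RepModule.span f X.emb), t • y = 0) → t = 0 := by
    intro t ht
    refine imgAct_injective X.act (Matrix.ext fun i j => ?_)
    have h1 := congrArg Subtype.val ((hgt t 1 (Pi.single j 1)).symm.trans (ht _))
    change RepModule.gen f X.emb 1 _ = (0 : Period.H M R R) at h1
    rw [RepModule.gen_one, ← map_zero X.emb] at h1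
    have h2 := congrFun (X.emb_injective h1) i
    simp [act, Matrix.mulVec_single] at h2
    rw [h2, map_zero]
    rfl
  haveI : Nontrivial ↥(RepModule.span f X.emb) := by
    refine ⟨⟨g₀ 1 (Pi.single 0 1), 0, fun h0 => ?_⟩⟩
    have h1 := congrArg Subtype.val h0
    change RepModule.gen f X.emb 1 _ = (0 : Period.H M R R) at h1
    rw [RepModule.gen_one, ← map_zero X.emb] at h1
    have h2 := congrFun (X.emb_injective h1) 0
    simp at h2
  have hrel : ∀ g, γ g * γ g - LinearMap.trace X.T ρ.V (ρ.ρ g) • γ g +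
      LinearMap.det (ρ.ρ g) • 1 = 0 := by
    intro g
    refine LinearMap.ext fun y => ?_
    refine hgen (AddMonoidHom.mk' _ (map_add (γ g * γ g - LinearMap.trace X.T ρ.V (ρ.ρ g) • γ g +
      LinearMap.det (ρ.ρ g) • 1))) 0 (fun h' x => ?_) y
    obtain ⟨σ, hσ⟩ : ∃ σ, σ = h'⁻¹ * g * h' := ⟨_, rfl⟩
    have ht : LinearMap.trace X.T ρ.V (ρ.ρ g) = ρ.trace σ := by
      rw [GaloisRepAdic.trace, hσ, map_mul ρ.ρ, map_mul ρ.ρ, LinearMap.trace_mul_cycle,
        ← map_mul ρ.ρ, mul_inv_cancel, map_one, one_mul]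
    have hd : LinearMap.det (ρ.ρ g) = LinearMap.det (ρ.ρ σ) := by
      rw [hσ, map_mul ρ.ρ, map_mul ρ.ρ, map_mul LinearMap.det, map_mul LinearMap.det,
        mul_right_comm, ← map_mul LinearMap.det, ← map_mul ρ.ρ, inv_mul_cancel, map_one, map_one,
        one_mul]
    simp only [AddMonoidHom.mk'_apply, AddMonoidHom.zero_apply, ht, hd, LinearMap.add_apply,
      LinearMap.sub_apply, LinearMap.smul_apply, Module.End.mul_apply, Module.End.one_apply, hgγ,
      hgt]
    refine Subtype.ext ?_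
    show RepModule.gen f X.emb _ x - RepModule.gen f X.emb _ _ + RepModule.gen f X.emb _ _ =
      (0 : Period.H M R R)
    have e := congrArg (galH M f' h') (h.galH_rel σ x)
    rw [map_add, map_sub, map_zero] at e
    simp only [RepModule.gen]
    rw [show g * (g * h') = h' * σ * σ by rw [hσ]; group,
      show g * h' = h' * σ by rw [hσ]; group]
    simp only [galH_mul, Module.End.mul_apply]
    exact e
  obtain ⟨ψ, hψ⟩ := exists_hom_of_quadratic (ρ := ρ.ρ) (γ := γ) b hrel
    (fun y hy => by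
      obtain ⟨w, hw⟩ := htwo.exists_left_inv
      exact (one_smul X.T y).symm.trans ((congrArg (· • y) hw).symm.trans
        ((mul_smul w 2 y).trans ((congrArg (w • ·) hy).trans (smul_zero w)))))
    (GalCommon.span_range_eq_top ρ (by
      obtain ⟨e⟩ := h.residual
      exact GalCommon.isAbsolutelyIrreducible_of_isEquiv ⟨e.symm⟩
        (Levels.absIrr_baseChangeAlong _ ρbar habs)))
  let Ψ : Matrix (Fin 2) (Fin 2) X.T →ₐ[X.T] Module.End X.T ↥(RepModule.span f X.emb) :=
    ψ.comp (LinearMap.toMatrixAlgEquiv b).symm.toAlgHom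
  have hΨM : ∀ σ, Ψ (Mr σ) = γ σ := fun σ => by
    show ψ ((LinearMap.toMatrixAlgEquiv b).symm (LinearMap.toMatrixAlgEquiv b (ρ.ρ σ))) = _
    rw [AlgEquiv.symm_apply_apply, hψ]
  have hΨinj : Function.Injective Ψ :=
    (injective_of_faithful b ψ hfaith).comp (LinearMap.toMatrixAlgEquiv b).symm.injective
  -- coordinates
  let j : ↥(RepModule.span f X.emb) →+ (Fin (Period.rankH M) → R) :=
    ((Period.evalEquiv M R R).toLinearMap.comp (RepModule.span f X.emb).subtype).toAddMonoidHom
  have hjinj : Function.Injective j :=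
    (Period.evalEquiv M R R).injective.comp Subtype.val_injective
  have hjγ : ∀ σ (y : ↥(RepModule.span f X.emb)), j (γ σ y) = (Reps.tateMat M p σ).map f' *ᵥ j y := fun σ y =>
    evalEquiv_galH f' σ y.1
  have hcoeff : ∀ t : X.T, ∃ P : Matrix (Fin (Period.rankH M)) (Fin (Period.rankH M)) R,
      (∀ (n : ℕ) (v : Fin (Period.rankH M) → R), v ∈ HopP.redKer M p n A →
        P *ᵥ v ∈ HopP.redKer M p n A) ∧ ∀ y : ↥(RepModule.span f X.emb), j (t • y) = P *ᵥ j y := by
    intro t
    have ht : t ∈ Algebra.adjoin O (Set.range X.hom) := X.adjoin_range_hom ▸ trivial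
    induction ht using Algebra.adjoin_induction with
    | mem t ht =>
      obtain ⟨t₀, rfl⟩ := ht
      refine ⟨_, fun n v hv => HopP.heckeMat_mem_redKer hpM hA
        (Subalgebra.inclusion (CuspForm.heckeAlgebra_mono (Set.empty_subset (↑S : Set ℕ))) t₀) hv,
        fun y => ?_⟩
      refine hgen (AddMonoidHom.mk' (fun y => j (X.hom t₀ • y)) fun y y' => by
          simp only [smul_add, map_add])
        ((Matrix.mulVecLin ((HeckeH.heckeMatHom M (Subalgebra.inclusion
          (CuspForm.heckeAlgebra_mono (Set.empty_subset (↑S : Set ℕ))) t₀)).map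
            (Int.castRingHom R))).toAddMonoidHom.comp j) (fun g x => ?_) y
      show j (X.hom t₀ • g₀ g x) = _ *ᵥ j (g₀ g x)
      rw [hgt]
      exact ((congrArg (Period.evalEquiv M R R)
        (RepModule.heckeEnd_gen f X.hom act X.emb X.emb_hom t₀ g x)).symm).trans
          (evalEquiv_heckeEnd _ _)
    | algebraMap a =>
      refine ⟨algebraMap O R a • 1, fun n v hv => ?_, fun y => ?_⟩
      · rw [Matrix.smul_mulVec, Matrix.one_mulVec]
        exact HopP.smul_mem_redKer _ hv
      · rw [Matrix.smul_mulVec, Matrix.one_mulVec, hsm]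
        show Period.evalEquiv M R R ((sp (algebraMap O X.T a) y : ↥(RepModule.span f X.emb)) : Period.H M R R) = _
        rw [show sp (algebraMap O X.T a) = _ from RepModule.actSpan_algebraMap f X.hom act X.emb
          X.adjoin_range_hom X.emb_hom a, LinearMap.smul_apply, Module.End.one_apply,
          Submodule.coe_smul, map_smul]
        rfl
    | add t t' _ _ ht ht' =>
      obtain ⟨P, hP, hjP⟩ := ht
      obtain ⟨P', hP', hjP'⟩ := ht'
      exact ⟨P + P', fun n v hv => by rw [Matrix.add_mulVec]; exact add_mem (hP n v hv) (hP' n v hv),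
        fun y => by rw [add_smul, map_add, hjP, hjP', Matrix.add_mulVec]⟩
    | mul t t' _ _ ht ht' =>
      obtain ⟨P, hP, hjP⟩ := ht
      obtain ⟨P', hP', hjP'⟩ := ht'
      exact ⟨P * P', fun n v hv => by rw [← Matrix.mulVec_mulVec]; exact hP n _ (hP' n v hv),
        fun y => by rw [mul_smul, hjP, hjP', Matrix.mulVec_mulVec]⟩
  have hCA : HopP.CoordAct j f' Mr Ψ A := ⟨fun σ y => by rw [hΨM, hjγ], hcoeff, hspanM⟩
  have hsep : ∀ v : Fin (Period.rankH M) → R, (∀ n, v ∈ HopP.nullVec M p n R) → v = 0 := by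
    intro v hv
    funext i
    by_contra hi
    obtain ⟨n, c, hc⟩ := exists_hom_ne_zero_of_free (A := R) hp hi
    exact hc (hv n c i)
  obtain ⟨J, hJ0, hJ⟩ := exists_pow_le_span O X.T hpT
  have hkill : ∀ n (y : ↥(RepModule.span f X.emb)), j y ∈ HopP.redKer M p n A →
      j (Ψ ((Mr τ₀ + 1) ^ (J * n)) y) ∈ HopP.nullVec M p n R := fun n y hy => by
    haveI := finite_hom_zmod (p := p) (O := O) R n
    exact hCA.pow_mul_null hp2 hpM hA hdetM hN hJ hy
  -- the idempotent
  let F : ℕ → Submodule X.T ↥(RepModule.span f X.emb) := fun n =>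
    { carrier := {y | j y ∈ HopP.nullVec M p (n / J) R}
      zero_mem' := Set.mem_ofPred.mpr (by rw [map_zero]; exact zero_mem _)
      add_mem' := fun {a b} ha hb => Set.mem_ofPred.mpr (by
        rw [map_add]; exact add_mem (Set.mem_ofPred.mp ha) (Set.mem_ofPred.mp hb))
      smul_mem' := fun t y hy => hCA.smul_null t hy }
  let Mlin : Matrix (Fin 2) (Fin 2) X.T ≃ₐ[X.T] Module.End X.T (Fin 2 → X.T) := Matrix.toLinAlgEquiv'
  have hMτ : ∀ i l, residue X.T (Mr τ₀ i l) =
      (!![-1, 0; 0, 1] : Matrix (Fin 2) (Fin 2) (ResidueField X.T)) i l :=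
    fun i l => congrFun (congrFun hN.tau i) l
  have hdetτ : LinearMap.det (Mlin (Mr τ₀)) - (-1) ∈ maximalIdeal X.T := by
    rw [← IsLocalRing.residue_eq_zero_iff, map_sub,
      show LinearMap.det (Mlin (Mr τ₀)) = (Mr τ₀).det from LinearMap.det_toLin' _, Matrix.det_fin_two]
    simp [hMτ]
  have hI : ∀ σ ∈ A.inertiaSubgroupIn ℚ, ∀ n (y : ↥(RepModule.span f X.emb)),
      j (Ψ ((Mr τ₀ + 1) ^ n * (Mr σ - 1)) y) ∈ HopP.nullVec M p (n / J) R := by
    intro σ hσ n y
    have hw : j (Ψ (Mr σ - 1) y) ∈ HopP.redKer M p (n / J) A := by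
      rw [show j (Ψ (Mr σ - 1) y) = (Reps.tateMat M p σ).map f' *ᵥ j y - j y from
        ((congrArg j (LinearMap.congr_fun ((map_sub Ψ _ _).trans
          (congrArg₂ (· - ·) (hΨM σ) (map_one Ψ))) y)).trans (map_sub j _ _)).trans
          (congrArg (· - j y) (hjγ σ y))]
      exact HopP.inertia_sub_mem_redKer hpM hA f' hσ _
    have h1 := hCA.apply_null ((Mr τ₀ + 1) ^ (n - J * (n / J))) (hkill _ _ hw)
    have eX : (Mr τ₀ + 1) ^ (n - J * (n / J)) * ((Mr τ₀ + 1) ^ (J * (n / J)) * (Mr σ - 1)) =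
        (Mr τ₀ + 1) ^ n * (Mr σ - 1) := by
      rw [← mul_assoc, ← pow_add, Nat.sub_add_cancel (Nat.mul_div_le n J)]
    exact (congrArg (fun z => j z ∈ HopP.nullVec M p (n / J) R)
      (((congrArg (Ψ _) (LinearMap.congr_fun (map_mul Ψ _ _) y).symm).trans
        (LinearMap.congr_fun (map_mul Ψ _ _) y).symm).trans (congrArg (Ψ · y) eX))).mp h1
  obtain ⟨e, hee, htre, -, heZ, hkere⟩ := exists_proj_kills (Pi.basisFun X.T (Fin 2))
    (Ψ.comp Mlin.symm.toAlgHom) (hΨinj.comp Mlin.symm.injective) F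
    (fun y hy => hjinj ((hsep _ fun n => by
      have := hy (J * n)
      change j y ∈ HopP.nullVec M p (J * n / J) R at this
      rwa [Nat.mul_div_cancel_left n hJ0] at this).trans (map_zero j).symm))
    (fun Xl n y hy => hCA.apply_null _ hy)
    (fun B hB y hy => hjinj (funext fun i => by
      haveI : CharZero O := inferInstance
      have h1 := congrFun (congrArg j hy) i
      rw [map_nsmul, map_zero, Pi.smul_apply, ← Nat.cast_smul_eq_nsmul O] at h1
      rw [map_zero]
      exact (smul_eq_zero.mp h1).resolve_left (Nat.cast_ne_zero.mpr hB)))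
    (Mlin (Mr τ₀)) (-1) hdetτ isUnit_one.neg
    (by rw [show (-1 : X.T) - 1 = -2 by ring]; exact htwo.neg)
    (fun σ : A.inertiaSubgroupIn ℚ => Mlin (Mr σ.1) - 1) (i₀ := ⟨τ₀, hN.tau_mem⟩) rfl one_ne_zero
    (fun σ n y => by
      have e1 : (Mlin (Mr τ₀) - (-1 : X.T) • 1) ^ n * (Mlin (Mr σ.1) - 1) =
          Mlin ((Mr τ₀ + 1) ^ n * (Mr σ.1 - 1)) := by
        rw [map_mul Mlin, map_pow Mlin, map_add Mlin, map_sub Mlin, map_one Mlin, neg_one_smul, sub_neg_eq_add]
      rw [one_smul, AlgHom.comp_apply, e1]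
      exact Set.mem_ofPred.mpr ((congrArg (fun Z => j (Ψ Z y) ∈ HopP.nullVec M p (n / J) R)
        (Mlin.symm_apply_apply _)).mpr (hI σ.1 σ.2 n y)))
  obtain ⟨E, rfl⟩ := Mlin.surjective e
  have hEZ : ∀ σ ∈ A.inertiaSubgroupIn ℚ, E * (Mr σ - 1) = 0 := fun σ hσ => Mlin.injective (by
    rw [map_mul, map_sub, map_one, map_zero]
    exact heZ ⟨σ, hσ⟩)
  have hEE : E * E = E := Mlin.injective (by rw [map_mul]; exact hee)
  have htrE : E.trace = 1 := by
    rw [← htre]
    exact (Matrix.trace_toLin'_eq E).symm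
  have hdetE : E.det = 0 := by
    have h1 : E.det * (E.det - 1) = 0 := by
      rw [mul_sub, mul_one, ← Matrix.det_mul, hEE, sub_self]
    rcases IsLocalRing.isUnit_or_isUnit_of_isUnit_add (a := E.det) (b := -(E.det - 1))
      (by rw [neg_sub, add_sub_cancel]; exact isUnit_one) with hu | hu
    · exfalso
      have h2 : E = 1 := by
        refine ((Matrix.isUnit_iff_isUnit_det E).mpr hu).mul_left_cancel ?_
        rw [hEE, mul_one]
      rw [h2, Matrix.trace_one, Fintype.card_fin] at htrE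
      norm_num at htrE
    · exact (hu.neg.mul_left_eq_zero.mp (by rwa [neg_neg]))
  have hEres : ∀ i, residue X.T (E i 0) = 0 := by
    intro i
    have h1 := congrArg (residue X.T) (congrFun (congrFun (hEZ τ₀ hN.tau_mem) i) 0)
    simp [Matrix.mul_apply, Fin.sum_univ_two, hMτ] at h1
    rcases h1 with h1 | h1
    · exact (IsLocalRing.residue_eq_zero_iff _).mpr h1
    · exact absurd (by linear_combination -h1) (two_ne_zero' (k := ResidueField X.T) hp2)
  have hE11 : residue X.T (E 1 1) = 1 := by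
    have h1 := congrArg (residue X.T) htrE
    rwa [Matrix.trace_fin_two, map_add, map_one, hEres, zero_add] at h1
  obtain ⟨u, hu⟩ : ∃ u, u = (E * Mr φ).trace := ⟨_, rfl⟩
  have hures : residue X.T u = residue X.T (Mr φ 1 1) := by
    have h10 : residue X.T (Mr φ 1 0) = 0 := hN.lower φ hφ.mem_decompositionSubgroup
    rw [hu, Matrix.trace_fin_two]
    simp [Matrix.mul_apply, Fin.sum_univ_two, hEres, hE11, h10]
  have hu2 : u ^ 2 - 1 ∈ maximalIdeal X.T := by
    rw [← IsLocalRing.residue_eq_zero_iff, map_sub, map_pow, map_one, hures, hu1, sub_self]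
  have huu : IsUnit u := IsLocalRing.notMem_maximalIdeal.mp fun hm => by
    rw [← IsLocalRing.residue_eq_zero_iff] at hm hu2
    rw [map_sub, map_pow, map_one, hm] at hu2
    simp at hu2
  have hEφ : E * Mr φ = u • E := by
    have h0 : E * Mr φ * (1 - E) = 0 := by
      refine Mlin.injective (LinearMap.ext fun x => ?_)
      have hv : Mlin E (Mlin (1 - E) x) = 0 := by
        rw [← Module.End.mul_apply, ← map_mul, mul_sub, mul_one, hEE, sub_self, map_zero]
        rfl
      obtain ⟨w, hw⟩ := hkere _ hv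
      rw [map_mul Mlin, Module.End.mul_apply, ← hw, map_zero, LinearMap.zero_apply]
      have h2 : E * Mr φ * (Mr τ₀ - 1) = 0 := by
        have h3 := hEZ _ (LocP.conj_mem_inertia hφ.mem_decompositionSubgroup hN.tau_mem)
        rw [map_mul Mr, map_mul Mr] at h3
        calc E * Mr φ * (Mr τ₀ - 1)
            = E * (Mr φ * Mr τ₀ * Mr φ⁻¹ - 1) * Mr φ := by
              have h5 : Mr φ⁻¹ * Mr φ = 1 := by rw [← map_mul Mr, inv_mul_cancel, map_one]
              rw [mul_assoc E (Mr φ), mul_assoc E]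
              exact congrArg (E * ·)
                (by rw [mul_sub, mul_one, sub_mul, one_mul, mul_assoc, h5, mul_one])
          _ = 0 := by rw [h3, zero_mul]
      have h4 := LinearMap.congr_fun (congrArg Mlin h2) w
      rw [map_mul Mlin, Module.End.mul_apply, map_sub Mlin, map_one Mlin, LinearMap.sub_apply,
        Module.End.one_apply, map_zero, LinearMap.zero_apply] at h4
      exact h4
    rw [hu, ← idem_sandwich E (Mr φ) hdetE]
    rw [mul_sub, mul_one, sub_eq_zero] at h0
    exact h0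
  -- `T_p` on the span
  obtain ⟨tp, htp⟩ : ∃ tp, tp = Reps.heckeTOf (Fact.out : p.Prime) hpM := ⟨_, rfl⟩
  have hTend : ∀ x, HeckeH.heckeEnd M R R tp x = HeckeH.heckeH M (Fact.out : p.Prime) R R x := by
    intro x
    rw [htp, ← Reps.heckeGenOf_T M Fact.out hpM]
    exact LinearMap.congr_fun (Reps.heckeEnd_heckeGenOf M ⟨p, Fact.out⟩ R R) x
  have hTmem : ∀ y ∈ RepModule.span f X.emb,
      HeckeH.heckeEnd M R R tp y ∈ RepModule.span f X.emb := by
    intro y hy
    induction hy using Submodule.span_induction with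
    | mem y hy =>
      obtain ⟨⟨g, x⟩, rfl⟩ := hy
      have e : HeckeH.heckeEnd M R R tp (RepModule.gen f X.emb g x) =
          RepModule.gen f X.emb g (Tp *ᵥ x) := by
        rw [RepModule.gen, RepModule.gen, ← galH_heckeEnd, hTend, hTp]
      rw [e]
      exact RepModule.gen_mem f X.emb _ _
    | zero => rw [map_zero]; exact zero_mem _
    | add y z _ _ hy hz => rw [map_add]; exact add_mem hy hz
    | smul a y _ hy => rw [map_smul]; exact Submodule.smul_mem _ a hy
  let T' : ↥(RepModule.span f X.emb) →+ ↥(RepModule.span f X.emb) := AddMonoidHom.mk'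
    (fun y => ⟨HeckeH.heckeEnd M R R tp y.1, hTmem _ y.2⟩)
    fun y y' => Subtype.ext (map_add (HeckeH.heckeEnd M R R tp) y.1 y'.1)
  have hT'gen : ∀ g x, T' (g₀ g x) = g₀ g (Tp *ᵥ x) := fun g x => Subtype.ext (by
    show HeckeH.heckeEnd M R R tp (RepModule.gen f X.emb g x) = RepModule.gen f X.emb g (Tp *ᵥ x)
    rw [RepModule.gen, RepModule.gen, ← galH_heckeEnd, hTend, hTp])
  have hjT : ∀ y : ↥(RepModule.span f X.emb), j (T' y) =
      (HeckeH.heckeMatHom M tp).map (Int.castRingHom R) *ᵥ j y := fun y =>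
    evalEquiv_heckeEnd tp y.1
  have hcomm : ∀ (t : X.T) (x : Fin d → R), Tp *ᵥ (act t *ᵥ x) = act t *ᵥ (Tp *ᵥ x) := by
    intro t
    have ht : t ∈ Algebra.adjoin O (Set.range X.hom) := X.adjoin_range_hom ▸ trivial
    induction ht using Algebra.adjoin_induction with
    | mem t ht =>
      obtain ⟨t₀, rfl⟩ := ht
      intro x
      refine X.emb_injective ((Period.evalEquiv M R R).injective ?_)
      rw [hTp, ← hTend, X.emb_hom, X.emb_hom, hTp, ← hTend, evalEquiv_heckeEnd, evalEquiv_heckeEnd,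
        evalEquiv_heckeEnd, evalEquiv_heckeEnd, Matrix.mulVec_mulVec, Matrix.mulVec_mulVec,
        ← Matrix.map_mul, ← Matrix.map_mul, ← map_mul, ← map_mul, mul_comm]
    | algebraMap a =>
      intro x
      rw [RepModule.act_algebraMap_mulVec, RepModule.act_algebraMap_mulVec, Matrix.mulVec_smul]
    | add t t' _ _ ht ht' =>
      intro x
      rw [map_add, Matrix.add_mulVec, Matrix.mulVec_add, ht, ht', Matrix.add_mulVec]
    | mul t t' _ _ ht ht' =>
      intro x
      rw [map_mul, ← Matrix.mulVec_mulVec, ht, ht', ← Matrix.mulVec_mulVec]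
  have hT't : ∀ (t : X.T) (y : ↥(RepModule.span f X.emb)), T' (t • y) = t • T' y := fun t y =>
    hgen (T'.comp (DistribSMul.toAddMonoidHom ↥(RepModule.span f X.emb) t)) ((DistribSMul.toAddMonoidHom ↥(RepModule.span f X.emb) t).comp T')
      (fun g x => by
        show T' (t • g₀ g x) = t • T' (g₀ g x)
        rw [hgt, hT'gen, hT'gen, hgt, hcomm]) y
  have hT'Ψ : ∀ (Z : Matrix (Fin 2) (Fin 2) X.T) (y : ↥(RepModule.span f X.emb)),
      T' (Ψ Z y) = Ψ Z (T' y) :=
    commutes_of_span hspanM Ψ T' hT't fun σ y => (congrArg T' (LinearMap.congr_fun (hΨM σ) y)).trans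
      ((Subtype.ext (galH_heckeEnd f' tp σ y.1).symm).trans (LinearMap.congr_fun (hΨM σ) (T' y)).symm)
  have hEn : ∀ n : ℕ, E * (Mr τ₀ + 1) ^ n = (2 : X.T) ^ n • E := fun n => by
    induction n with
    | zero => simp
    | succ n ih =>
      have e1 : E * (Mr τ₀ + 1) = (2 : X.T) • E := by
        have h1 := hEZ τ₀ hN.tau_mem
        rw [mul_sub, mul_one, sub_eq_zero] at h1
        rw [mul_add, mul_one, h1, two_smul]
      rw [pow_succ, ← mul_assoc, ih, smul_mul_assoc, e1, smul_smul, ← pow_succ]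
  have hkillE : ∀ w : ↥(RepModule.span f X.emb), (∀ n, j w ∈ HopP.redKer M p n A) → Ψ E w = 0 :=
    fun w hw => hjinj ((hsep _ fun n => by
      obtain ⟨v, hv⟩ := (htwo.pow (J * n)).exists_left_inv
      have h1 := hCA.smul_null v (hCA.apply_null E (hkill n w (hw n)))
      have e0 : v • Ψ E (Ψ ((Mr τ₀ + 1) ^ (J * n)) w) = Ψ E w :=
        (congrArg (v • ·) (LinearMap.congr_fun ((map_mul Ψ _ _).symm.trans
          ((congrArg Ψ (hEn _)).trans (map_smul Ψ _ _))) w)).trans
          ((smul_smul v _ (Ψ E w)).trans ((congrArg (· • Ψ E w) hv).trans (one_smul _ _)))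
      exact (congrArg (fun z => j z ∈ HopP.nullVec M p n R) e0).mp h1).trans (map_zero j).symm)
  have hfrob : ∀ y : ↥(RepModule.span f X.emb),
      Ψ E (Ψ (Mr φ * Mr φ) y - T' (Ψ (Mr φ) y) + (p : X.T) • y) = 0 := fun y => by
    refine hkillE _ fun n => ?_
    have h1 := HopP.frobenius_mem_redKer (R := R) (n := n) hpM hA f' hφ (j y)
    rw [← htp] at h1
    have e : j (Ψ (Mr φ * Mr φ) y - T' (Ψ (Mr φ) y) + (p : X.T) • y) =
        (Reps.tateMat M p φ).map f' *ᵥ ((Reps.tateMat M p φ).map f' *ᵥ j y) -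
          (HeckeH.heckeMatHom M tp).map (Int.castRingHom R) *ᵥ
            ((Reps.tateMat M p φ).map f' *ᵥ j y) + p • j y := by
      have eφ : ∀ z, j (Ψ (Mr φ) z) = (Reps.tateMat M p φ).map f' *ᵥ j z := fun z =>
        (congrArg j (LinearMap.congr_fun (hΨM φ) z)).trans (hjγ φ z)
      refine (map_add j _ _).trans (congrArg₂ (· + ·)
        ((map_sub j _ _).trans (congrArg₂ (· - ·) ?_ ?_))
        ((congrArg j (Nat.cast_smul_eq_nsmul X.T p y)).trans (map_nsmul j p y)))
      · exact (congrArg j (LinearMap.congr_fun (map_mul Ψ (Mr φ) (Mr φ)) y)).trans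
          ((eφ _).trans (congrArg _ (eφ y)))
      · exact (hjT _).trans (congrArg _ (eφ y))
    rw [e]
    exact h1
  have hD : ∀ y : ↥(RepModule.span f X.emb), (u ^ 2 + (p : X.T)) • y - u • T' y = 0 :=
    sub_smul_eq_zero_of_frobenius Ψ T' hT't hT'Ψ hEφ (IsLocalRing.notMem_maximalIdeal.mp fun hm => by
      rw [← IsLocalRing.residue_eq_zero_iff, hE11] at hm
      exact one_ne_zero hm) hfrob
  refine ⟨u, huu, Matrix.ext_of_mulVec_single fun i => ?_, hu2⟩
  have h1 := congrArg Subtype.val (sub_eq_zero.mp (hD (g₀ 1 (Pi.single i 1))))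
  rw [hgt, hT'gen, hgt] at h1
  change RepModule.gen f X.emb 1 _ = RepModule.gen f X.emb 1 _ at h1
  rw [RepModule.gen_one, RepModule.gen_one] at h1
  rw [← Matrix.mulVec_mulVec]
  exact (X.emb_injective h1).symm

/-- `T_p` is in the ring of traces, and `T_p ^ 2 ≡ (p + 1) ^ 2`. -/
theorem exists_heckeTp (hp2 : p ≠ 2) (hp : (p : O) ∈ maximalIdeal O) (hpM : ¬ p ∣ M)
    {f : ℤ_[p] →+* O} {ρ : GaloisRepAdic X.T} (h : X.IsRep f ρ)
    (habs : ρbar.IsAbsolutelyIrreducible)
    (hdet : (GaloisRepAdic.ofResidualGaloisRep ρbar).DetIsCyclotomic p)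
    (hord : (GaloisRepAdic.ofResidualGaloisRep ρbar).IsStrictOrdinaryAt p)
    (Tp : Matrix (Fin d) (Fin d) R)
    (hTp : ∀ x, X.emb (Tp *ᵥ x) = HeckeH.heckeH M (Fact.out : p.Prime) R R (X.emb x)) :
    ∃ t : X.T, imgAct X.act t = Tp ∧ t ^ 2 - ((p : X.T) + 1) ^ 2 ∈ maximalIdeal X.T := by
  obtain ⟨u, hu, he, hu2⟩ := exists_unitRoot X hp2 hp hpM h habs hdet hord Tp hTp
  obtain ⟨v, hv⟩ := hu.exists_left_inv
  refine ⟨v * (u ^ 2 + (p : X.T)), ?_, ?_⟩
  · rw [map_mul, ← he, ← mul_assoc, ← map_mul, hv, map_one, one_mul]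
  · have hpT : (p : X.T) ∈ maximalIdeal X.T := by
      rw [← map_natCast (algebraMap O X.T)]
      exact map_nonunit _ _ hp
    have e : (v * (u ^ 2 + (p : X.T))) ^ 2 - ((p : X.T) + 1) ^ 2 = (u ^ 2 - 1) +
        (p : X.T) * ((2 + (p : X.T) * v ^ 2) - ((p : X.T) + 2)) := by
      linear_combination (u ^ 2 * (v * u + 1) + 2 * (p : X.T) * (v * u + 1)) * hv
    rw [e]
    exact add_mem hu2 (Ideal.mul_mem_right _ _ hpT)

end FLTAgent.Lower.Lift
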