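import Fermat.Agent.Lower.Lift.HopP.NewOrd
import Fermat.Agent.Lower.Lift.HopP.OldUnit
import Fermat.Agent.Lower.Lift.HopAsm.Base
import Fermat.Agent.Lower.Lift.HeckeMod.Contains
import Fermat.Agent.Lower.Levels.BaseLevel

/-!
# Raising `p` at the minimal level

`BaseData` collects the frames at levels `N` and `N p` and the matrices of the degeneracy maps
between them. `nonempty_hopPData`: with `T_p` in the Hecke ring (`exists_heckeTp`) these carry
three deformations, flat at level `N`, unrestricted at level `N p` and, on the `p`-new part,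
strictly ordinary (`isStrictOrdinaryAt_of_corU`); `HopPData.toHop` is the hop they form and
`HopPData.isModular` says that both ends are modular.
-/

set_option autoImplicit false
set_option linter.unusedSectionVars false
set_option linter.style.haveILetI false

noncomputable section

open CongruenceSubgroup
open scoped MatrixGroups Matrix

namespace FLTAgent.Lower.Lift.HopP

open FLTAgent.Lower FLTAgent.Lower.Levels
open IsLocalRing (maximalIdeal ResidueField residue)

local notation "ℚ̄" => AlgebraicClosure ℚ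
local notation "Γℚ" => (AlgebraicClosure ℚ ≃ₐ[ℚ] AlgebraicClosure ℚ)

theorem levelPrimes_mul_self (p N : ℕ) [NeZero N] [Fact p.Prime] :
    levelPrimes p (N * p) = levelPrimes p N := by
  rw [levelPrimes, levelPrimes, Nat.primeFactors_mul (NeZero.ne N) (Fact.out : p.Prime).ne_zero,
    (Fact.out : p.Prime).primeFactors]
  ext x
  simp only [Finset.mem_insert, Finset.mem_union, Finset.mem_singleton]
  tauto

theorem mem_levelPrimes_of_dvd {p N l : ℕ} [NeZero N] (hl : l.Prime) (h : l ∣ N) :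
    l ∈ levelPrimes p N :=
  Finset.mem_insert_of_mem (Nat.mem_primeFactors.mpr ⟨hl, h, NeZero.ne N⟩)

/-- The conditions on the primes of a squarefree level. -/
theorem unipPrimes_spec {p N M : ℕ} [NeZero N] (hN : Squarefree N) (hM : N ∣ M)
    (hco : Nat.Coprime N (M / N)) {q : ℕ} (hq : q ∈ unipPrimes p N) :
    q.Prime ∧ q ≠ p ∧ q ∣ M ∧ ¬ q ^ 2 ∣ M := by
  obtain ⟨hqp, hq'⟩ := Finset.mem_erase.mp hq
  obtain ⟨hqP, hqN, -⟩ := Nat.mem_primeFactors.mp hq'
  obtain ⟨c, rfl⟩ := hM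
  rw [Nat.mul_div_cancel_left _ (Nat.pos_of_ne_zero (NeZero.ne N))] at hco
  refine ⟨hqP, hqp, hqN.trans (dvd_mul_right N c), fun h2 => hqP.not_isUnit (hN q ?_)⟩
  have hqc : Nat.Coprime (q ^ 2) c :=
    (((hqP.coprime_iff_not_dvd).2 fun hd =>
      hqP.one_lt.ne' (Nat.eq_one_of_dvd_coprimes hco hqN hd))).pow_left 2
  rw [← sq]
  exact hqc.dvd_of_dvd_mul_right h2

variable {O : Type} [CommRing O] [IsDomain O] [IsDiscreteValuationRing O]
  [IsAdicComplete (maximalIdeal O) O] [Finite (ResidueField O)] [CharZero O]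
  {p : ℕ} [Fact p.Prime] {ρbar : ResidualGaloisRep (ResidueField O)}
  {N : ℕ} [NeZero N] [NeZero (N * p)]

/-- The index of a prime of the old family in the family of level `N p`. -/
def upIdx (l : AwayIdx (levelPrimes p N)) : AwayPrimes (levelPrimes p (N * p)) :=
  ⟨l.1, (levelPrimes_mul_self p N).symm ▸ l.2⟩

theorem awayFam_old (h : ResHyp p (levelPrimes p N) ρbar) :
    AwayFam p N (levelPrimes p N) ρbar (awPr (levelPrimes p (N * p)))
      (fun i => frobTrace ρbar i.1) upIdx where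
  pr_eq _ := rfl
  trace_eq l _A hA _φ hφ :=
    (frobTrace_eq ρbar l.1.2 (h.unramified _ l.1.2 l.2) hA hφ).symm
  p_mem := h.mem
  level_mem _l hl hd := mem_levelPrimes_of_dvd hl hd

theorem awayFam_all (h : ResHyp p (levelPrimes p N) ρbar) :
    AwayFam p (N * p) (levelPrimes p (N * p)) ρbar (awPr (levelPrimes p (N * p)))
      (fun i => frobTrace ρbar i.1) id where
  pr_eq _ := rfl
  trace_eq l _A hA _φ hφ :=
    (frobTrace_eq ρbar l.1.2
      (h.unramified _ l.1.2 (levelPrimes_mul_self p N ▸ l.2)) hA hφ).symm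
  p_mem := Finset.mem_insert_self _ _
  level_mem _l hl hd := mem_levelPrimes_of_dvd hl hd

theorem awPr_ne (i : AwayPrimes (levelPrimes p (N * p))) :
    ((awPr (levelPrimes p (N * p)) i : Nat.Primes) : ℕ) ≠ p :=
  fun e => i.2 (by rw [show ((i.1 : Nat.Primes) : ℕ) = p from e]; exact Finset.mem_insert_self _ _)

/-- A nonzero frame at level `N` for the family of level `N p`. -/
theorem exists_old_frame (h : ResHyp p (levelPrimes p N) ρbar) (hsys : HasSystem p N ρbar) :
    ∃ d, d ≠ 0 ∧ Nonempty (Frame (1 : (ZMod N)ˣ →* Oˣ) (awPr (levelPrimes p (N * p))) (residue O)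
      (fun i => frobTrace ρbar i.1) d) := by
  rw [levelPrimes_mul_self p N]
  exact exists_base_frame h hsys

/-- The lattices at levels `N`, `N p` and the matrices of the hop at `p`. -/
structure BaseData (h : ResHyp p (levelPrimes p N) ρbar) (hpN : ¬ p ∣ N) : Type where
  d₀ : ℕ
  d₁ : ℕ
  [ne₀ : NeZero d₀]
  [ne₁ : NeZero d₁]
  F₀ : Frame (1 : (ZMod N)ˣ →* Oˣ) (awPr (levelPrimes p (N * p))) (residue O)
    (fun i => frobTrace ρbar i.1) d₀
  F₁ : Frame (1 : (ZMod (N * p))ˣ →* Oˣ) (awPr (levelPrimes p (N * p))) (residue O)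
    (fun i => frobTrace ρbar i.1) d₁
  par₀ : ParHyp N (awPr (levelPrimes p (N * p))) (fun i => frobTrace ρbar i.1)
  par₁ : ParHyp (N * p) (awPr (levelPrimes p (N * p))) (fun i => frobTrace ρbar i.1)
  hop : HopQ.HopData (awPr (levelPrimes p (N * p))) (residue O) (fun i => frobTrace ρbar i.1)
    hpN F₀ F₁

attribute [instance] BaseData.ne₀ BaseData.ne₁

variable {h : ResHyp p (levelPrimes p N) ρbar} {hpN : ¬ p ∣ N}

theorem nonempty_baseData (h : ResHyp p (levelPrimes p N) ρbar) (hpN : ¬ p ∣ N)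
    (hsys : HasSystem p N ρbar) : Nonempty (BaseData h hpN) := by
  obtain ⟨d₀, hd₀, ⟨F₀⟩⟩ := exists_old_frame h hsys
  have hS : levelPrimes p (N * p) = levelPrimes p N := levelPrimes_mul_self p N
  have h' : ResHyp p (levelPrimes p (N * p)) ρbar := hS.symm ▸ h
  have hθ : ∀ i : AwayPrimes (levelPrimes p (N * p)), ¬ (i.1 : ℕ) ∣ 1 →
      (fun i : AwayPrimes (levelPrimes p (N * p)) => frobTrace ρbar i.1) i =
        frobTrace ρbar i.1 := fun _ _ => rfl
  obtain ⟨d₁, ⟨Fk⟩⟩ := exists_frame_residual (L := N * p) (awPr (levelPrimes p (N * p)))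
    fun i => frobTrace ρbar i.1
  obtain ⟨F₁, -⟩ := exists_frame_lift (σ := residue O) (ψ := (1 : (ZMod (N * p))ˣ →* Oˣ))
    (h'.famHyp IsLocalRing.residue_surjective _ 1 hθ
      (fun i hi => absurd (Nat.dvd_one.mp hi) i.1.2.ne_one))
    ⟨fun _ => by simp, by simp⟩ Fk
  have hpar : ∀ (m : ℕ) [NeZero m],
      ParHyp m (awPr (levelPrimes p (N * p))) (fun i => frobTrace ρbar i.1) :=
    fun m _ => h'.parHyp m _ 1 hθ
  obtain ⟨i₀, hi₀⟩ := HopQ.exists_eisAway (N := N) (q := p) (hpar (N * p))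
  obtain ⟨D⟩ := HopQ.nonempty_hopData (p := p) hpN F₀ F₁ IsLocalRing.residue_surjective awPr_ne
    h.char hi₀
  haveI : NeZero d₀ := ⟨hd₀⟩
  haveI : NeZero d₁ := ⟨fun e => by
    obtain ⟨s, hs⟩ := D.ι_split
    subst e
    have h1 := congrFun (congrFun hs (⟨0, Nat.pos_of_ne_zero hd₀⟩, 0))
      (⟨0, Nat.pos_of_ne_zero hd₀⟩, 0)
    rw [Matrix.mul_apply, Finset.univ_eq_empty, Finset.sum_empty, Matrix.one_apply_eq] at h1
    exact one_ne_zero h1.symm⟩
  exact ⟨⟨d₀, d₁, F₀, F₁, hpar N, hpar (N * p), D⟩⟩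

theorem residue_comp_algebraMap : (residue O).comp (algebraMap O O) = residue O :=
  RingHom.comp_id _

namespace BaseData

variable (B : BaseData h hpN)

/-- The lattice of level `N`. -/
def X₀ : HeckeLattice p N (levelPrimes p N) ρbar O B.d₀ :=
  baseLattice B.F₀ residue_comp_algebraMap B.par₀ (awayFam_old h)

/-- The lattice of level `N p`. -/
def X₁ : HeckeLattice p (N * p) (levelPrimes p (N * p)) ρbar O B.d₁ :=
  baseLattice B.F₁ residue_comp_algebraMap B.par₁ (awayFam_all h)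

theorem X₀_act (s : MvPolynomial (AwayIdx (levelPrimes p N)) O) :
    B.X₀.act s = B.F₀.mat (MvPolynomial.rename upIdx s) := by
  rw [show B.X₀.act s = _ from baseLattice_act B.F₀ _ B.par₀ (awayFam_old h) s, Algebra.algebraMap_self,
    MvPolynomial.map_id]

theorem X₁_act (s : MvPolynomial (AwayIdx (levelPrimes p (N * p))) O) :
    B.X₁.act s = B.F₁.mat s := by
  rw [show B.X₁.act s = _ from baseLattice_act B.F₁ _ B.par₁ (awayFam_all h) s, Algebra.algebraMap_self,
    MvPolynomial.map_id, MvPolynomial.rename_id, AlgHom.id_apply]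

theorem X₀_act_rename (s : MvPolynomial (AwayIdx (levelPrimes p (N * p))) O) :
    B.X₀.act (MvPolynomial.rename
      (HeckeLattice.awayMap (HopAsm.levelPrimes_subset_mul p)) s) = B.F₀.mat s := by
  rw [X₀_act, MvPolynomial.rename_rename,
    show upIdx ∘ HeckeLattice.awayMap (HopAsm.levelPrimes_subset_mul (N := N) (q := p) p) = id from
      funext fun l => Subtype.ext rfl,
    MvPolynomial.rename_id, AlgHom.id_apply]

theorem heckeH_Tq (x : Fin B.d₀ → O) :
    HeckeH.heckeH N (Fact.out : p.Prime) O O (B.X₀.emb x) = B.X₀.emb (B.hop.Tq *ᵥ x) := by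
  refine Subtype.ext ?_
  show (HeckeH.heckeH N (Fact.out : p.Prime) O O (B.F₀.periodEmb B.par₀ x) :
    Additive (Gamma0 N) →+ O) = (B.F₀.periodEmb B.par₀ (B.hop.Tq *ᵥ x) : Additive (Gamma0 N) →+ O)
  rw [HeckeH.coe_heckeH, Frame.coe_periodEmb, Frame.coe_periodEmb, B.hop.combo_Tq, h1Triv_heckeOp]

/-- The matrices with a given `T_p` in the Hecke ring. -/
def mats (tq : B.X₀.T) (htq : imgAct B.X₀.act tq = B.hop.Tq)
    (hdet : tq ^ 2 - ((p : B.X₀.T) + 1) ^ 2 ∈ maximalIdeal B.X₀.T) :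
    HopAsm.HopMats B.X₀ B.X₁ where
  dNew := B.hop.dNew
  ι := B.hop.ι
  π := B.hop.π
  j := B.hop.j
  t := B.hop.j_split.choose
  π_surjective := B.hop.π_surjective
  ι_split := B.hop.ι_split
  t_j := B.hop.j_split.choose_spec
  π_j := B.hop.π_j
  exact := B.hop.exact
  ι_comm s := by
    simp only [X₁_act, X₀_act_rename]
    exact B.hop.ι_comm s
  π_comm s := by
    simp only [X₁_act, X₀_act_rename]
    exact B.hop.π_comm s
  tq := tq
  π_ι := by rw [htq]; exact B.hop.π_ι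
  π_ι_ne_zero := B.hop.π_ι_ne_zero
  det_mem := by
    rw [HopAsm.det_hopE, ← neg_sub]
    exact neg_mem hdet

theorem cor_eq_zero {x : Fin B.d₁ → O} (hx : B.hop.π *ᵥ x = 0) :
    ∃ z : H1 O O (tchi (N * p) O),
      h1Triv (N * p) O O z = (B.X₁.emb x : Additive (Gamma0 (N * p)) →+ O) ∧
        (HopTW.corU O (⟨Fact.out, hpN, rfl⟩ : HopTW.IsRaise N (N * p) p)).map O z = 0 ∧
          (HopTW.corWU O (⟨Fact.out, hpN, rfl⟩ : HopTW.IsRaise N (N * p) p)).map O z = 0 := by
  refine ⟨B.F₁.combo x, (B.F₁.coe_periodEmb B.par₁ x).symm, ?_⟩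
  have e := B.hop.combo_π x
  rw [hx, HopQ.piQ_apply, Prod.mk.injEq] at e
  rw [HopTW.corT_one, HopTW.corWT_one]
  exact ⟨e.1.trans (map_zero B.F₀.combo), e.2.trans (map_zero B.F₀.combo)⟩

end BaseData

/-- The hop at `p` at the minimal level, with the data used at auxiliary levels. -/
structure HopPData (h : ResHyp p (levelPrimes p N) ρbar) (hpN : ¬ p ∣ N) (f : ℤ_[p] →+* O) :
    Type 1 where
  B : BaseData h hpN
  tq : B.X₀.T
  tq_act : imgAct B.X₀.act tq = B.hop.Tq
  tq_mem : tq ^ 2 - ((p : B.X₀.T) + 1) ^ 2 ∈ maximalIdeal B.X₀.T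
  ρ₀ : GaloisRepAdic B.X₀.T
  h₀ : B.X₀.IsRep f ρ₀
  c₀ : Cond (flatType p) p (unipPrimes p N) (levelPrimes p N) ρ₀
  ρ₁ : GaloisRepAdic B.X₁.T
  h₁ : B.X₁.IsRep f ρ₁
  c₁ : Cond anyType p (unipPrimes p (N * p)) (levelPrimes p (N * p)) ρ₁
  ρ₂ : GaloisRepAdic (B.mats tq tq_act tq_mem).new.T
  h₂ : (B.mats tq tq_act tq_mem).new.IsRep f ρ₂
  c₂ : Cond (ordType p) p (unipPrimes p (N * p)) (levelPrimes p (N * p)) ρ₂

variable {f : ℤ_[p] →+* O}

/-- The hop. -/
def HopPData.toHop (P : HopPData h hpN f) : Hop (flatType p) (ordType p) p N p ρbar :=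
  (P.B.mats P.tq P.tq_act P.tq_mem).hop h.absIrr P.h₀ P.c₀ P.h₁ P.c₁ P.h₂ P.c₂
    (fun e => absurd rfl e) (fun e => absurd rfl e)

theorem squarefree_mul_self (hN : Squarefree N) (hpN : ¬ p ∣ N) : Squarefree (N * p) :=
  Nat.squarefree_mul_iff.mpr ⟨((Fact.out : p.Prime).coprime_iff_not_dvd.mpr hpN).symm, hN,
    (Fact.out : p.Prime).squarefree⟩

theorem notMem_levelPrimes {M l : ℕ} [NeZero M] (hl : l.Prime) (h : l ∉ levelPrimes p M) :
    l ≠ p ∧ ¬ l ∣ M :=
  ⟨fun e => h (e ▸ Finset.mem_insert_self _ _), fun hd => h (mem_levelPrimes_of_dvd hl hd)⟩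

/-- **The hop at `p` exists.** -/
theorem nonempty_hopPData (h : ResHyp p (levelPrimes p N) ρbar) (hp : (p : O) ∈ maximalIdeal O)
    (hN : Squarefree N) (hpN : ¬ p ∣ N) (hsys : HasSystem p N ρbar)
    (hord : (GaloisRepAdic.ofResidualGaloisRep ρbar).IsStrictOrdinaryAt p) (f : ℤ_[p] →+* O) :
    Nonempty (HopPData h hpN f) := by
  obtain ⟨B⟩ := nonempty_baseData h hpN hsys
  haveI : Module.Free O O := inferInstance
  obtain ⟨ρ₀, h₀⟩ := B.X₀.exists_rep h.ne_two hp f h.absIrr h.det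
  obtain ⟨ρ₁, h₁⟩ := B.X₁.exists_rep h.ne_two hp f h.absIrr h.det
  obtain ⟨tq, htq, hmem⟩ := exists_heckeTp B.X₀ h.ne_two hp hpN h₀ h.absIrr h.det hord B.hop.Tq
    fun x => (B.heckeH_Tq x).symm
  obtain ⟨ρ₂, h₂⟩ := (B.mats tq htq hmem).new.exists_rep h.ne_two hp f h.absIrr h.det
  have hN' := squarefree_mul_self hN hpN
  haveI : Module.Free O B.X₀.T := free_imgRing _
  have hU₁ : ∀ q ∈ unipPrimes p (N * p), q.Prime ∧ q ≠ p ∧ q ∣ N * p ∧ ¬ q ^ 2 ∣ N * p :=
    fun q hq => unipPrimes_spec hN' dvd_rfl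
      (by rw [Nat.div_self (Nat.pos_of_ne_zero (NeZero.ne _))]; exact Nat.coprime_one_right _) hq
  refine ⟨⟨B, tq, htq, hmem, ρ₀, h₀, ?_, ρ₁, h₁, ?_, ρ₂, h₂, ?_⟩⟩
  · exact cond_flat_of_attached hp h.ne_two hpN h₀.attached (h₀.residual_absIrr h.absIrr)
      (fun q hq => unipPrimes_spec hN dvd_rfl
        (by rw [Nat.div_self (Nat.pos_of_ne_zero (NeZero.ne _))]; exact Nat.coprime_one_right _) hq)
      fun q hq hqS => notMem_levelPrimes hq hqS
  · exact cond_of_attached h₁.attached (h₁.residual_absIrr h.absIrr) (loc := anyType) trivial hU₁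
      fun q hq hqS => notMem_levelPrimes hq hqS
  · refine cond_of_attached h₂.attached (h₂.residual_absIrr h.absIrr) (loc := ordType p) ?_ hU₁
      fun q hq hqS => notMem_levelPrimes hq hqS
    refine isStrictOrdinaryAt_of_corU h.ne_two hp h.absIrr h.det
      (⟨Fact.out, hpN, rfl⟩ : HopTW.IsRaise N (N * p) p) _ h₂ fun x => ?_
    exact B.cor_eq_zero (x := B.hop.j *ᵥ x)
      ((Matrix.mulVec_mulVec x B.hop.π B.hop.j).trans
        ((congrArg (· *ᵥ x) B.hop.π_j).trans (Matrix.zero_mulVec x)))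

theorem HopPData.isModular (P : HopPData h hpN f) (hp : (p : O) ∈ maximalIdeal O)
    (hN : Squarefree N) : IsModular N P.toHop.old ∧ IsModular (N * p) P.toHop.new :=
  ⟨isModular_heckeModOf hN hp h.absIrr P.h₀ P.c₀,
    isModular_heckeModOf (squarefree_mul_self hN hpN) hp h.absIrr P.h₂ P.c₂⟩

end FLTAgent.Lower.Lift.HopP
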