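import Fermat.Agent.Lower.Lift.HopP.AsmBase
import Fermat.Agent.Lower.Lift.HopAsm.Level
import Fermat.Agent.Lower.Lift.HopTW.LiftBase
import Fermat.Agent.Lower.Levels.AuxLevel
import Fermat.Agent.Lower.Levels.StabFrame
import Fermat.Agent.Lower.Levels.TwRel

/-!
# Raising `p` at auxiliary levels

`nonempty_hopLevel`: for a set of Taylor–Wiles primes with product `Q` the hop at `p` lifts to
levels `N Q` and `N p Q` over the group ring of the `p`-parts of `(ℤ/q)ˣ`, by stabilising the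
frames at the primes of `Q` and twisting by the tautological character.
-/

set_option autoImplicit false
set_option linter.unusedSectionVars false
set_option linter.style.haveILetI false

noncomputable section

open CongruenceSubgroup
open scoped MatrixGroups Matrix

namespace FLTAgent.Lower.Lift.HopP

open FLTAgent.Lower FLTAgent.Lower.Levels
open IsLocalRing (maximalIdeal ResidueField residue)

section Twisted

variable {L M Q : ℕ} {R : Type} [CommRing R] {k : Type} [Field k] {ι I : Type}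
  {pr : ι → Nat.Primes} {σ : R →+* k} {θ : ι → k} {d : ℕ}

/-- A frame for an equal character. -/
def castFrame {ψ ψ' : (ZMod L)ˣ →* Rˣ} (e : ψ = ψ') (F : Frame ψ pr σ θ d) :
    Frame ψ' pr σ θ d := e ▸ F

variable {O : Type} [CommRing O] [Algebra O R] {η : (ZMod Q)ˣ →* Rˣ}

theorem levelAct_castFrame {ψ ψ' : (ZMod L)ˣ →* Rˣ} (e : ψ = ψ') (F : Frame ψ pr σ θ d)
    (j : I → ι) : levelAct (O := O) (castFrame e F) η j = levelAct F η j := by
  subst e
  rfl

theorem twistMap_castFrame [NeZero Q] {hQ : Q ∣ L} {ψ : (ZMod L)ˣ →* Rˣ}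
    (e : ψ = twistChar hQ η)
    (rel : TwistRel hQ (dvd_refl (L * Q)) η ψ (1 : (ZMod (L * Q))ˣ →* Rˣ))
    (F : Frame ψ pr σ θ d) (x : Fin d → R) :
    twistMap hQ η ((castFrame e F).combo x) = (twistSys rel).map R (F.combo x) := by
  subst e
  rfl

theorem levelAct_rename {ψ : (ZMod L)ˣ →* Rˣ} (F : Frame ψ pr σ θ d) {I' : Type} (j : I → ι)
    (g : I' → I) (s : MvPolynomial I' O) :
    levelAct F η j (MvPolynomial.rename g s) = levelAct F η (j ∘ g) s := by
  show F.mat (levelPoly pr η j (MvPolynomial.rename g s)) = F.mat (levelPoly pr η (j ∘ g) s)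
  refine congrArg F.mat ?_
  rw [levelPoly, MvPolynomial.aeval_rename]
  rfl

/-- Along a map with `η ↦ 1` the twisted operators reduce to the operators. -/
theorem levelAct_map {ψ : (ZMod L)ˣ →* Rˣ} {ψ₀ : (ZMod L)ˣ →* Oˣ} {σ₀ : O →+* k}
    (τ : R →ₐ[O] O) (F : Frame ψ pr σ θ d) (G : Frame ψ₀ pr σ₀ θ d)
    {hτ : ∀ u, (τ : R →+* O) (ψ u : R) = (ψ₀ u : O)} (h : F.IsLift G (τ : R →+* O) hτ)
    (hη : ∀ a, τ (η a : R) = 1) (j : I → ι) (s : MvPolynomial I O) :
    (levelAct F η j s).map τ = G.mat (MvPolynomial.rename j s) := by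
  have hs : MvPolynomial.map (τ : R →+* O) (levelPoly pr η j s) = MvPolynomial.rename j s := by
    induction s using MvPolynomial.induction_on with
    | C a => simp [levelPoly, IsScalarTower.algebraMap_apply O R (MvPolynomial ι R)]
    | add a b ha hb => simp only [map_add, ha, hb]
    | mul_X a i ha =>
      rw [map_mul, map_mul, ha, map_mul]
      congr 1
      simp [levelPoly, hη]
  rw [← hs, Frame.mat_of_isLift F h]
  rfl

theorem isLift_castFrame {R' : Type} [CommRing R'] {ψ ψ' : (ZMod L)ˣ →* Rˣ} (e : ψ = ψ')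
    {ψ₀ : (ZMod L)ˣ →* R'ˣ} {σ₀ : R' →+* k} {F : Frame ψ pr σ θ d} {G : Frame ψ₀ pr σ₀ θ d}
    {τ : R →+* R'} {hτ : ∀ u, τ (ψ u : R) = (ψ₀ u : R')}
    {hτ' : ∀ u, τ (ψ' u : R) = (ψ₀ u : R')} (h : F.IsLift G τ hτ) :
    (castFrame e F).IsLift G τ hτ' := by
  subst e
  exact h

/-- The Hecke operator at a prime off the family on twisted periods. -/
theorem heckeH_twisted [NeZero Q] [NeZero (L * Q)] {hQ : Q ∣ L}
    (F : Frame (twistChar hQ η) pr σ θ d) (emb : (Fin d → R) →ₗ[R] Period.H (L * Q) R R)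
    (hemb : ∀ x, (emb x : Additive (Gamma0 (L * Q)) →+ R) =
      h1Triv (L * Q) R R (twistMap hQ η (F.combo x)))
    {q : ℕ} (hq : q.Prime) (hqL : ¬ q ∣ L) (Tq : Matrix (Fin d) (Fin d) R)
    (hTq : ∀ c, F.combo (Tq *ᵥ c) =
      ((η (primeUnit Q hq) : Rˣ) : R) • heckeOp hq (twistChar hQ η) R (F.combo c))
    (x : Fin d → R) : HeckeH.heckeH (L * Q) hq R R (emb x) = emb (Tq *ᵥ x) := by
  refine Subtype.ext ?_
  rw [HeckeH.coe_heckeH, hemb, hemb, ← h1Triv_heckeOp, hTq, map_smul]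
  refine congrArg (h1Triv (L * Q) R R) ?_
  have e := twist_heckeOp (A := R) (twistRel_twistChar hQ η) hq
    (fun hd => hqL (hd.trans hQ)) (fun hd => (hq.dvd_mul.mp hd).elim id fun h' => h'.trans hQ)
    (F.combo x)
  show _ = _ • (twistSys (twistRel_twistChar hQ η)).map R _
  rw [e, smul_smul, Units.mul_inv, one_smul]
  rfl

end Twisted

local notation "ℚ̄" => AlgebraicClosure ℚ
local notation "Γℚ" => (AlgebraicClosure ℚ ≃ₐ[ℚ] AlgebraicClosure ℚ)

variable {O : Type} [CommRing O] [IsDomain O] [IsDiscreteValuationRing O]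
  [IsAdicComplete (maximalIdeal O) O] [Finite (ResidueField O)] [CharZero O]
  {p : ℕ} [Fact p.Prime] {ρbar : ResidualGaloisRep (ResidueField O)}
  {N : ℕ} [NeZero N] [NeZero (N * p)] {h : ResHyp p (levelPrimes p N) ρbar} {hpN : ¬ p ∣ N}
  {f : ℤ_[p] →+* O}

theorem auxHyp_of_isAuxSet {n r : ℕ} {Qv : Fin r → ℕ} (hQv : IsAuxSet p (N * p) n ρbar Qv) :
    AuxHyp p n (levelPrimes p (N * p)) ρbar Qv where
  injective := hQv.1
  tw i := (hQv.2 i).1
  notMem i := (hQv.2 i).2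

/-- **The hop at `p` at an auxiliary level.** -/
theorem nonempty_hopLevel (P : HopPData h hpN f) (hp : (p : O) ∈ maximalIdeal O)
    (hN : Squarefree N) (hord : (GaloisRepAdic.ofResidualGaloisRep ρbar).IsStrictOrdinaryAt p)
    (n r : ℕ) (Qv : Fin r → ℕ) (hQv : IsAuxSet p (N * p) n ρbar Qv) :
    Nonempty (HopLevel P.toHop n Qv) := by
  classical
  have hp2 := h.ne_two
  set S₁ := levelPrimes p (N * p) with hS₁
  have h' : ResHyp p S₁ ρbar := by rw [hS₁, levelPrimes_mul_self p N]; exact h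
  have hQ := auxHyp_of_isAuxSet hQv
  haveI : NeZero (∏ i, Qv i) := ⟨hQ.prod_ne_zero⟩
  set Q := ∏ i, Qv i with hQdef
  haveI : NeZero (N * Q) := ⟨mul_ne_zero (NeZero.ne N) (NeZero.ne Q)⟩
  haveI : NeZero (N * p * Q) := ⟨mul_ne_zero (NeZero.ne (N * p)) (NeZero.ne Q)⟩
  haveI : NeZero (N * Q * Q) := ⟨mul_ne_zero (NeZero.ne (N * Q)) (NeZero.ne Q)⟩
  haveI : NeZero (N * p * Q * Q) := ⟨mul_ne_zero (NeZero.ne (N * p * Q)) (NeZero.ne Q)⟩
  have hN₀ : ∀ l : ℕ, l.Prime → l ∣ N → l ∈ S₁ := fun l hl hd =>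
    mem_levelPrimes_of_dvd hl (hd.trans (dvd_mul_right N p))
  have hN₁ : ∀ l : ℕ, l.Prime → l ∣ N * p → l ∈ S₁ := fun l hl hd => mem_levelPrimes_of_dvd hl hd
  have hco₀ : Nat.Coprime N Q := hQ.coprime hN₀
  have hco₁ : Nat.Coprime (N * p) Q := hQ.coprime hN₁
  have hpQ : ¬ p ∣ Q := fun hd => by
    obtain ⟨i, hi⟩ := hQ.exists_eq Fact.out hd
    exact hQ.ne_p h'.mem i hi
  have hpNQ : ¬ p ∣ N * Q := fun hd =>
    ((Fact.out : p.Prime).dvd_mul.mp hd).elim hpN hpQ
  -- stabilised frames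
  obtain ⟨θ, hθ⟩ := hQ.exists_stabEig h'
  have hdat₀ := hθ.stabData h' hQ hN₀
  have hdat₁ := hθ.stabData h' hQ hN₁
  have hparB : ∀ (m : ℕ) [NeZero m], ParHyp m (awPr S₁) (fun i => frobTrace ρbar i.1) :=
    fun m _ => h'.parHyp m _ 1 fun _ _ => rfl
  have hσ : Function.Surjective (residue O) := IsLocalRing.residue_surjective
  obtain ⟨G, hG, hGmat⟩ := exists_stab_frame hp2 hσ f hdat₀ (hparB (N * Q))
    (NeZero.ne P.B.d₀) P.B.F₀
  obtain ⟨G', hG', hG'mat⟩ := exists_stab_frame hp2 hσ f hdat₁ (hparB (N * p * Q))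
    (NeZero.ne P.B.d₁) P.B.F₁
  -- the coefficients
  haveI : IsLocalRing (DeltaRing O p n r) := isLocalRing_deltaRing (O := O) p n r hp
  haveI : IsAdicComplete (maximalIdeal (DeltaRing O p n r)) (DeltaRing O p n r) :=
    isAdicComplete_deltaRing (O := O) p n r hp
  haveI : IsNoetherianRing (DeltaRing O p n r) :=
    IsNoetherianRing.of_finite O (DeltaRing O p n r)
  set aug := deltaAug O p n r with haug
  have hσR : (deltaRes p n r : DeltaRing O p n r →+* ResidueField O).comp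
      (algebraMap O (DeltaRing O p n r)) = residue O :=
    RingHom.ext fun a => congrArg (residue O) (aug.commutes a)
  have hτs : Function.Surjective (aug : DeltaRing O p n r →+* O) := fun a =>
    ⟨algebraMap O _ a, aug.commutes a⟩
  obtain ⟨η, hη1, hηaug, hgen⟩ := exists_deltaChar (O := O) p n r Qv hQ.injective hQ.prime
    fun i => (hQ.tw i).dvd
  have hτη : ∀ a, (aug : DeltaRing O p n r →+* O) (η a : DeltaRing O p n r) = 1 := hηaug
  have hres : ∀ a, deltaRes p n r (η a : DeltaRing O p n r) = 1 := fun a => by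
    show residue O (aug _) = 1
    rw [hηaug, map_one]
  obtain ⟨m, hm⟩ := ((Fact.out : p.Prime).odd_of_ne_two hp2).pow (n := n)
  have hodd : ∀ a, η a ^ (2 * m + 1) = 1 := fun a => hm ▸ hη1 a
  have hr : HopTW.IsRaise (N * Q) (N * p * Q) p := ⟨Fact.out, hpNQ, by ring⟩
  have hQL : Q ∣ N * Q := dvd_mul_left Q N
  have hQM : Q ∣ N * p * Q := hQL.trans hr.dvd
  have heq := HopTW.upChar_twistChar hr hQL η
  have hchar₀ : CharHyp (twistChar hQL η) (deltaRes (O := O) p n r) :=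
    charHyp_twistChar hQL hodd hres
  have hchar₁ : CharHyp (HopTW.upChar hr (twistChar hQL η)) (deltaRes (O := O) p n r) :=
    heq ▸ charHyp_twistChar (hQL.trans hr.dvd) hodd hres
  have hfamO : ∀ (L : ℕ) [NeZero L], FamHyp L (awPr S₁) (residue O) θ :=
    fun L _ => hθ.famHyp h' L hσ
  have hfamR : ∀ (L : ℕ) [NeZero L], FamHyp L (awPr S₁) (deltaRes (O := O) p n r) θ :=
    fun L _ => hθ.famHyp h' L (deltaRes_surjective p n r)
  have hone : ∀ {L : ℕ}, CharHyp (1 : (ZMod L)ˣ →* Oˣ) (residue O) :=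
    fun {L} => ⟨fun u => by simp, rfl⟩
  obtain ⟨Gk, hGk⟩ := exists_frame_reduce (hfamO (N * Q)) hone G
  obtain ⟨F, hF, -⟩ := exists_frame_lift_along (hfamR (N * Q)) hchar₀ (hfamO (N * Q)) hone
    (aug : DeltaRing O p n r →+* O) hτs rfl (HopTW.twistChar_reduces hQL η hτη) Gk G hGk
  obtain ⟨Gk', hGk'⟩ := exists_frame_reduce (hfamO (N * p * Q)) hone G'
  obtain ⟨F', hF', -⟩ := exists_frame_lift_along (hfamR (N * p * Q)) hchar₁ (hfamO (N * p * Q)) hone
    (aug : DeltaRing O p n r →+* O) hτs rfl (HopTW.upChar_reduces hr hQL η hτη) Gk' G' hGk'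
  -- the families
  set T₀ := levelPrimes p N ∪ Finset.univ.image Qv with hT₀
  set T₁ := S₁ ∪ Finset.univ.image Qv with hT₁
  let j₀ : AwayIdx T₀ → AwayPrimes S₁ := fun l =>
    ⟨l.1, fun hl => l.2 (Finset.mem_union_left _ (levelPrimes_mul_self p N ▸ hl))⟩
  let j₁ : AwayIdx T₁ → AwayPrimes S₁ := fun l =>
    ⟨l.1, fun hl => l.2 (Finset.mem_union_left _ hl)⟩
  have hjQ : ∀ {l : Nat.Primes}, (l : ℕ) ∉ Finset.univ.image Qv → ¬ (l : ℕ) ∣ Q := by
    intro l hl hd
    obtain ⟨i, hi⟩ := hQ.exists_eq l.2 hd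
    exact hl (Finset.mem_image.mpr ⟨i, Finset.mem_univ i, hi⟩)
  have hQmem : ∀ l : ℕ, l.Prime → l ∣ Q → l ∈ Finset.univ.image Qv := fun l hl hd => by
    obtain ⟨i, hi⟩ := hQ.exists_eq hl hd
    exact Finset.mem_image.mpr ⟨i, Finset.mem_univ i, hi⟩
  have hfam₀ : AwayFam p (N * Q * Q) T₀ ρbar (awPr S₁) θ j₀ :=
    { pr_eq := fun l => rfl
      trace_eq := fun l A hA φ hφ => by
        rw [hθ.away (j₀ l) (hjQ fun hd => l.2 (Finset.mem_union_right _ hd))]
        exact (frobTrace_eq ρbar l.1.2 (h'.unramified _ l.1.2 (j₀ l).2) hA hφ).symm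
      p_mem := Finset.mem_union_left _ h.mem
      level_mem := fun l hl hd => by
        rcases hl.dvd_mul.mp hd with hd | hd
        · rcases hl.dvd_mul.mp hd with hd | hd
          · exact Finset.mem_union_left _ (mem_levelPrimes_of_dvd hl hd)
          · exact Finset.mem_union_right _ (hQmem l hl hd)
        · exact Finset.mem_union_right _ (hQmem l hl hd) }
  have hfam₁ : AwayFam p (N * p * Q * Q) T₁ ρbar (awPr S₁) θ j₁ :=
    { pr_eq := fun l => rfl
      trace_eq := fun l A hA φ hφ => by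
        rw [hθ.away (j₁ l) (hjQ fun hd => l.2 (Finset.mem_union_right _ hd))]
        exact (frobTrace_eq ρbar l.1.2 (h'.unramified _ l.1.2 (j₁ l).2) hA hφ).symm
      p_mem := Finset.mem_union_left _ h'.mem
      level_mem := fun l hl hd => by
        rcases hl.dvd_mul.mp hd with hd | hd
        · rcases hl.dvd_mul.mp hd with hd | hd
          · exact Finset.mem_union_left _ (hN₁ l hl hd)
          · exact Finset.mem_union_right _ (hQmem l hl hd)
        · exact Finset.mem_union_right _ (hQmem l hl hd) }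
  have htw₀ : TwistHyp (N * Q) Q (deltaRes (O := O) p n r) η :=
    ⟨hQ.squarefree, by rwa [Nat.mul_div_cancel _ (Nat.pos_of_ne_zero (NeZero.ne Q))],
      ⟨m, hodd⟩, hres⟩
  have htw₁ : TwistHyp (N * p * Q) Q (deltaRes (O := O) p n r) η :=
    ⟨hQ.squarefree, by rwa [Nat.mul_div_cancel _ (Nat.pos_of_ne_zero (NeZero.ne Q))],
      ⟨m, hodd⟩, hres⟩
  -- the upper frame for the twisted character
  obtain ⟨Fc, hFc, hFcAct, hFcTw⟩ :
      ∃ Fc : Frame (twistChar (hQL.trans hr.dvd) η) (awPr S₁) (deltaRes (O := O) p n r) θ P.B.d₁,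
      Fc.IsLift G' (aug : DeltaRing O p n r →+* O)
        (fun u => HopTW.twistChar_reduces (hQL.trans hr.dvd) η hτη u) ∧
      (∀ {I : Type} (j : I → AwayPrimes S₁) (s : MvPolynomial I O),
        levelAct Fc η j s = levelAct F' η j s) ∧
      ∀ x, twistMap (hQL.trans hr.dvd) η (Fc.combo x) =
        (twistSys (HopTW.twistRel_up hr hQL η)).map (DeltaRing O p n r) (F'.combo x) :=
    ⟨castFrame heq F', isLift_castFrame heq hF',
      fun {I} j s => by rw [levelAct_castFrame],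
      twistMap_castFrame heq (HopTW.twistRel_up hr hQL η) F'⟩
  -- the lattices
  obtain ⟨Y₀, hY₀act, hY₀emb⟩ : ∃ Y : HeckeLattice p (N * Q * Q) T₀ ρbar (DeltaRing O p n r) P.B.d₀,
      (∀ s, Y.act s = levelAct F η j₀ s) ∧
      ∀ x, (Y.emb x : Additive (Gamma0 (N * Q * Q)) →+ DeltaRing O p n r) =
        h1Triv (N * Q * Q) (DeltaRing O p n r) (DeltaRing O p n r)
          (twistMap hQL η (F.combo x)) :=
    ⟨twistLattice F hσR htw₀ (hfamR (N * Q)) (hθ.parHyp h' (N * Q * Q)) hfam₀, fun _ => rfl,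
      coe_twistLattice_emb F hσR htw₀ (hfamR (N * Q)) (hθ.parHyp h' (N * Q * Q)) hfam₀⟩
  obtain ⟨Y₁, hY₁act', hY₁emb⟩ :
      ∃ Y : HeckeLattice p (N * p * Q * Q) T₁ ρbar (DeltaRing O p n r) P.B.d₁,
      (∀ s, Y.act s = levelAct Fc η j₁ s) ∧
      ∀ x, (Y.emb x : Additive (Gamma0 (N * p * Q * Q)) →+ DeltaRing O p n r) =
        h1Triv (N * p * Q * Q) (DeltaRing O p n r) (DeltaRing O p n r)
          (twistMap (hQL.trans hr.dvd) η (Fc.combo x)) :=
    ⟨twistLattice Fc hσR htw₁ (hfamR (N * p * Q))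
      (hθ.parHyp h' (N * p * Q * Q)) hfam₁, fun _ => rfl,
      coe_twistLattice_emb Fc hσR htw₁ (hfamR (N * p * Q))
        (hθ.parHyp h' (N * p * Q * Q)) hfam₁⟩
  have hY₁act : ∀ s, Y₁.act s = levelAct F' η j₁ s := fun s =>
    (hY₁act' s).trans (hFcAct j₁ s)
  obtain ⟨r₀, k₀⟩ := Y₀.exists_rep hp2 hp f h.absIrr h.det
  obtain ⟨r₁, k₁⟩ := Y₁.exists_rep hp2 hp f h.absIrr h.det
  have hne : ∀ i, (awPr S₁ i : ℕ) ≠ p := awPr_ne
  obtain ⟨tq, htq, -⟩ := exists_heckeTp Y₀ hp2 hp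
    (fun hd => ((Fact.out : p.Prime).dvd_mul.mp hd).elim hpNQ hpQ) k₀ h.absIrr h.det hord
    (HopTW.levelT hr hQL η F)
    fun x => (heckeH_twisted F Y₀.emb hY₀emb Fact.out hpNQ _ (HopTW.combo_levelT hr hQL η F) x).symm
  -- reductions
  have hstab₀ : ∀ {I : Type} (j : I → AwayPrimes S₁), (∀ l, ¬ ((j l).1 : ℕ) ∣ Q) →
      ∀ s : MvPolynomial I O, G.mat (MvPolynomial.rename j s) =
        P.B.F₀.mat (MvPolynomial.rename j s) := fun j hj s => by
    rw [show MvPolynomial.rename j s = MvPolynomial.rename Subtype.val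
      (MvPolynomial.rename (fun l => (⟨j l, hj l⟩ : {i : AwayPrimes S₁ // ¬ (i.1 : ℕ) ∣ Q})) s) by
        rw [MvPolynomial.rename_rename]; rfl]
    exact hGmat _
  have hstab₁ : ∀ {I : Type} (j : I → AwayPrimes S₁), (∀ l, ¬ ((j l).1 : ℕ) ∣ Q) →
      ∀ s : MvPolynomial I O, G'.mat (MvPolynomial.rename j s) =
        P.B.F₁.mat (MvPolynomial.rename j s) := fun j hj s => by
    rw [show MvPolynomial.rename j s = MvPolynomial.rename Subtype.val
      (MvPolynomial.rename (fun l => (⟨j l, hj l⟩ : {i : AwayPrimes S₁ // ¬ (i.1 : ℕ) ∣ Q})) s) by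
        rw [MvPolynomial.rename_rename]; rfl]
    exact hG'mat _
  have hlift₀ : LatticeLift P.B.X₀ Y₀ (aug : DeltaRing O p n r →+* O) := fun s => by
    rw [hY₀act]
    refine (levelAct_map aug F G hF hηaug j₀ s).trans ?_
    rw [hstab₀ j₀ fun l => hjQ fun hd => l.2 (Finset.mem_union_right _ hd), P.B.X₀_act,
      MvPolynomial.rename_rename]
    rfl
  have hlift₁ : LatticeLift P.B.X₁ Y₁ (aug : DeltaRing O p n r →+* O) := fun s => by
    rw [hY₁act]
    refine (levelAct_map aug F' G' hF' hηaug j₁ s).trans ?_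
    rw [hstab₁ j₁ fun l => hjQ fun hd => l.2 (Finset.mem_union_right _ hd), P.B.X₁_act]
    rfl
  set D := P.B.mats P.tq P.tq_act P.tq_mem with hD
  have hjj : j₀ ∘ HeckeLattice.awayMap
      (HopAsm.union_subset_mul (p := p) (N := N) (q := p) (Qv := Qv)) = j₁ :=
    funext fun l => Subtype.ext rfl
  let E : HopAsm.LevelMats D aug Y₀ Y₁ :=
    { lift₀ := hlift₀
      lift₁ := hlift₁
      ι := HopTW.levelIota hr hQL η hne F F'
      π := HopTW.levelPi hr hQL η hne F F'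
      ι_map := HopTW.map_levelIota hr hQL η hne hτη (dvd_mul_right N Q) (dvd_mul_right (N * p) Q)
        hG hG' hF hF' P.B.hop hσ
      π_map := HopTW.map_levelPi hr hQL η hne hτη (dvd_mul_right N Q) (dvd_mul_right (N * p) Q)
        hG hG' hF hF' P.B.hop hσ
      ι_comm := fun s => by
        simp only [hY₁act, hY₀act, levelAct_rename, hjj]
        exact HopTW.levelIota_comm hr hQL η hne F F' _
      π_comm := fun s => by
        simp only [hY₁act, hY₀act, levelAct_rename, hjj]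
        exact HopTW.levelPi_comm hr hQL η hne F F' _
      tq := tq
      π_ι := by
        rw [htq]
        exact HopTW.levelPi_iota hr hQL η hne F F' }
  obtain ⟨K⟩ := E.nonempty_ker
  obtain ⟨r₂, k₂⟩ := K.new.exists_rep hp2 hp f h.absIrr h.det
  haveI : Module.Free O (Matrix (Fin P.B.d₀) (Fin P.B.d₀) (DeltaRing O p n r)) :=
    inferInstanceAs (Module.Free O (Fin P.B.d₀ → Fin P.B.d₀ → DeltaRing O p n r))
  haveI : Module.Free O Y₀.T := free_imgRing _
  have hU₁ : ∀ q ∈ unipPrimes p (N * p),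
      q.Prime ∧ q ≠ p ∧ q ∣ N * p * Q * Q ∧ ¬ q ^ 2 ∣ N * p * Q * Q := fun q hq =>
    unipPrimes_spec (squarefree_mul_self hN hpN) ((dvd_mul_right (N * p) Q).mul_right Q)
      (by
        rw [mul_assoc, Nat.mul_div_cancel_left _ (Nat.pos_of_ne_zero (NeZero.ne (N * p)))]
        exact hco₁.mul_right hco₁) hq
  have hS₁' : ∀ q : ℕ, q.Prime → q ∉ T₁ → q ≠ p ∧ ¬ q ∣ N * p * Q * Q := fun q hq hqT =>
    ⟨fun e => hqT (e ▸ hfam₁.p_mem), fun hd => hqT (hfam₁.level_mem q hq hd)⟩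
  have e₀ : Cond (flatType p) p (unipPrimes p N) T₀ r₀ :=
    cond_flat_of_attached hp hp2 (fun hd => ((Fact.out : p.Prime).dvd_mul.mp hd).elim hpNQ hpQ)
      k₀.attached (k₀.residual_absIrr h.absIrr)
      (fun q hq => unipPrimes_spec hN ((dvd_mul_right N Q).mul_right Q)
        (by
          rw [mul_assoc, Nat.mul_div_cancel_left _ (Nat.pos_of_ne_zero (NeZero.ne N))]
          exact hco₀.mul_right hco₀) hq)
      fun q hq hqT => ⟨fun e => hqT (e ▸ hfam₀.p_mem), fun hd => hqT (hfam₀.level_mem q hq hd)⟩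
  have e₁ : Cond anyType p (unipPrimes p (N * p)) T₁ r₁ :=
    cond_of_attached k₁.attached (k₁.residual_absIrr h.absIrr) (loc := anyType) trivial hU₁ hS₁'
  have e₂ : Cond (ordType p) p (unipPrimes p (N * p)) T₁ r₂ := by
    refine cond_of_attached k₂.attached (k₂.residual_absIrr h.absIrr) (loc := ordType p) ?_ hU₁ hS₁'
    refine isStrictOrdinaryAt_of_corU hp2 hp h.absIrr h.det (hr.mul_aux hQL) _ k₂ fun x => ?_
    set z₀ := F'.combo (K.j *ᵥ x)
    have hz : HopTW.levelPi hr hQL η hne F F' *ᵥ (K.j *ᵥ x) = 0 := by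
      rw [Matrix.mulVec_mulVec, show HopTW.levelPi hr hQL η hne F F' * K.j = 0 from K.π_j,
        Matrix.zero_mulVec]
    refine ⟨(HopTW.twM hr hQL η).map (DeltaRing O p n r) z₀, ?_, ?_, ?_⟩
    · refine Eq.trans ?_ (hY₁emb (K.j *ᵥ x)).symm
      rw [hFcTw]
    · rw [← HopTW.tw_cor, show (HopTW.corT hr (twistChar hQL η)).map (DeltaRing O p n r) z₀ = 0 from
        HopTW.downMap_eq_zero hr hQL η hne F F' hz 0, map_zero]
    · have h1 := HopTW.downMap_eq_zero hr hQL η hne F F' hz 1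
      simp only [HopTW.downMap, Matrix.cons_val_one, Matrix.cons_val_zero, LinearMap.smul_apply] at h1
      rw [← HopTW.tw_corW, h1, map_zero]
  obtain ⟨φ, hφ1, hφ2⟩ := exists_deltaQuot (O := O) p n r
  have w₀ : HopAsm.TwRel Qv φ Y₀ r₀ := fun i => by
    obtain ⟨σ, hσi, hrel⟩ := exists_trace_rel hp h' hN₀ hQ hθ hη1 hηaug hgen P.B.F₀ G hG F hF Y₀
      hY₀emb r₀ k₀ i
    exact ⟨σ, hσi, _, hφ1 i, hrel⟩
  have w₁ : HopAsm.TwRel Qv φ Y₁ r₁ := fun i => by
    obtain ⟨σ, hσi, hrel⟩ := exists_trace_rel hp h' hN₁ hQ hθ hη1 hηaug hgen P.B.F₁ G' hG'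
      Fc (hτ := fun u => HopTW.twistChar_reduces (hQL.trans hr.dvd) η hτη u) hFc Y₁
      hY₁emb r₁ k₁ i
    exact ⟨σ, hσi, _, hφ1 i, hrel⟩
  exact ⟨K.hopLevel hφ2 h.absIrr P.h₀ P.c₀ P.h₁ P.c₁ P.h₂ P.c₂ (fun e => absurd rfl e)
    (fun e => absurd rfl e) k₀ e₀ w₀ k₁ e₁ w₁ k₂ e₂ (fun e => absurd rfl e)
    fun e => absurd rfl e⟩

end FLTAgent.Lower.Lift.HopP
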