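import Fermat.Agent.Lower.Lift.HopP.Pushforward
import Fermat.Agent.Lower.Levels.GalH

/-!
# Divisibility on characters killed by both corestrictions

Over a `ℤ_p`-algebra `R`, a class is divisible by `p ^ n` when all its images under functionals
`R → ZMod (p ^ n)` vanish as torsion classes (`exists_nsmul_eq`). Applying the results on
`pushKer` to these classes gives `exists_nsmul_eq_local`: on `corKer`, `(τ - a) ^ n (σ - 1)` and
`B (τ - a) ^ n (g² - 1)` have values divisible by `p ^ n`.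
-/

set_option autoImplicit false
set_option linter.style.haveILetI false
set_option linter.unusedSectionVars false
set_option synthInstance.maxHeartbeats 400000
set_option maxHeartbeats 1600000

noncomputable section

open ModularCurve AlgebraicCurve SemilinearAut CongruenceSubgroup
open scoped Matrix MatrixGroups

namespace FLTAgent.Lower.Lift

open FLTAgent.Lower.Levels (galH evalEquiv_galH galH_wH)
open FLTAgent.LowerQ (galF)

local notation "Qb" => AlgebraicClosure ℚ
local notation "Γℚ" => (AlgebraicClosure ℚ ≃ₐ[ℚ] AlgebraicClosure ℚ)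

/-- Additive functionals separate `R / n R`. -/
theorem exists_addHom_zmod_ne_zero {R : Type} [CommRing R] (n : ℕ) [NeZero n] {r : R}
    (hr : ∀ x : R, (n : R) * x ≠ r) : ∃ c : R →+ ZMod n, c r ≠ 0 := by
  let I : Ideal R := Ideal.span {(n : R)}
  have hr' : Ideal.Quotient.mk I r ≠ 0 := fun h => by
    obtain ⟨x, hx⟩ := Ideal.mem_span_singleton'.mp (Ideal.Quotient.eq_zero_iff_mem.mp h)
    exact hr x (by rw [mul_comm]; exact hx)
  obtain ⟨χ, hχ⟩ := CharacterModule.exists_character_apply_ne_zero_of_ne_zero hr'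
  have hn : (n : ℚ) ≠ 0 := Nat.cast_ne_zero.mpr (NeZero.ne n)
  let j0 : ℤ →+ AddCircle (1 : ℚ) := zmultiplesHom _ (((1 : ℚ) / n : ℚ) : AddCircle (1 : ℚ))
  have hj0 : j0 n = 0 := by
    rw [zmultiplesHom_apply, ← AddCircle.coe_zsmul]
    exact (AddCircle.coe_eq_zero_iff 1).mpr ⟨1, by rw [zsmul_eq_mul, zsmul_eq_mul]; push_cast; field_simp⟩
  let j : ZMod n →+ AddCircle (1 : ℚ) := ZMod.lift n ⟨j0, hj0⟩
  have hj : Function.Injective j := (ZMod.lift_injective _).mpr fun m hm => by
    rw [zmultiplesHom_apply, ← AddCircle.coe_zsmul] at hm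
    obtain ⟨k, hk⟩ := (AddCircle.coe_eq_zero_iff 1).mp hm
    rw [ZMod.intCast_zmod_eq_zero_iff_dvd]
    refine ⟨k, ?_⟩
    rw [zsmul_eq_mul, zsmul_eq_mul] at hk
    field_simp at hk
    have := (mul_comm (k : ℚ) n) ▸ hk.symm
    exact_mod_cast this
  have hmem : ∀ y : R, χ (Ideal.Quotient.mk I y) ∈ j.range := fun y => by
    obtain ⟨q, hq⟩ := QuotientAddGroup.mk_surjective (χ (Ideal.Quotient.mk I y))
    have h0 : (((n : ℤ) • q : ℚ) : AddCircle (1 : ℚ)) = 0 := by
      rw [AddCircle.coe_zsmul, show ((q : ℚ) : AddCircle (1 : ℚ)) = _ from hq, ← map_zsmul,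
        show ((n : ℤ) • Ideal.Quotient.mk I y : R ⧸ I) = Ideal.Quotient.mk I ((n : ℤ) • y) from
          (map_zsmul (Ideal.Quotient.mk I) _ _).symm]
      show χ (Ideal.Quotient.mk I ((n : ℤ) • y)) = 0
      rw [zsmul_eq_mul, map_mul, Int.cast_natCast,
        Ideal.Quotient.eq_zero_iff_mem.mpr (Ideal.mem_span_singleton_self _), zero_mul, map_zero]
    obtain ⟨k, hk⟩ := (AddCircle.coe_eq_zero_iff 1).mp h0
    refine ⟨(k : ZMod n), ?_⟩
    rw [← hq]
    show ZMod.lift n ⟨j0, hj0⟩ (k : ZMod n) = _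
    rw [ZMod.lift_coe, zmultiplesHom_apply, ← AddCircle.coe_zsmul]
    rw [zsmul_eq_mul, zsmul_eq_mul, mul_one, Int.cast_natCast] at hk
    show (((k • ((1 : ℚ) / n)) : ℚ) : AddCircle (1 : ℚ)) = _
    rw [zsmul_eq_mul]
    congr 1
    rw [hk]
    field_simp
  choose g hg using hmem
  refine ⟨⟨⟨g, hj (by rw [hg, map_zero, map_zero, map_zero])⟩, fun a b => hj (by
    rw [map_add, hg, hg, hg, map_add, map_add])⟩, fun h => hχ ?_⟩
  rw [← hg r]
  exact (congrArg j h).trans (map_zero j)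

/-- Change of coefficients of a character along an additive map. -/
def pushC {N : ℕ} {R : Type} [CommRing R] {m : ℕ} (c : R →+ ZMod m) :
    Period.H N R R →+ Period.H N (ZMod m) (ZMod m) where
  toFun φ := ⟨c.comp (φ : Additive (Gamma0 N) →+ R),
    ⟨fun γ hγ => by
      show c _ = 0
      rw [Period.H_parabolic φ hγ, map_zero],
     fun γ hγ => by
      show c _ = 0
      rw [Period.H_finOrder φ hγ, map_zero]⟩⟩
  map_zero' := Subtype.ext (AddMonoidHom.ext fun _ => map_zero c)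
  map_add' _ _ := Subtype.ext (AddMonoidHom.ext fun _ => map_add c _ _)

variable {N : ℕ} [NeZero N] {p : ℕ} [Fact p.Prime] {R : Type} [CommRing R] (f : ℤ_[p] →+* R)

theorem coe_pushC {m : ℕ} (c : R →+ ZMod m) (φ : Period.H N R R) (γ : Additive (Gamma0 N)) :
    (pushC c φ : Additive (Gamma0 N) →+ ZMod m) γ = c ((φ : Additive (Gamma0 N) →+ R) γ) := rfl

/-- Additive functionals are `ℤ_p`-linear. -/
theorem addHom_mul (n : ℕ) (c : R →+ ZMod (p ^ n)) (z : ℤ_[p]) (r : R) :
    c (f z * r) = PadicInt.toZModPow n z * c r := by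
  haveI : NeZero (p ^ n) := ⟨pow_ne_zero _ (Fact.out : p.Prime).ne_zero⟩
  set k := (PadicInt.toZModPow n z).val
  have h0 : PadicInt.toZModPow n (z - (k : ℤ_[p])) = 0 := by
    rw [map_sub, map_natCast, ZMod.natCast_zmod_val, sub_self]
  rw [← RingHom.mem_ker, PadicInt.ker_toZModPow, Ideal.mem_span_singleton] at h0
  obtain ⟨w, hw⟩ := h0
  have hz : z = ((p ^ n : ℕ) : ℤ_[p]) * w + (k : ℤ_[p]) := by
    push_cast; rw [← hw, sub_add_cancel]
  have e1 : f z * r = (p ^ n) • (f w * r) + k • r := by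
    rw [hz, map_add, map_mul, map_natCast, map_natCast, nsmul_eq_mul, nsmul_eq_mul]
    push_cast
    ring
  have e2 : PadicInt.toZModPow n z = (k : ZMod (p ^ n)) := (ZMod.natCast_zmod_val _).symm
  rw [e1, e2, map_add, map_nsmul, map_nsmul, nsmul_eq_mul, nsmul_eq_mul, ZMod.natCast_self,
    zero_mul, zero_add]

theorem pushC_galH (n : ℕ) (c : R →+ ZMod (p ^ n)) (σ : Γℚ) (φ : Period.H N R R) :
    pushC c (galH N f σ φ) = galH N (PadicInt.toZModPow n) σ (pushC c φ) := by
  refine (Period.evalEquiv N _ _).injective (funext fun i => ?_)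
  rw [evalEquiv_galH, Period.evalEquiv_apply, coe_pushC, ← Period.evalEquiv_apply, evalEquiv_galH]
  simp only [Matrix.mulVec, dotProduct, map_sum, Matrix.map_apply, addHom_mul]
  rfl

/-- The Galois action on torsion in characters. -/
theorem jTorsionEquiv_galois (n : ℕ) (σ : Γℚ) (x : Reps.tors N (p ^ n)) :
    haveI : NeZero (p ^ n) := ⟨pow_ne_zero _ (Fact.out : p.Prime).ne_zero⟩
    Torsion.jTorsionEquiv N Reps.qbarEmb (p ^ n) (JZero.torsionGaloisRep N (p ^ n) σ x) =
      galH N (PadicInt.toZModPow n) σ (Torsion.jTorsionEquiv N Reps.qbarEmb (p ^ n) x) := by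
  haveI : NeZero (p ^ n) := ⟨pow_ne_zero _ (Fact.out : p.Prime).ne_zero⟩
  have h := Reps.galModel_coord N p n σ x
  rw [Reps.coordTors_apply, Reps.coordTors_apply] at h
  have h2 := evalEquiv_galH (PadicInt.toZModPow n) σ
    (HeckeH.wH N (ZMod (p ^ n)) (ZMod (p ^ n)) (Torsion.jTorsionEquiv N Reps.qbarEmb (p ^ n) x))
  rw [galH_wH] at h2
  have h3 := (Period.evalEquiv N _ _).injective (h.trans h2.symm)
  exact (Function.LeftInverse.injective (HeckeH.wH_wH N (ZMod (p ^ n)) (ZMod (p ^ n)))) h3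

/-- The torsion class of a character and a functional. -/
def classHom (n : ℕ) (c : R →+ ZMod (p ^ n)) : Period.H N R R →+ JZero N :=
  haveI : NeZero (p ^ n) := ⟨pow_ne_zero _ (Fact.out : p.Prime).ne_zero⟩
  (Reps.tors N (p ^ n)).subtype.comp
    ((Torsion.jTorsionEquiv N Reps.qbarEmb (p ^ n)).symm.toAddMonoidHom.comp (pushC c))

theorem nsmul_classHom (n : ℕ) (c : R →+ ZMod (p ^ n)) (φ : Period.H N R R) :
    (p ^ n) • classHom n c φ = 0 := by
  rw [← natCast_zsmul]
  exact Pic0.mem_torsion.mp (SetLike.coe_mem _)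

theorem classHom_galH (n : ℕ) (c : R →+ ZMod (p ^ n)) (σ : Γℚ) (φ : Period.H N R R) :
    classHom n c (galH N f σ φ) = galF N σ • classHom n c φ := by
  haveI : NeZero (p ^ n) := ⟨pow_ne_zero _ (Fact.out : p.Prime).ne_zero⟩
  set x := (Torsion.jTorsionEquiv N Reps.qbarEmb (p ^ n)).symm (pushC c φ) with hx
  have h : (Torsion.jTorsionEquiv N Reps.qbarEmb (p ^ n)).symm (pushC c (galH N f σ φ)) =
      JZero.torsionGaloisRep N (p ^ n) σ x := by
    rw [AddEquiv.symm_apply_eq, jTorsionEquiv_galois, hx, AddEquiv.apply_symm_apply, pushC_galH]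
  exact congrArg Subtype.val h

/-- A class all of whose functionals vanish is divisible. -/
theorem exists_nsmul_eq (n : ℕ) {φ : Period.H N R R}
    (h : ∀ c : R →+ ZMod (p ^ n), classHom n c φ = 0) :
    ∃ ψ : Period.H N R R, (p ^ n) • ψ = φ := by
  haveI : NeZero (p ^ n) := ⟨pow_ne_zero _ (Fact.out : p.Prime).ne_zero⟩
  have hd : ∀ i, ∃ x : R, ((p ^ n : ℕ) : R) * x = Period.evalEquiv N R R φ i := fun i => by
    by_contra hne
    push Not at hne
    obtain ⟨c, hc⟩ := exists_addHom_zmod_ne_zero (p ^ n) hne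
    have h1 : pushC c φ = 0 := by
      have := h c
      rw [classHom] at this
      exact (AddEquiv.map_eq_zero_iff _).mp (Subtype.ext this : (Torsion.jTorsionEquiv N Reps.qbarEmb (p ^ n)).symm (pushC c φ) = 0)
    exact hc (by rw [Period.evalEquiv_apply, ← coe_pushC, h1]; rfl)
  choose x hx using hd
  refine ⟨(Period.evalEquiv N R R).symm x, (Period.evalEquiv N R R).injective (funext fun i => ?_)⟩
  rw [map_nsmul, LinearEquiv.apply_symm_apply, Pi.smul_apply, nsmul_eq_mul, hx]

variable {M : ℕ} [NeZero M] [NeZero p] (hpM : ¬ p ∣ M)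

/-- The characters of level `M p` killed by both corestrictions. -/
def corKer (R : Type) [CommRing R] : Submodule R (Period.H (M * p) R R) :=
  LinearMap.ker (Degen.corH (N := M) (M := M * p) R R) ⊓
    LinearMap.ker ((Degen.corH (N := M) R R).comp (Ihara.thetaH R R hpM))

include hpM in
theorem pushC_corH {m : ℕ} (c : R →+ ZMod m) (φ : Period.H (M * p) R R) :
    pushC c (Degen.corH (N := M) R R φ) = Degen.corH (N := M) (ZMod m) (ZMod m) (pushC c φ) := by
  letI : Fintype (Gamma0 M ⧸ Degen.subG0 M (M * p)) :=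
    Fintype.ofEquiv _ (Ihara.cosEquiv (N := M) hpM)
  refine Subtype.ext (AddMonoidHom.ext fun γ => ?_)
  obtain ⟨γ, rfl⟩ := Additive.ofMul.surjective γ
  rw [coe_pushC, Degen.coe_corH, Degen.coe_corH,
    Degen.corFun_apply _ Quotient.out (fun q => QuotientGroup.out_eq' q),
    Degen.corFun_apply _ Quotient.out (fun q => QuotientGroup.out_eq' q), map_sum]
  rfl

theorem classHom_mem_pushKer (A : ValuationSubring Qb) (hA : A.LiesOverPrime p) (n : ℕ)
    (c : R →+ ZMod (p ^ n)) {φ : Period.H (M * p) R R} (hφ : φ ∈ corKer hpM R) :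
    classHom n c φ ∈ pushKer A (Fact.out : p.Prime) hpM hA := by
  haveI : NeZero (p ^ n) := ⟨pow_ne_zero _ (Fact.out : p.Prime).ne_zero⟩
  obtain ⟨h1, h2⟩ := Submodule.mem_inf.mp hφ
  rw [LinearMap.mem_ker] at h1 h2
  refine (mem_pushKer_iff A _ hpM hA _).mpr ?_
  rw [AddEquiv.toAddMonoidHom_eq_coe, AddMonoidHom.comp_apply, AddMonoidHom.coe_coe,
    AddEquiv.apply_symm_apply]
  refine ⟨by rw [← pushC_corH hpM, h1, map_zero], ?_⟩
  rw [show Ihara.thetaH (ZMod (p ^ n)) (ZMod (p ^ n)) hpM (pushC c φ) =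
    pushC c (Ihara.thetaH R R hpM φ) from rfl, ← pushC_corH hpM,
    show Degen.corH (N := M) R R (Ihara.thetaH R R hpM φ) = 0 from h2, map_zero]

theorem galH_mem_corKer (σ : Γℚ) {φ : Period.H (M * p) R R} (hφ : φ ∈ corKer hpM R)
    (hsep : ∀ r : R, (∀ n : ℕ, ∃ x, ((p ^ n : ℕ) : R) * x = r) → r = 0) :
    galH (M * p) f σ φ ∈ corKer hpM R := by
  haveI := fun n => (⟨pow_ne_zero n (Fact.out : p.Prime).ne_zero⟩ : NeZero (p ^ n))
  obtain ⟨A, hA⟩ := GalCommon.exists_liesOverPrime (Fact.out : p.Prime)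
  suffices h : ∀ (ψ : Period.H M R R), (∀ n (c : R →+ ZMod (p ^ n)), pushC c ψ = 0) → ψ = 0 by
    have key : ∀ n (c : R →+ ZMod (p ^ n)),
        pushC c (Degen.corH (N := M) R R (galH (M * p) f σ φ)) = 0 ∧
        pushC c (Degen.corH (N := M) R R (Ihara.thetaH R R hpM (galH (M * p) f σ φ))) = 0 := by
      intro n c
      have h := galois_smul_mem_pushKer A (Fact.out : p.Prime) hpM hA σ
        (classHom_mem_pushKer hpM A hA n c hφ)
      rw [← classHom_galH f] at h
      have h2 := (mem_pushKer_iff A _ hpM hA _).mp h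
      rw [AddEquiv.toAddMonoidHom_eq_coe, AddMonoidHom.comp_apply, AddMonoidHom.coe_coe,
        AddEquiv.apply_symm_apply] at h2
      rw [pushC_corH hpM, pushC_corH hpM]
      exact h2
    exact Submodule.mem_inf.mpr ⟨LinearMap.mem_ker.mpr (h _ fun n c => (key n c).1),
      LinearMap.mem_ker.mpr (h _ fun n c => (key n c).2)⟩
  refine fun ψ hψ => (Period.evalEquiv M R R).injective (funext fun i => ?_)
  rw [map_zero, Pi.zero_apply]
  refine hsep _ fun n => ?_
  by_contra hne
  push Not at hne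
  obtain ⟨c, hc⟩ := exists_addHom_zmod_ne_zero (p ^ n) hne
  exact hc (by rw [Period.evalEquiv_apply, ← coe_pushC, hψ n c]; rfl)

theorem classHom_subScalar_pow (n : ℕ) (c : R →+ ZMod (p ^ n)) (τ : Γℚ) (a : ℕ) :
    ∀ (k : ℕ) (φ : Period.H (M * p) R R),
      classHom n c (((galH (M * p) f τ - (a : R) • 1) ^ k) φ) =
        (subScalar M p τ a ^ k) (classHom n c φ) := by
  intro k
  induction k with
  | zero => intro φ; simp
  | succ k ih =>
    intro φ
    rw [pow_succ, pow_succ, Module.End.mul_apply, ih, LinearMap.sub_apply, LinearMap.smul_apply,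
      Module.End.one_apply, Nat.cast_smul_eq_nsmul, map_sub, map_nsmul, classHom_galH f]
    rfl

/-- **Divisibility on the characters killed by both corestrictions.** -/
theorem exists_nsmul_eq_local (A : ValuationSubring Qb) (hA : A.LiesOverPrime p) {τ : Γℚ}
    (hτ : τ ∈ A.inertiaSubgroupIn ℚ) {a : ℕ} (ha : ∀ μ : Qb, μ ^ p ^ 1 = 1 → τ μ = μ ^ a) :
    (∀ σ ∈ A.inertiaSubgroupIn ℚ, ∀ (n : ℕ) (φ : Period.H (M * p) R R), φ ∈ corKer hpM R →
      ∃ ψ, (p ^ n) • ψ =
        ((galH (M * p) f τ - (a : R) • 1) ^ n * (galH (M * p) f σ - 1)) φ) ∧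
    ∃ B : ℕ, B ≠ 0 ∧ ∀ g ∈ A.decompositionSubgroup ℚ, ∀ (n : ℕ) (φ : Period.H (M * p) R R),
      φ ∈ corKer hpM R → ∃ ψ, (p ^ n) • ψ =
        B • ((galH (M * p) f τ - (a : R) • 1) ^ n * (galH (M * p) f g * galH (M * p) f g - 1)) φ := by
  have hp : p.Prime := Fact.out
  refine ⟨fun σ hσ n φ hφ => exists_nsmul_eq n fun c => ?_, ?_⟩
  · rw [Module.End.mul_apply, classHom_subScalar_pow, LinearMap.sub_apply, Module.End.one_apply,
      map_sub, classHom_galH f]
    exact subScalar_pow_inertia A hp hpM hA hσ hτ ha n (classHom_mem_pushKer hpM A hA n c hφ)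
      (nsmul_classHom n c φ)
  obtain ⟨B, hB, hdec⟩ := exists_subScalar_pow_decomposition A hp hpM hA (M := M)
  refine ⟨B, hB, fun g hg n φ hφ => exists_nsmul_eq n fun c => ?_⟩
  rw [map_nsmul, Module.End.mul_apply, classHom_subScalar_pow, LinearMap.sub_apply,
    Module.End.mul_apply, Module.End.one_apply, map_sub, classHom_galH f, classHom_galH f]
  exact hdec g hg τ hτ a ha n _ (classHom_mem_pushKer hpM A hA n c hφ) (nsmul_classHom n c φ)

end FLTAgent.Lower.Lift
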