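import Fermat.Agent.Lower.Lift.HopP.Torsion
import Fermat.Agent.Local.Span
import Fermat.Agent.MazurP.ResidualAlgebra
import Fermat.Agent.TW.Defs

/-!
# The eigenspace of a mod `p` system in `J₀(N)[p] ⊗ F`

`nontrivial_eigenSpace`: the eigenspace of `θ : TZ N → F` is nonzero, since the Hecke ring acts
faithfully by integer matrices. `eigenAct_quadratic`: when `θ (T_l)` is the trace of `M` at
Frobenius elements, Galois satisfies on it `g + det (M g) g⁻¹ = tr (M g)`, by Eichler–Shimura
away from `p N` and density.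
-/

set_option autoImplicit false
set_option linter.unusedSectionVars false
set_option linter.style.haveILetI false

noncomputable section

open ModularCurve Matrix
open scoped TensorProduct

namespace FLTAgent.Lower.Lift.HopP

open FLTAgent.Reps FLTAgent.Deform FLTAgent.TW

local notation "Qb" => AlgebraicClosure ℚ
local notation "GQ" => (AlgebraicClosure ℚ ≃ₐ[ℚ] AlgebraicClosure ℚ)

variable {N p : ℕ} [NeZero N] [Fact p.Prime] {F : Type} [Field F] [CharP F p]

theorem toF_mapMatrix_intCast (X : HeckeH.HMat N) :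
    (toF p F).mapMatrix ((Int.castRingHom (ZMod (p ^ 1))).mapMatrix X) =
      (Int.castRingHom F).mapMatrix X := by
  ext i j
  simp

theorem galF_commute_heckeF (σ : GQ) (t : TZ N) :
    Commute (galF N p F σ) (heckeF N F t) := by
  have h := (galMat_commute N (p ^ 1) σ t).map (toF p F).mapMatrix
  rw [toF_mapMatrix_intCast] at h
  exact h

/-- The eigenspace. -/
def eigenSpace (θ : TZ N →+* F) : Submodule F (Fin (Period.rankH N) → F) :=
  eigenSub (fun t => heckeF N F t) θ

theorem galF_mem_eigenSpace (θ : TZ N →+* F) (σ : GQ) :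
    ∀ v ∈ eigenSpace θ, galF N p F σ *ᵥ v ∈ eigenSpace θ := by
  intro v hv
  rw [eigenSpace, mem_eigenSub] at hv ⊢
  intro t
  rw [mulVec_mulVec, ← (galF_commute_heckeF σ t).eq, ← mulVec_mulVec, hv, mulVec_smul]

/-- Galois on the eigenspace. -/
def eigenAct (θ : TZ N →+* F) : GQ →* Module.End F (eigenSpace θ) where
  toFun σ := (galF N p F σ).mulVecLin.restrict (galF_mem_eigenSpace θ σ)
  map_one' := LinearMap.ext fun v => Subtype.ext (by simp [LinearMap.coe_restrict_apply])
  map_mul' σ τ := LinearMap.ext fun v => Subtype.ext (by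
    show galF N p F (σ * τ) *ᵥ (v : Fin (Period.rankH N) → F) =
      galF N p F σ *ᵥ (galF N p F τ *ᵥ (v : Fin (Period.rankH N) → F))
    rw [map_mul, mulVec_mulVec])

theorem coe_eigenAct (θ : TZ N →+* F) (σ : GQ) (v : eigenSpace θ) :
    (eigenAct (p := p) θ σ v : Fin (Period.rankH N) → F) = galF N p F σ *ᵥ v := rfl

theorem nontrivial_eigenSpace_aux (q : ℕ) [Fact q.Prime] [CharP F q] [Finite F] {S : Type}
    [CommRing S] [IsDomain S] [Finite S] (π : TZ N →+* S) (hπ : Function.Surjective π) (i : S →+* F)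
    (hi : Function.Injective i) : Nontrivial (eigenSpace (i.comp π)) := by
  classical
  set θ := i.comp π with hθ
  obtain ⟨v₀, hv₀, hker⟩ :=
    MazurP.exists_mod_eigvec (p := q) (HeckeH.heckeMatHom N) (HeckeH.heckeMatHom_injective N) θ
  letI := ZMod.algebra F q
  haveI : CharP S q := i.charP hi q
  letI := ZMod.algebra S q
  let act : TZ N →+* Matrix (Fin (Period.rankH N)) (Fin (Period.rankH N)) (ZMod q) :=
    (Int.castRingHom (ZMod q)).mapMatrix.comp (HeckeH.heckeMatHom N)
  let sec : S → TZ N := fun x => (hπ x).choose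
  have hsec : ∀ x, π (sec x) = x := fun x => (hπ x).choose_spec
  have hwell : ∀ t u, π t = π u → act t *ᵥ v₀ = act u *ᵥ v₀ := by
    intro t u h
    rw [← sub_eq_zero, ← sub_mulVec, ← map_sub]
    exact hker _ (by rw [map_sub, sub_eq_zero]; exact congrArg i h)
  let Φ₀ : S →+ (Fin (Period.rankH N) → ZMod q) := AddMonoidHom.mk' (fun x => act (sec x) *ᵥ v₀)
    fun x y => by
      rw [← add_mulVec, ← map_add]
      exact hwell _ _ (by rw [map_add, hsec, hsec, hsec])
  let Φ : S →ₗ[ZMod q] (Fin (Period.rankH N) → ZMod q) := Φ₀.toZModLinearMap q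
  have hΦ : ∀ t (y : S), Φ (π t * y) = act t *ᵥ Φ y := fun t y => by
    show act (sec (π t * y)) *ᵥ v₀ = act t *ᵥ (act (sec y) *ᵥ v₀)
    rw [mulVec_mulVec, ← map_mul]
    exact hwell _ _ (by rw [map_mul, hsec, hsec])
  have hΦinj : Function.Injective Φ := by
    rw [injective_iff_map_eq_zero]
    intro x hx
    by_contra hx0
    obtain ⟨y, hy⟩ := Finite.isField_of_domain S |>.mul_inv_cancel hx0
    refine hv₀ ?_
    have h1 : Φ (π (sec y) * x) = 0 := by rw [hΦ, hx, mulVec_zero]
    rw [hsec, mul_comm, hy] at h1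
    rw [← h1]
    show v₀ = act (sec 1) *ᵥ v₀
    rw [hwell (sec 1) 1 (by rw [hsec, map_one]), map_one, one_mulVec]
  -- an element of `F ⊗ S` on which `S` acts through `θ`
  let ψ : F ⊗[ZMod q] S →ₐ[F] F :=
    Algebra.TensorProduct.lift (AlgHom.id F F)
      ⟨i, fun r => RingHom.congr_fun (RingHom.ext_zmod (i.comp (algebraMap (ZMod q) S)) (algebraMap (ZMod q) F)) r⟩ fun _ _ => Commute.all _ _
  haveI : Finite (F ⊗[ZMod q] S) := Module.finite_of_finite (ZMod q)
  obtain ⟨e, he0, he⟩ := MazurP.exists_ne_zero_annihilated (RingHom.ker_ne_top ψ.toRingHom)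
  let L : F ⊗[ZMod q] S →ₗ[F] (Fin (Period.rankH N) → F) :=
    (TensorProduct.piScalarRight (ZMod q) F F (Fin (Period.rankH N))).toLinearMap.comp
      (Φ.baseChange F)
  have hLinj : Function.Injective L :=
    (TensorProduct.piScalarRight (ZMod q) F F (Fin (Period.rankH N))).injective.comp
      (Module.Flat.lTensor_preserves_injective_linearMap Φ hΦinj)
  have hL : ∀ t (z : F ⊗[ZMod q] S),
      L ((1 : F) ⊗ₜ π t * z) = heckeF N F t *ᵥ L z := by
    intro t z
    induction z using TensorProduct.induction_on with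
    | zero => simp
    | add a b ha hb => rw [mul_add, map_add, map_add, ha, hb, mulVec_add]
    | tmul a y =>
      rw [Algebra.TensorProduct.tmul_mul_tmul, one_mul]
      funext i
      show (Φ (π t * y) i) • a = ∑ j, (HeckeH.heckeMatHom N t i j : F) * (Φ y j • a)
      rw [hΦ, show (act t *ᵥ Φ y) i = ∑ j, (HeckeH.heckeMatHom N t i j : ZMod q) * Φ y j from rfl,
        Finset.sum_smul]
      refine Finset.sum_congr rfl fun j _ => ?_
      rw [Algebra.smul_def, Algebra.smul_def, map_mul, map_intCast, mul_assoc]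
  refine ⟨⟨⟨L e, mem_eigenSub.mpr fun t => ?_⟩, 0,
    fun h => he0 (hLinj ((congrArg Subtype.val h).trans (map_zero L).symm))⟩⟩
  have hmem : (1 : F) ⊗ₜ π t - θ t ⊗ₜ (1 : S) ∈ RingHom.ker ψ.toRingHom := by
    rw [RingHom.mem_ker]
    show ψ ((1 : F) ⊗ₜ π t - θ t ⊗ₜ (1 : S)) = 0
    rw [map_sub, Algebra.TensorProduct.lift_tmul, Algebra.TensorProduct.lift_tmul, map_one, map_one,
      one_mul, mul_one, AlgHom.id_apply, sub_eq_zero]
    rfl
  have h := he _ hmem
  rw [mul_sub, sub_eq_zero] at h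
  rw [← hL, mul_comm, h, mul_comm, show θ t ⊗ₜ (1 : S) * e = θ t • e by
    rw [Algebra.smul_def, Algebra.TensorProduct.algebraMap_apply, Algebra.algebraMap_self,
      RingHom.id_apply], map_smul]

/-- A mod `p` system has a nonzero eigenvector. -/
theorem nontrivial_eigenSpace (q : ℕ) [Fact q.Prime] [CharP F q] (θ : TZ N →+* F) [Finite F] :
    Nontrivial (eigenSpace θ) :=
  haveI : Finite θ.range := Subtype.finite
  nontrivial_eigenSpace_aux q θ.rangeRestrict θ.rangeRestrict_surjective θ.range.subtype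
    Subtype.val_injective

variable (θ : TZ N →+* F) (M : MatRep F)

/-- On the eigenspace Galois satisfies the quadratic relations of `M`. -/
theorem eigenAct_quadratic (hfin : FactorsFinite M) (hdet : DetCyclotomic M p)
    (hθ : ∀ (l : ℕ) (hl : l.Prime) (hlN : ¬ l ∣ N), l ≠ p → ∀ (A : ValuationSubring Qb) (φ : GQ),
      A.LiesOverPrime l → A.IsFrobeniusAt φ l → θ (heckeTOf hl hlN) = (M φ).trace) (g : GQ) :
    eigenAct (p := p) θ g + (M g).det • eigenAct (p := p) θ g⁻¹ =
      algebraMap F (Module.End F (eigenSpace θ)) (M g).trace := by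
  haveI : NeZero (p ^ 1) := ⟨pow_ne_zero _ (Fact.out : p.Prime).ne_zero⟩
  have hd : ∀ g : GQ, (M g).det = ((cycMod p 1 g).val : F) := fun g =>
    hdet g _ fun μ hμ => cycMod_spec p 1 g (by rwa [pow_one])
  obtain ⟨LE, hLE, hfix⟩ := hfin
  obtain ⟨t, ht, htr⟩ := Local.exists_mod_rel (galModel N p).τ (galModel N p).M
    (galModel N p).continuous_level (insert p N.primeFactors) (Finset.mem_insert_self _ _) 1
    (fun g t => θ t = (M g).trace) LE
    (fun g u t hu h => by rw [map_mul, hfix u hu, mul_one]; exact h)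
    (fun g t k h => by
      rw [map_luc, h, map_natCast, ← hd g, map_pow]
      have := trace_pow_eq_luc (V := Fin 2 → F) (Module.finrank_fin_fun F)
        (Matrix.toLinAlgEquiv' (M g)) k
      rw [← map_pow] at this
      simp only [Matrix.toLinAlgEquiv', LinearMap.toMatrixAlgEquiv'] at this
      simpa [← Matrix.toLin'_pow, LinearMap.trace_eq_matrix_trace F (Pi.basisFun F (Fin 2)),
        ← LinearMap.det_toMatrix'] using this.symm)
    (fun ℓ hℓ hℓS A hA σ hσ => by
      have hℓN : ¬ ℓ ∣ N := fun h =>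
        hℓS (Finset.mem_insert_of_mem (Nat.mem_primeFactors.mpr ⟨hℓ, h, NeZero.ne N⟩))
      have hℓp : ℓ ≠ p := fun h => hℓS (h ▸ Finset.mem_insert_self _ _)
      exact ⟨heckeTOf hℓ hℓN, (galModel N p).frobenius_rel ℓ hℓ hℓN hℓp A hA σ hσ,
        hθ ℓ hℓ hℓN hℓp A σ hA hσ⟩) g
  rw [Local.toZModPow_traceOp] at ht
  have ht' := congrArg (toF p F).mapMatrix ht
  change (toF p F).mapMatrix ((PadicInt.toZModPow 1).mapMatrix (tateMat N p g) +
    cycMod p 1 g • (PadicInt.toZModPow 1).mapMatrix (tateMat N p g⁻¹)) =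
      (toF p F).mapMatrix ((Int.castRingHom _).mapMatrix (HeckeH.heckeMatHom N t)) at ht'
  rw [toZModPow_tateMat, toZModPow_tateMat, map_add, toF_mapMatrix_intCast] at ht'
  refine LinearMap.ext fun v => Subtype.ext ?_
  have hv := mem_eigenSub.mp v.2 t
  have hsm : (toF p F).mapMatrix (cycMod p 1 g • galMat N (p ^ 1) g⁻¹) =
      (M g).det • galF N p F g⁻¹ := by
    ext i j
    rw [RingHom.mapMatrix_apply, Matrix.map_apply, Matrix.smul_apply, Matrix.smul_apply, smul_eq_mul,
      smul_eq_mul, map_mul, hd]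
    congr 1
    rw [← map_natCast (toF p F), ZMod.natCast_zmod_val]
  rw [hsm] at ht'
  rw [LinearMap.add_apply, LinearMap.smul_apply, Module.algebraMap_end_apply, Submodule.coe_add,
    Submodule.coe_smul, Submodule.coe_smul, coe_eigenAct, coe_eigenAct, ← htr, ← hv,
    show heckeF N F t = galF N p F g + (M g).det • galF N p F g⁻¹ from ht'.symm, add_mulVec,
    smul_mulVec]

end FLTAgent.Lower.Lift.HopP
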