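import Fermat.Agent.MazurP.ResidualAlgebra

/-!
# The lemma of Boston, Lenstra and Ribet

`exists_injective_equivariant`: a two dimensional representation `ρ` over a field of odd
characteristic, whose image spans the matrices and contains `diag (-1, 1)`, embeds into every
nonzero module `W` on which the group satisfies its quadratic relations. The relations make the
action factor through the matrices, and a column of the matrix algebra applied to a suitable
vector gives the equivariant injection.
-/

set_option autoImplicit false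

noncomputable section

namespace FLTAgent.Lower.Lift.HopP

open Matrix Finsupp

variable {G F W : Type*} [Group G] [Field F] [AddCommGroup W] [Module F W]

/-- A matrix all of whose columns but the `j`-th vanish. -/
def colMat (j : Fin 2) : (Fin 2 → F) →ₗ[F] (Matrix (Fin 2) (Fin 2) F) where
  toFun x := Matrix.of fun a b => if b = j then x a else 0
  map_add' x y := by ext a b; by_cases h : b = j <;> simp [h]
  map_smul' c x := by ext a b; by_cases h : b = j <;> simp [h]

theorem mul_colMat (A : (Matrix (Fin 2) (Fin 2) F)) (j : Fin 2) (x : Fin 2 → F) : A * colMat j x = colMat j (A *ᵥ x) := by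
  ext a b
  by_cases h : b = j <;> simp [colMat, Matrix.mul_apply, Fin.sum_univ_two, h]
  fin_cases a <;> rfl

theorem sum_colMat_single : colMat (0 : Fin 2) ![(1 : F), 0] + colMat (1 : Fin 2) ![(0 : F), 1] = 1 := by
  ext a b
  fin_cases a <;> fin_cases b <;> simp [colMat]

/-- The square of a commutator with `diag (-1, 1)`. -/
theorem comm_sq_diag (B : (Matrix (Fin 2) (Fin 2) F)) :
    (!![(-1 : F), 0; 0, 1] * B - B * !![(-1 : F), 0; 0, 1]) *
        (!![(-1 : F), 0; 0, 1] * B - B * !![(-1 : F), 0; 0, 1]) =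
      algebraMap F (Matrix (Fin 2) (Fin 2) F) (-4 * (B 0 1 * B 1 0)) := by
  rw [Algebra.algebraMap_eq_smul_one]
  ext a b
  fin_cases a <;> fin_cases b <;>
    simp [Matrix.mul_apply, Fin.sum_univ_two, Matrix.vecMul, dotProduct] <;> ring

variable (ρ : G →* (Matrix (Fin 2) (Fin 2) F)) (π : G →* Module.End F W)

/-- Some element has both entries off the diagonal nonzero. -/
theorem exists_offDiag_ne_zero (hspan : Submodule.span F (Set.range ρ) = ⊤) :
    ∃ g, ρ g 0 1 ≠ 0 ∧ ρ g 1 0 ≠ 0 := by
  have hex : ∀ i j : Fin 2, ∃ g, ρ g i j ≠ 0 := by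
    intro i j
    by_contra h
    push Not at h
    have hle : Submodule.span F (Set.range ρ) ≤
        LinearMap.ker (Matrix.entryLinearMap F F i j) := by
      rw [Submodule.span_le]
      rintro _ ⟨g, rfl⟩
      exact h g
    have h1 := hle (hspan.ge (Submodule.mem_top (x := Matrix.single i j (1 : F))))
    rw [LinearMap.mem_ker, Matrix.entryLinearMap_apply, Matrix.single_apply_same] at h1
    exact one_ne_zero h1
  obtain ⟨g, hg⟩ := hex 0 1
  obtain ⟨h, hh⟩ := hex 1 0
  by_cases h1 : ρ g 1 0 = 0
  swap; · exact ⟨g, hg, h1⟩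
  by_cases h2 : ρ h 0 1 = 0
  swap; · exact ⟨h, h2, hh⟩
  have hunit : ∀ u, (ρ u).det ≠ 0 := fun u =>
    ((Group.isUnit u).map ρ |>.map Matrix.detMonoidHom).ne_zero
  have hg11 : ρ g 1 1 ≠ 0 := fun h0 => hunit g (by simp [Matrix.det_fin_two, h0, h1])
  have hh11 : ρ h 1 1 ≠ 0 := fun h0 => hunit h (by simp [Matrix.det_fin_two, h0, h2])
  refine ⟨g * h, ?_, ?_⟩
  · rw [map_mul, Matrix.mul_apply, Fin.sum_univ_two, h2, mul_zero, zero_add]
    exact mul_ne_zero hg hh11
  · rw [map_mul, Matrix.mul_apply, Fin.sum_univ_two, h1, zero_mul, zero_add]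
    exact mul_ne_zero hg11 hh

/-- The embedding. -/
theorem exists_injective_equivariant [Nontrivial W] (h2 : (2 : F) ≠ 0)
    (hspan : Submodule.span F (Set.range ρ) = ⊤) {τ₀ : G} (hτ₀ : ρ τ₀ = !![-1, 0; 0, 1])
    (d : G →* F) (hπ : ∀ g, π g + d g • π g⁻¹ = algebraMap F (Module.End F W) (ρ g).trace) :
    ∃ f : (Fin 2 → F) →ₗ[F] W, Function.Injective f ∧ ∀ g x, f (ρ g *ᵥ x) = π g (f x) := by
  classical
  obtain ⟨b₀, hb01, hb10⟩ := exists_offDiag_ne_zero ρ hspan
  have hu : (ρ τ₀ * ρ b₀ - ρ b₀ * ρ τ₀) * (ρ τ₀ * ρ b₀ - ρ b₀ * ρ τ₀) =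
      algebraMap F (Matrix (Fin 2) (Fin 2) F) (-4 * (ρ b₀ 0 1 * ρ b₀ 1 0)) := by rw [hτ₀]; exact comm_sq_diag _
  have he : -4 * (ρ b₀ 0 1 * ρ b₀ 1 0) ≠ 0 := by
    refine mul_ne_zero (neg_ne_zero.mpr ?_) (mul_ne_zero hb01 hb10)
    rw [show (4 : F) = 2 * 2 by norm_num]
    exact mul_ne_zero h2 h2
  have ht : ∀ c : G →₀ F, linearCombination F ρ c = 0 →
      linearCombination F (fun g => (ρ g).trace) c = 0 := fun c hc => by
    have h := congrArg (Matrix.traceLinearMap (Fin 2) F F) hc
    rw [map_zero, Finsupp.apply_linearCombination] at h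
    exact h
  have hrel : ∀ c : G →₀ F, linearCombination F ρ c = 0 → linearCombination F π c = 0 :=
    fun c hc => MazurP.relations_of_quadratic ρ π (fun g => (ρ g).trace) d h2 ht hπ he hu hc
  have hsurj : Function.Surjective (linearCombination F ρ) := by
    rw [← LinearMap.range_eq_top, Finsupp.range_linearCombination, hspan]
  obtain ⟨s, hs⟩ := (linearCombination F ρ).exists_rightInverse_of_surjective
    (LinearMap.range_eq_top.mpr hsurj)
  let Φ : (Matrix (Fin 2) (Fin 2) F) →ₗ[F] Module.End F W := (linearCombination F π).comp s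
  have hs' : ∀ X, linearCombination F ρ (s X) = X := LinearMap.congr_fun hs
  have hΦ : ∀ c, Φ (linearCombination F ρ c) = linearCombination F π c := fun c => by
    rw [← sub_eq_zero]
    show linearCombination F π (s (linearCombination F ρ c)) - linearCombination F π c = 0
    rw [← map_sub]
    refine hrel _ ?_
    rw [map_sub, hs', sub_self]
  have hmul : ∀ g X, Φ (ρ g * X) = π g * Φ X := fun g X => by
    conv_lhs => rw [← hs' X]
    rw [← MazurP.linearCombination_translate, hΦ, MazurP.linearCombination_translate]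
    rfl
  have hone : Φ 1 = 1 := by
    have h := hΦ (single 1 1)
    rwa [linearCombination_single, linearCombination_single, one_smul, one_smul, MonoidHom.map_one,
      MonoidHom.map_one] at h
  obtain ⟨w, hw⟩ := exists_ne (0 : W)
  let f : Fin 2 → ((Fin 2 → F) →ₗ[F] W) := fun j =>
    (LinearMap.applyₗ w).comp (Φ.comp (colMat j))
  have hfg : ∀ j g x, f j (ρ g *ᵥ x) = π g (f j x) := fun j g x => by
    show Φ (colMat j (ρ g *ᵥ x)) w = π g (Φ (colMat j x) w)
    rw [← mul_colMat, hmul]
    rfl
  obtain ⟨j, hj⟩ : ∃ j, f j ≠ 0 := by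
    by_contra h
    push Not at h
    refine hw ?_
    have h0 : Φ (colMat 0 ![(1 : F), 0]) w + Φ (colMat 1 ![(0 : F), 1]) w = 0 := by
      rw [show Φ (colMat 0 ![(1 : F), 0]) w = f 0 ![1, 0] from rfl,
        show Φ (colMat 1 ![(0 : F), 1]) w = f 1 ![0, 1] from rfl, h 0, h 1]
      simp
    rwa [← LinearMap.add_apply, ← map_add, sum_colMat_single, hone] at h0
  refine ⟨f j, (injective_iff_map_eq_zero _).mpr fun x hx => ?_, hfg j⟩
  by_contra hx0
  refine hj ?_
  -- the kernel is stable under the span of the image, which is everything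
  have hstab : ∀ A : (Matrix (Fin 2) (Fin 2) F), f j (A *ᵥ x) = 0 := fun A => by
    obtain ⟨c, rfl⟩ := hsurj A
    induction c using Finsupp.induction_linear with
    | zero => simp
    | add u v hu hv => rw [map_add, Matrix.add_mulVec, map_add, hu, hv, add_zero]
    | single g a => rw [linearCombination_single, Matrix.smul_mulVec, map_smul, hfg, hx, map_zero,
        smul_zero]
  refine LinearMap.ext fun y => ?_
  obtain ⟨i, hi⟩ := Function.ne_iff.mp hx0
  have h := hstab (Matrix.of fun a b => if b = i then (x i)⁻¹ * y a else 0)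
  rwa [show (Matrix.of fun a b => if b = i then (x i)⁻¹ * y a else 0) *ᵥ x = y from ?_] at h
  ext a
  simp only [Matrix.mulVec, dotProduct, Matrix.of_apply, ite_mul, zero_mul, Finset.sum_ite_eq',
    Finset.mem_univ, if_true]
  have hxi : x i ≠ 0 := hi
  field_simp

end FLTAgent.Lower.Lift.HopP
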