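import Fermat.Agent.Lift.Monodromy
import Fermat.Agent.Lift.Main

/-!
# Good classes of `p`-power level in the level-lowering data

For `Lift.Data`: good classes are closed under passing to smaller order (`Good.of_torsion`), an
automorphism fixing the crossings moves torsion classes into good ones up to a bounded factor
(`Compat.exists_good_nsmul_sub`), and an endomorphism that preserves goodness and kills the good
classes of level `p` in a subgroup has its `n`th power kill those of level `p ^ n`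
(`pow_apply_eq_zero`).
-/

set_option autoImplicit false
set_option linter.style.haveILetI false
set_option linter.unusedSectionVars false

noncomputable section

open AlgebraicCurve SemilinearAut

namespace FLTAgent.Lift

open FLTAgent.Reduction

namespace Data

variable {K k F F₀ E : Type*} [Field K] [Field k] [Field F] [Field F₀] [Field E] [Algebra K F]
  [Algebra K F₀] [Algebra k E] [IsAlgClosed K] [IsAlgClosed k] {A : ValuationSubring K}
  {π : A →+* k} {q g g' : ℕ} {D : Data A π q F F₀ E g g'}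

theorem nonempty_good_zero {n : ℕ} (hn : n ≠ 0) : Nonempty (D.Good n 0) := by
  have hd : (divOf (1 : F) : Divisor K F) = 0 :=
    Finsupp.ext fun v => by
      have := v.ord_mul (one_ne_zero (α := F)) (one_ne_zero (α := F))
      rw [mul_one] at this
      rw [D.curve.divOf_apply, Finsupp.zero_apply]
      omega
  exact exists_good (Z := 0) (f := 1) hn
    ⟨Pic0.mk_zero, one_ne_zero, by rw [hd, ZeroMemClass.coe_zero, smul_zero]⟩
    (c1 := 0) (c0 := 0) (by rw [smul_zero, dI_one]) (by rw [smul_zero, dZ_one]) (zero_mem _)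
    (zero_mem _)

/-- A good class of smaller order is good of that order. -/
theorem Good.of_torsion {n m d : ℕ} (hnmd : n = m * d) (hn : n ≠ 0) {z : Pic0 K F}
    (gd : D.Good n z) (hz : z ∈ Pic0.torsion K F m) : Nonempty (D.Good m z) := by
  obtain ⟨Z, f, h⟩ := exists_isRep hz D.curve
  subst hnmd
  have hm : m ≠ 0 := left_ne_zero_of_mul hn
  have hd : d ≠ 0 := right_ne_zero_of_mul hn
  have hrep : IsRep (m * d) z Z (f ^ d) :=
    ⟨h.mk_eq, pow_ne_zero _ h.ne_zero, by
      rw [divOf_pow D.curve, ← h.div_eq, smul_smul, mul_comm (d : ℤ), Nat.cast_mul]⟩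
  obtain ⟨c, u, hc, hu, hfu⟩ := isRep_congr hrep gd.rep D.curve
  obtain ⟨h1, h0⟩ : D.Ginf.red gd.f = gd.w1 ^ (m * d) ∧ D.Gzero.red gd.f = gd.w0 ^ (m * d) :=
    ⟨congrArg Prod.fst gd.red_eq, congrArg Prod.snd gd.red_eq⟩
  have hdd : (d : ℤ) ≠ 0 := by exact_mod_cast hd
  refine exists_good hm h (c1 := divOf gd.w1 - D.dI u) (c0 := divOf gd.w0 - D.dZ u) ?_ ?_
    (sub_mem (D.param.curveBar.isPrincipal_divOf gd.w1_ne) ?_)
    (sub_mem (D.param.curveBar.isPrincipal_divOf gd.w0_ne) ?_)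
  · have e := dI_of_mem (D := D) gd.mem.1 (h1 ▸ pow_ne_zero _ gd.w1_ne)
    rw [h1, divOf_pow D.param.curveBar, hfu,
      dI_smul hc (mul_ne_zero (pow_ne_zero _ h.ne_zero) (pow_ne_zero _ hu)),
      dI_mul (pow_ne_zero _ h.ne_zero) (pow_ne_zero _ hu), dI_pow h.ne_zero, dI_pow hu] at e
    ext Q
    have eQ := DFunLike.congr_fun e Q
    simp only [Finsupp.add_apply, Finsupp.smul_apply, Finsupp.sub_apply, smul_eq_mul,
      Nat.cast_mul] at eQ ⊢
    exact mul_left_cancel₀ hdd (by linear_combination -eQ)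
  · have e := dZ_of_mem (D := D) gd.mem.2 (h0 ▸ pow_ne_zero _ gd.w0_ne)
    rw [h0, divOf_pow D.param.curveBar, hfu,
      dZ_smul hc (mul_ne_zero (pow_ne_zero _ h.ne_zero) (pow_ne_zero _ hu)),
      dZ_mul (pow_ne_zero _ h.ne_zero) (pow_ne_zero _ hu), dZ_pow h.ne_zero, dZ_pow hu] at e
    ext Q
    have eQ := DFunLike.congr_fun e Q
    simp only [Finsupp.add_apply, Finsupp.smul_apply, Finsupp.sub_apply, smul_eq_mul,
      Nat.cast_mul] at eQ ⊢
    exact mul_left_cancel₀ hdd (by linear_combination -eQ)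
  · obtain ⟨a, ha⟩ := exists_normal_inf (D := D) hu
    rw [dI_eq ha]
    exact D.param.curveBar.isPrincipal_divOf ha.2
  · obtain ⟨a, ha⟩ := exists_normal_zero (D := D) hu
    rw [dZ_eq ha]
    exact D.param.curveBar.isPrincipal_divOf ha.2

theorem Compat.dI_smul_of_compat {σ : SemilinearAut K F} {σb : SemilinearAut k E}
    (h : D.Compat σ σb) {f : F} (hf : f ≠ 0) : D.dI (σ • f) = σb • D.dI f := by
  obtain ⟨c, hc⟩ := exists_normal_inf (D := D) hf
  have e : σ • c • f = baseAut σ c • σ • f := by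
    rw [Algebra.smul_def, smul_mul', SemilinearAut.smul_algebraMap, ← Algebra.smul_def]
  have hc' : IsNormal D.Ginf (baseAut σ c) (σ • f) := by
    refine ⟨e ▸ (h.mem_inf _).mpr hc.1, ?_⟩
    rw [← e, h.red_inf _ hc.1]
    exact (smul_ne_zero_iff_ne σb).mpr hc.2
  rw [dI_eq hc', dI_eq hc, ← e, h.red_inf _ hc.1, divOf_smul_semilinear D.param.curveBar]

/-- An automorphism fixing the crossings moves a torsion class by `B⁻¹` of a good one, if the
difference dies on the small curve. -/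
theorem Compat.exists_good_nsmul_sub {n : ℕ} (hn : n ≠ 0) {B : ℕ}
    (hfix : ∀ x : Pic0 k E, D.frob • D.frob • x = x → B • x = 0) (hX : D.Xfin.Nonempty)
    {σ : SemilinearAut K F} {σb : SemilinearAut k E} (hσ : D.Compat σ σb)
    (hσX : ∀ Q ∈ D.X, σb • Q = Q) {z : Pic0 K F} (hz : z ∈ Pic0.torsion K F n)
    (hα : D.resPic D.resα D.principal_resα (σ • z - z) = 0)
    (hβ : D.resPic D.resβ D.principal_resβ (σ • z - z) = 0) :
    Nonempty (D.Good n (B • (σ • z - z))) := by
  classical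
  obtain ⟨Q₀, hQ₀⟩ := hX
  obtain ⟨Z, f, hr⟩ := exists_isRep hz D.curve
  have hσf : σ • f ≠ 0 := (smul_ne_zero_iff_ne σ).mpr hr.ne_zero
  have h1 : IsRep n (σ • z) (degZeroSMulHom σ Z) (σ • f) := by
    refine ⟨by rw [← pic0_smul_mk, hr.mk_eq], hσf, ?_⟩
    rw [coe_degZeroSMulHom, ← divOf_smul_semilinear D.curve, ← hr.div_eq]
    exact (map_zsmul (DistribSMul.toAddMonoidHom (Divisor K F) σ) _ _).symm
  have h2 : IsRep n (-z) (-Z) f⁻¹ := by
    refine ⟨?_, inv_ne_zero hr.ne_zero, ?_⟩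
    · show (QuotientAddGroup.mk (-Z) : Pic0 K F) = -z
      rw [QuotientAddGroup.mk_neg]
      exact congrArg Neg.neg hr.mk_eq
    · rw [NegMemClass.coe_neg, smul_neg, hr.div_eq, D.curve.divOf_inv]
  have h3 := h1.add h2 D.curve
  rw [← sub_eq_add_neg] at h3
  have hw : σ • z - z ∈ Pic0.torsion K F n := by
    rw [Pic0.mem_torsion] at hz ⊢
    have e : (n : ℤ) • σ • z = σ • (n : ℤ) • z :=
      (map_zsmul (DistribSMul.toAddMonoidHom (Pic0 K F) σ) _ _).symm
    rw [zsmul_sub, e, hz, sub_zero]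
    exact smul_zero (A := Pic0 K F) σ
  refine exists_good_nsmul hn hfix (Q₀ := Q₀) (z := ⟨σ • z - z, hw⟩) ?_
  refine Prod.ext (funext fun Q => ?_) (Prod.ext (Subtype.ext hα) (Subtype.ext hβ))
  show D.phi n Q.1 ⟨σ • z - z, hw⟩ = 0
  rw [phi_eq (z := ⟨σ • z - z, hw⟩) h3, dI_mul hσf (inv_ne_zero hr.ne_zero), dI_inv hr.ne_zero,
    hσ.dI_smul_of_compat hr.ne_zero, Finsupp.add_apply, Finsupp.neg_apply,
    SemilinearAut.divisor_smul_apply, inv_smul_eq_iff.mpr (hσX _ (mem_Xfin.mp Q.2.1)).symm,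
    add_neg_cancel, Int.cast_zero]

/-- An endomorphism preserving goodness and killing the good classes of level `p` in `G` has its
`n`th power kill those of level `p ^ n`. -/
theorem pow_apply_eq_zero {p : ℕ} (hp : p.Prime) (G : AddSubgroup (Pic0 K F))
    (φ : AddMonoid.End (Pic0 K F)) (hφG : ∀ u ∈ G, φ u ∈ G)
    (hφ : ∀ n u, n ≠ 0 → Nonempty (D.Good n u) → Nonempty (D.Good n (φ u)))
    (h1 : ∀ u ∈ G, Nonempty (D.Good p u) → φ u = 0) :
    ∀ (n : ℕ), ∀ u ∈ G, Nonempty (D.Good (p ^ n) u) → (φ ^ n) u = 0 := by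
  have htor : ∀ {n u}, Nonempty (D.Good n u) → n • u = 0 := by
    rintro n u ⟨gd⟩
    rw [← gd.rep.mk_eq]
    show n • (QuotientAddGroup.mk gd.Z : Pic0 K F) = 0
    rw [← QuotientAddGroup.mk_nsmul]
    refine pic0_mk_eq_zero.mpr ?_
    rw [AddSubgroupClass.coe_nsmul, ← natCast_zsmul, gd.rep.div_eq]
    exact D.curve.isPrincipal_divOf gd.rep.ne_zero
  intro n
  induction n with
  | zero => intro u _ hu; simpa using htor hu
  | succ n ih =>
    intro u huG hu
    obtain ⟨gd⟩ := hu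
    have hn0 : p ^ (n + 1) ≠ 0 := pow_ne_zero _ hp.ne_zero
    have hmul : ∀ i : ℕ, Nonempty (D.Good (p ^ (n + 1)) (i • u)) := fun i => by
      induction i with
      | zero => simpa using nonempty_good_zero (D := D) hn0
      | succ i ihi => obtain ⟨a⟩ := ihi; rw [succ_nsmul]; exact ⟨a.add gd⟩
    have hv : p ^ n • u ∈ Pic0.torsion K F p := by
      rw [Pic0.mem_torsion, natCast_zsmul, smul_smul, ← pow_succ', htor ⟨gd⟩]
    obtain ⟨gv⟩ := hmul (p ^ n)
    have hv0 := h1 _ (G.nsmul_mem huG _) (gv.of_torsion (pow_succ' p n) hn0 hv)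
    rw [map_nsmul] at hv0
    obtain ⟨gφ⟩ := hφ _ u hn0 ⟨gd⟩
    have := ih (φ u) (hφG u huG) (gφ.of_torsion (pow_succ p n) hn0 (by
      rw [Pic0.mem_torsion, natCast_zsmul, hv0]))
    rw [pow_succ]
    exact this

end Data

end FLTAgent.Lift
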