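import Fermat.Agent.Lower.Lift.HopP.Good
import Fermat.Agent.Lower.Lift.HopP.PushTransfer
import Fermat.Agent.MazurP.Main
import Fermat.Agent.BadOdd.Monodromy
import Fermat.Agent.BadOdd.WTorsion
import Fermat.Agent.LocP.Place

/-!
# Torsion classes of `J₀(M p)` killed by both pushforwards

`pushKer` is the group of classes killed by the two pushforwards to level `M`. For `σ, τ` in
inertia at `p`, `g` in the decomposition group and `τ = a` on `μ_p`: `(τ - a) ^ n (σ - 1)`
(`subScalar_pow_inertia`) and `B (τ - a) ^ n (g² - 1)`, for one `B ≠ 0`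
(`exists_subScalar_pow_decomposition`), kill its `p ^ n`-torsion. The proof moves a class into a
good one and uses that good classes are killed by powers of `τ - a` (`subScalar_pow_eq_zero`).
-/

set_option autoImplicit false
set_option linter.style.haveILetI false
set_option linter.unusedSectionVars false
set_option synthInstance.maxHeartbeats 400000
set_option maxHeartbeats 1600000

noncomputable section

open ModularCurve AlgebraicCurve SemilinearAut

namespace FLTAgent.Lower.Lift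

open FLTAgent.MazurP (levelData)
open FLTAgent.LowerQ (galF wAut)
open FLTAgent.Reduction

local notation "Qb" => AlgebraicClosure ℚ
local notation "Γℚ" => (AlgebraicClosure ℚ ≃ₐ[ℚ] AlgebraicClosure ℚ)

variable (A : ValuationSubring Qb) {M p : ℕ} [NeZero M] [NeZero p]
variable (hp : p.Prime) (hpM : ¬ p ∣ M) (hA : A.LiesOverPrime p)

/-- The classes killed by both pushforwards to level `M`. -/
def pushKer : AddSubgroup (JZero (M * p)) :=
  ((levelData A p M hp hpM hA).resPic (levelData A p M hp hpM hA).resα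
      (levelData A p M hp hpM hA).principal_resα).ker ⊓
    ((levelData A p M hp hpM hA).resPic (levelData A p M hp hpM hA).resβ
      (levelData A p M hp hpM hA).principal_resβ).ker

/-- Classes killed by a pushforward, in terms of divisors. -/
theorem resPic_mk_eq_zero_iff {r : Place Qb (modularFunctionFieldBar (M * p)) →
      Place Qb (modularFunctionFieldBar M)}
    {hr : ∀ f : modularFunctionFieldBar (M * p), f ≠ 0 →
      Finsupp.mapDomain r (divOf f : Divisor Qb (modularFunctionFieldBar (M * p))) ∈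
        Divisor.principal (K := Qb) (F := modularFunctionFieldBar M)}
    (Z : Divisor.degZero (K := Qb) (F := modularFunctionFieldBar (M * p))) :
    (levelData A p M hp hpM hA).resPic r hr (Pic0.mk Z) = 0 ↔
      Finsupp.mapDomain r (Z : Divisor Qb (modularFunctionFieldBar (M * p))) ∈
        Divisor.principal (K := Qb) (F := modularFunctionFieldBar M) := by
  refine ⟨FLTAgent.Lift.Data.mapDomain_of_resPic_eq_zero, fun h => ?_⟩
  exact FLTAgent.Lift.pic0_mk_eq_zero.mpr h

theorem galois_smul_mem_pushKer (σ : Γℚ) {z : JZero (M * p)} (hz : z ∈ pushKer A hp hpM hA) :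
    galF (M * p) σ • z ∈ pushKer A hp hpM hA := by
  obtain ⟨Z, rfl⟩ := Pic0.mk_surjective z
  rw [pic0_smul_mk]
  obtain ⟨ha, hb⟩ := AddSubgroup.mem_inf.mp hz
  rw [AddMonoidHom.mem_ker, resPic_mk_eq_zero_iff] at ha hb
  refine AddSubgroup.mem_inf.mpr ⟨?_, ?_⟩ <;> rw [AddMonoidHom.mem_ker, resPic_mk_eq_zero_iff,
    coe_degZeroSMulHom]
  · change Finsupp.mapDomain (fun w : Place Qb (modularFunctionFieldBar (M * p)) => w.restrictAlong (heckeAlphaBar Qb M p) (FF.isIntegral_alongFF _)) _ ∈ _ at ha ⊢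
    rw [BadQ.mapDomain_restrictAlong] at ha ⊢
    rw [Kronecker.pushforwardAlong_smul _ _ (Kronecker.intertwinesAlong_heckeAlphaBar Qb M p σ)
      (Kronecker.deg_eq_one_bar M) (Kronecker.deg_eq_one_bar (M * p))]
    exact smul_mem_principal _ ha
  · change Finsupp.mapDomain (fun w : Place Qb (modularFunctionFieldBar (M * p)) => w.restrictAlong (heckeBetaBar Qb M p) (FF.isIntegral_alongFF _)) _ ∈ _ at hb ⊢
    rw [BadQ.mapDomain_restrictAlong] at hb ⊢
    rw [Kronecker.pushforwardAlong_smul _ _ (Kronecker.intertwinesAlong_heckeBetaBar Qb M p σ)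
      (Kronecker.deg_eq_one_bar M) (Kronecker.deg_eq_one_bar (M * p))]
    exact smul_mem_principal _ hb

variable (M p) in
/-- `τ - a` on classes. -/
def subScalar (τ : Γℚ) (a : ℕ) : AddMonoid.End (JZero (M * p)) :=
  DistribSMul.toAddMonoidHom (JZero (M * p)) (galF (M * p) τ) - nsmulAddMonoidHom a

theorem subScalar_apply (τ : Γℚ) (a : ℕ) (z : JZero (M * p)) :
    subScalar M p τ a z = galF (M * p) τ • z - a • z := rfl

include hp hpM hA in
/-- **Good classes killed by both pushforwards are killed by a power of `τ - a`.** -/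
theorem subScalar_pow_eq_zero {τ : Γℚ} (hτ : τ ∈ A.inertiaSubgroupIn ℚ) {a : ℕ}
    (ha : ∀ μ : Qb, μ ^ p ^ 1 = 1 → τ μ = μ ^ a) (n : ℕ) {u : JZero (M * p)}
    (hu : u ∈ pushKer A hp hpM hA)
    (hg : Nonempty ((levelData A p M hp hpM hA).Good (p ^ n) u)) :
    (subScalar M p τ a ^ n) u = 0 := by
  haveI := Fact.mk hp
  haveI := GalCommon.isAlgClosed_residueField A hp hA
  set D := levelData A p M hp hpM hA with hD
  obtain ⟨T⟩ := MazurP.nonempty_modFrame A hp hpM hA
  have hcompat : D.Compat (galF (M * p) τ) 1 :=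
    BadQ.compat_inertia A M p hp hpM hA (Reduction.genusFF_fullC_eq M A hA hpM) hτ
  have hnsmul : ∀ {m : ℕ} {v}, Nonempty (D.Good m v) → m ≠ 0 → ∀ i : ℕ,
      Nonempty (D.Good m (i • v)) := by
    intro m v ⟨gd⟩ hm i
    induction i with
    | zero => simpa using FLTAgent.Lift.Data.nonempty_good_zero (D := D) hm
    | succ i ih => obtain ⟨b⟩ := ih; rw [succ_nsmul]; exact ⟨b.add gd⟩
  refine FLTAgent.Lift.Data.pow_apply_eq_zero (D := D) hp (pushKer A hp hpM hA) _ (fun v hv => ?_)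
    (fun m v hm hv => ?_) (fun v hv hgv => ?_) n u hu hg
  · rw [subScalar_apply]
    exact sub_mem (galois_smul_mem_pushKer A hp hpM hA τ hv) (AddSubgroup.nsmul_mem _ hv a)
  · obtain ⟨gd⟩ := hv
    obtain ⟨g1⟩ := hnsmul ⟨gd⟩ hm a
    obtain ⟨g2⟩ := g1.neg
    rw [subScalar_apply, sub_eq_add_neg]
    exact ⟨(gd.map hcompat).add g2⟩
  · obtain ⟨gd⟩ := hgv
    obtain ⟨hva, hvb⟩ := hv
    have hva' := FLTAgent.Lift.Data.mapDomain_of_resPic_eq_zero
      (show D.resPic _ _ (Pic0.mk gd.Z) = 0 by rw [gd.rep.mk_eq]; exact hva)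
    have hvb' := FLTAgent.Lift.Data.mapDomain_of_resPic_eq_zero
      (show D.resPic _ _ (Pic0.mk gd.Z) = 0 by rw [gd.rep.mk_eq]; exact hvb)
    have hdiv : ∀ Q : Place Qb (modularFunctionFieldBar (M * p)), Q.ord gd.f =
        (p : ℤ) * (gd.Z : Divisor Qb (modularFunctionFieldBar (M * p))) Q := fun Q => by
      rw [← D.curve.divOf_apply, ← gd.rep.div_eq, Finsupp.smul_apply, smul_eq_mul]
    have hpp : ∀ b, T.Fr.IsPP b gd.f
      | false => by
        refine ⟨1, gd.w1, one_ne_zero, gd.w1_ne, ?_, ?_⟩ <;> rw [one_smul, T.G_false]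
        exacts [gd.mem.1, congrArg Prod.fst gd.red_eq]
      | true => by
        refine ⟨1, gd.w0, one_ne_zero, gd.w0_ne, ?_, ?_⟩ <;> rw [one_smul, T.G_true]
        exacts [gd.mem.2, congrArg Prod.snd gd.red_eq]
    have hN : ∀ b, ∃ X, T.Fr.N b gd.f = X ^ p
      | false => by
        rw [T.N_false]
        refine MazurP.exists_normBack_eq_pow _ (FF.isIntegral_alongFF _) gd.Z gd.rep.ne_zero hdiv ?_
        rw [← BadQ.mapDomain_restrictAlong]
        exact hva'
      | true => by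
        rw [T.N_true]
        refine MazurP.exists_normBack_eq_pow _ (FF.isIntegral_alongFF _) gd.Z gd.rep.ne_zero hdiv ?_
        rw [← BadQ.mapDomain_restrictAlong]
        exact hvb'
    obtain ⟨ζ, hζ⟩ := HasEnoughRootsOfUnity.exists_primitiveRoot Qb p
    have hmain := T.Fr.act_sub_smul_principal _ gd.Z.2 hdiv hpp hN hτ hζ
      (ha ζ (by rw [pow_one]; exact hζ.pow_eq_one))
    rw [T.act_eq] at hmain
    rw [subScalar_apply, ← gd.rep.mk_eq, pic0_smul_mk,
      show a • Pic0.mk gd.Z = Pic0.mk (a • gd.Z) from rfl, sub_eq_zero]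
    refine (QuotientAddGroup.eq_iff_sub_mem).mpr (AddSubgroup.mem_addSubgroupOf.mpr ?_)
    rw [AddSubgroupClass.coe_sub, coe_degZeroSMulHom, AddSubgroupClass.coe_nsmul]
    exact hmain

theorem galF_mul (N : ℕ) (σ τ : Γℚ) : galF N (σ * τ) = galF N σ * galF N τ :=
  map_mul (arithmeticGalois (modularFunctionFieldFull N)) σ τ

theorem galF_inv (N : ℕ) (σ : Γℚ) : galF N σ⁻¹ = (galF N σ)⁻¹ :=
  map_inv (arithmeticGalois (modularFunctionFieldFull N)) σ

/-- An element of the Galois group moves a torsion class only through a finite level. -/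
theorem exists_level_smul_eq (N : ℕ) [NeZero N] (q : ℕ) [Fact q.Prime] (n : ℕ) :
    ∃ L : IntermediateField ℚ Qb, FiniteDimensional ℚ L ∧
      ∀ σ τ : Γℚ, (∀ x ∈ L, σ x = τ x) →
        ∀ z : JZero N, (q ^ n) • z = 0 → galF N σ • z = galF N τ • z := by
  obtain ⟨L, hL, h⟩ := (Reps.galModel N q).continuous_level n
  refine ⟨L, hL, fun σ τ hστ z hz => ?_⟩
  haveI : NeZero (q ^ n) := ⟨pow_ne_zero _ (Fact.out : q.Prime).ne_zero⟩
  have hx : z ∈ Reps.tors N (q ^ n) := by
    rw [Pic0.mem_torsion, natCast_zsmul, hz]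
  have h1 : ∀ x ∈ L, (τ⁻¹ * σ) x = x := fun x hx => by
    rw [AlgEquiv.mul_apply, hστ x hx]
    exact τ.symm_apply_apply x
  have hc := Reps.galModel_coord N q n (τ⁻¹ * σ) ⟨z, hx⟩
  rw [h _ h1] at hc
  have hc' := hc.trans (Matrix.one_mulVec _)
  have hz' : galF N (τ⁻¹ * σ) • z = z := congrArg Subtype.val ((Reps.coordTors N (q ^ n)).injective hc')
  rw [galF_mul, mul_smul, galF_inv, inv_smul_eq_iff] at hz'
  exact hz'

include hp hpM hA in
/-- **Inertia.** -/
theorem subScalar_pow_inertia {σ τ : Γℚ} (hσ : σ ∈ A.inertiaSubgroupIn ℚ)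
    (hτ : τ ∈ A.inertiaSubgroupIn ℚ) {a : ℕ} (ha : ∀ μ : Qb, μ ^ p ^ 1 = 1 → τ μ = μ ^ a)
    (n : ℕ) {z : JZero (M * p)} (hz : z ∈ pushKer A hp hpM hA) (hzn : (p ^ n) • z = 0) :
    (subScalar M p τ a ^ n) (galF (M * p) σ • z - z) = 0 := by
  haveI := Fact.mk hp
  haveI := GalCommon.isAlgClosed_residueField A hp hA
  refine subScalar_pow_eq_zero A hp hpM hA hτ ha n
    (sub_mem (galois_smul_mem_pushKer A hp hpM hA σ hz) hz) ?_
  exact (BadQ.compat_inertia A M p hp hpM hA (Reduction.genusFF_fullC_eq M A hA hpM) hσ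
    ).exists_good_sub (pow_ne_zero n hp.ne_zero) (by rw [Pic0.mem_torsion, natCast_zsmul, hzn])

/-- Compatibility is closed under products. -/
theorem Compat.mul' {K F F₀ k E : Type} [Field K] [Field F] [Algebra K F] [Field F₀] [Algebra K F₀]
    [Field k] [Field E] [Algebra k E] {A : ValuationSubring K} {π : A →+* k} {q g g' : ℕ}
    {D : FLTAgent.Lift.Data A π q F F₀ E g g'} {σ σ' : SemilinearAut K F} {σb σb' : SemilinearAut k E}
    (h : D.Compat σ σb) (h' : D.Compat σ' σb') : D.Compat (σ * σ') (σb * σb') where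
  mem_inf f := by rw [mul_smul, h.mem_inf, h'.mem_inf]
  mem_zero f := by rw [mul_smul, h.mem_zero, h'.mem_zero]
  red_inf f hf := by rw [mul_smul, h.red_inf _ ((h'.mem_inf f).mpr hf), h'.red_inf f hf, mul_smul]
  red_zero f hf := by
    rw [mul_smul, h.red_zero _ ((h'.mem_zero f).mpr hf), h'.red_zero f hf, mul_smul]
  alpha_fix := by rw [mul_smul, h'.alpha_fix, h.alpha_fix]
  beta_fix := by rw [mul_smul, h'.beta_fix, h.beta_fix]

include hp hpM hA in
/-- The square of Frobenius. -/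
theorem exists_subScalar_pow_frobenius_sq : ∃ B : ℕ, B ≠ 0 ∧
    ∀ φ : Γℚ, A.IsFrobeniusAt φ p → ∀ τ ∈ A.inertiaSubgroupIn ℚ, ∀ a : ℕ,
      (∀ μ : Qb, μ ^ p ^ 1 = 1 → τ μ = μ ^ a) → ∀ (n : ℕ) (z : JZero (M * p)),
        z ∈ pushKer A hp hpM hA → (p ^ n) • z = 0 →
        B • (subScalar M p τ a ^ n) (galF (M * p) (φ ^ 2) • z - z) = 0 := by
  haveI := Fact.mk hp
  haveI := GalCommon.isAlgClosed_residueField A hp hA
  obtain ⟨B, hB, hfix⟩ := BadQ.exists_frobQ_bound A M p hp hpM hA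
  refine ⟨B, hB, fun φ hφ τ hτ a ha n w hw hwn => ?_⟩
  have hf : (levelData A p M hp hpM hA).Compat (galF (M * p) φ)
      (levelData A p M hp hpM hA).frob :=
    BadQ.compat_frobenius A M p hp hpM hA (Reduction.genusFF_fullC_eq M A hA hpM) hφ
  have hX : (levelData A p M hp hpM hA).Xfin.Nonempty :=
    Finset.card_pos.mp (BadOdd.one_le_nX A hp hpM hA)
  rw [← map_nsmul]
  have hk : galF (M * p) (φ ^ 2) • w - w ∈ pushKer A hp hpM hA :=
    sub_mem (galois_smul_mem_pushKer A hp hpM hA _ hw) hw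
  refine subScalar_pow_eq_zero A hp hpM hA hτ ha n (AddSubgroup.nsmul_mem _ hk B) ?_
  obtain ⟨hka, hkb⟩ := AddSubgroup.mem_inf.mp hk
  have hcomp : (levelData A p M hp hpM hA).Compat (galF (M * p) (φ ^ 2))
      ((levelData A p M hp hpM hA).frob * (levelData A p M hp hpM hA).frob) := by
    rw [pow_two, galF_mul]
    exact Compat.mul' hf hf
  have hfix' : ∀ x : Pic0 _ _, (levelData A p M hp hpM hA).frob • (levelData A p M hp hpM hA).frob • x = x → B • x = 0 := fun x hx => hfix x hx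
  have hfr : ∀ Q ∈ (levelData A p M hp hpM hA).X, ((levelData A p M hp hpM hA).frob * (levelData A p M hp hpM hA).frob) • Q = Q :=
    fun Q hQ => (mul_smul _ _ Q).trans (FLTAgent.Lift.Data.frob_frob_of_mem_X _ hQ)
  have hwt : w ∈ Pic0.torsion Qb (modularFunctionFieldBar (M * p)) (p ^ n) := by
    rw [Pic0.mem_torsion, natCast_zsmul, hwn]
  exact hcomp.exists_good_nsmul_sub (pow_ne_zero n hp.ne_zero) hfix' hX hfr hwt hka hkb

theorem nsmul_galF_eq_zero {N n : ℕ} (σ : Γℚ) {w : JZero N} (hw : n • w = 0) :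
    n • galF N σ • w = 0 := by
  rw [show n • galF N σ • w = galF N σ • n • w from
    (map_nsmul (DistribSMul.toAddMonoidHom (JZero N) (galF N σ)) _ _).symm, hw]
  exact map_zero (DistribSMul.toAddMonoidHom (JZero N) (galF N σ))

include hp hpM hA in
/-- **The decomposition group.** -/
theorem exists_subScalar_pow_decomposition : ∃ B : ℕ, B ≠ 0 ∧
    ∀ g ∈ A.decompositionSubgroup ℚ, ∀ τ ∈ A.inertiaSubgroupIn ℚ, ∀ a : ℕ,
      (∀ μ : Qb, μ ^ p ^ 1 = 1 → τ μ = μ ^ a) → ∀ (n : ℕ) (z : JZero (M * p)),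
        z ∈ pushKer A hp hpM hA → (p ^ n) • z = 0 →
        B • (subScalar M p τ a ^ n) (galF (M * p) g • galF (M * p) g • z - z) = 0 := by
  haveI := Fact.mk hp
  obtain ⟨B, hB, hstep⟩ := exists_subScalar_pow_frobenius_sq A hp hpM hA
  refine ⟨B, hB, fun g hg τ hτ a ha n z hz hzn => ?_⟩
  obtain ⟨φ, hφ⟩ := GalCommon.exists_isFrobeniusAt hp hA
  have hpow : ∀ (i : ℕ) (w : JZero (M * p)), w ∈ pushKer A hp hpM hA → (p ^ n) • w = 0 →
      B • (subScalar M p τ a ^ n) (galF (M * p) ((φ ^ 2) ^ i) • w - w) = 0 := by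
    intro i
    induction i with
    | zero => intro w _ _; simp
    | succ i ih =>
      intro w hw hwn
      have h1 := ih _ (galois_smul_mem_pushKer A hp hpM hA (φ ^ 2) hw) (nsmul_galF_eq_zero _ hwn)
      have h2 := hstep φ hφ τ hτ a ha n w hw hwn
      rw [pow_succ, galF_mul, mul_smul,
        ← sub_add_sub_cancel _ (galF (M * p) (φ ^ 2) • w) w, map_add, nsmul_add, h1, h2, add_zero]
  obtain ⟨L, hL, hLev⟩ := exists_level_smul_eq (M * p) p n
  haveI := hL
  -- enlarge the level so that it is Galois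
  set L' := IntermediateField.normalClosure ℚ L Qb
  haveI : Normal ℚ L' := normalClosure.normal ℚ _ Qb
  obtain ⟨i, ι, hι, hag⟩ := LocP.exists_eq_frob_pow_mul hA hφ hg L'
  set ι' : Γℚ := ((φ ^ i)⁻¹ * ι * φ ^ i) * ι with hι'
  have hι'I : ι' ∈ A.inertiaSubgroupIn ℚ :=
    mul_mem (by
      have h := LocP.conj_mem_inertia (inv_mem (pow_mem hφ.mem_decompositionSubgroup i)) hι
      rwa [inv_inv] at h) hι
  have hgg : ∀ x ∈ L, (g * g) x = ((φ ^ 2) ^ i * ι') x := fun x hx => by
    have hx' : x ∈ L' := IntermediateField.le_normalClosure L hx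
    have hmem : g x ∈ L' := (AlgEquiv.restrictNormal_commutes g L' ⟨x, hx'⟩) ▸
      (g.restrictNormal L' ⟨x, hx'⟩).2
    have e : (φ ^ 2) ^ i * ι' = φ ^ i * ι * (φ ^ i * ι) := by
      rw [hι', ← pow_mul, two_mul, pow_add]; group
    rw [e, AlgEquiv.mul_apply, hag _ hmem, hag _ hx', ← AlgEquiv.mul_apply]
  rw [show galF (M * p) g • galF (M * p) g • z = galF (M * p) (g * g) • z by
    rw [galF_mul, mul_smul], hLev _ _ hgg z hzn, galF_mul, mul_smul,
    ← sub_add_sub_cancel _ (galF (M * p) ι' • z) z, map_add, nsmul_add,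
    hpow i _ (galois_smul_mem_pushKer A hp hpM hA ι' hz) (nsmul_galF_eq_zero _ hzn), zero_add,
    subScalar_pow_inertia A hp hpM hA hι'I hτ ha n hz hzn, smul_zero]

end FLTAgent.Lower.Lift
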