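import Fermat.Agent.Lower.Lift.HopP.AsmLevel
import Fermat.Agent.Lower.Lift.HeckeMod.Contains
import Fermat.Agent.Reps.Cyclo

/-!
# The hop at `p`

`exists_hop_p`: from a squarefree level `N` prime to `p` containing the residual ramification,
with strictly ordinary residual representation, there is a hop to level `N p`, flat below and
strictly ordinary above, modular at both ends, containing every modular Hecke module of level
`N`, and lifting to all auxiliary levels. It assembles `nonempty_hopPData` and
`nonempty_hopLevel`.
-/

set_option autoImplicit false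
set_option linter.unusedSectionVars false

noncomputable section

namespace FLTAgent.Lower.Lift.HopP

open IsLocalRing (ResidueField maximalIdeal residue)
open FLTAgent.Lower FLTAgent.Lower.Levels

variable {O : Type} [CommRing O] [IsDomain O] [IsDiscreteValuationRing O]
  [IsAdicComplete (maximalIdeal O) O] [Finite (ResidueField O)] [CharZero O]
  {p : ℕ} [Fact p.Prime]

/-- The residual hypotheses at the primes of a level containing `Smin`. -/
theorem resHyp_of_residual (hp2 : p ≠ 2) (hp : (p : O) ∈ maximalIdeal O)
    {ρbar : ResidualGaloisRep (ResidueField O)} {Smin : Finset ℕ} (hres : Residual p Smin ρbar)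
    {N : ℕ} (hSmin : Smin ⊆ N.primeFactors) : ResHyp p (levelPrimes p N) ρbar where
  ne_two := hp2
  mem := Finset.mem_insert_self _ _
  char := by
    rw [← map_natCast (residue O), IsLocalRing.residue_eq_zero_iff]
    exact hp
  absIrr := hres.absIrr
  det := hres.det
  big := hres.big
  unramified l hl h := hres.unramified l hl (fun hm => h (Finset.mem_insert_of_mem (hSmin hm)))
    fun he => h (he ▸ Finset.mem_insert_self _ _)

/-- **Raising `p`**: the hop from `N` to `N p`, with its lifts to auxiliary levels. -/
theorem exists_hop_p (hp2 : p ≠ 2) (hp : (p : O) ∈ maximalIdeal O)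
    {ρbar : ResidualGaloisRep (ResidueField O)} {Smin : Finset ℕ} (hres : Residual p Smin ρbar)
    {N : ℕ} [NeZero N] [NeZero (N * p)] (hN : Squarefree N) (hSmin : Smin ⊆ N.primeFactors)
    (hpN : ¬ p ∣ N) (hsys : HasSystem p N ρbar)
    (hord : (GaloisRepAdic.ofResidualGaloisRep ρbar).IsStrictOrdinaryAt p) :
    ∃ H : Hop (flatType p) (ordType p) p N p ρbar,
      IsModular N H.old ∧ IsModular (N * p) H.new ∧
      (∀ (loc' : LocalType) (B' : HeckeMod loc' p (levelPrimes p N) (unipPrimes p N) ρbar),
        IsModular N B' → Contains H.old B') ∧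
      ∀ (n r : ℕ) (Qv : Fin r → ℕ), IsAuxSet p (N * p) n ρbar Qv →
        Nonempty (HopLevel H n Qv) := by
  have h := resHyp_of_residual hp2 hp hres hSmin
  obtain ⟨P⟩ := nonempty_hopPData h hp hN hpN hsys hord (Reps.padicHom (maximalIdeal O) hp)
  refine ⟨P.toHop, (P.isModular hp hN).1, (P.isModular hp hN).2, fun loc' B' hB' => ?_,
    fun n r Qv hQv => nonempty_hopLevel P hp hN hord n r Qv hQv⟩
  exact contains_heckeModOf_of_eq h P.h₀ P.c₀ (levelPrimes_mul_self p N) P.B.F₀ upIdx
    (fun _ => rfl) (fun s hs => (P.B.X₀_act s).symm.trans hs) B' hB'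

end FLTAgent.Lower.Lift.HopP
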