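import Fermat.Agent.LocP.FlatReducible
import Fermat.Agent.FlatJ.Defs
import Fermat.Agent.FlatHopf.Dual

/-!
# Orders at `p` with prescribed points in the open unit ball

`exists_order_of_hasModelRed` obtains such an order from a model with congruences and
`exists_order_pullback` pulls one back along a jointly injective family of equivariant maps.
`snd_eq_zero_of_ball`: for a residual representation in normal form at `p`, a point all whose
images lie in the open unit ball has no component outside the stable line.
-/

set_option autoImplicit false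
set_option linter.unusedSectionVars false

noncomputable section

namespace FLTAgent.Lower.Lift.HopP

open FLTAgent.FlatHopf FLTAgent.LocP FLTAgent.Deform FLTAgent.TW

local notation "Qb" => AlgebraicClosure ℚ
local notation "GQ" => (AlgebraicClosure ℚ ≃ₐ[ℚ] AlgebraicClosure ℚ)

variable {p : ℕ} [Fact p.Prime] {P : ValuationSubring (AlgebraicClosure ℚ)}

local notation "Rp" => GaloisRep.ratLocalizedAt p

/-- A model with congruences gives an order with the same congruences. -/
theorem exists_order_of_hasModelRed {G : Type} [AddCommGroup G] [Finite G]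
    [DistribMulAction GQ G] {Rel : G → G → Prop} (h : FlatJ.HasModelRed p G P Rel) :
    ∃ H : Subalgebra Rp (G → Qb),
      IsOrder (galR p) (DistribMulAction.toAddMonoidEnd GQ G) H ∧
      ∀ x y, Rel x y → ∀ a ∈ H, P.valuation (a x - a y) < 1 := by
  obtain ⟨H, _, _, hfin, -, -, e, hadd, heq, hred⟩ := h
  let ev : H →ₐ[Rp] (G → Qb) := AlgHom.pi fun x => (e.symm x).ofConv
  refine ⟨ev.range, ⟨?_, ?_, span_eq_top_of_separates _ fun x y hxy => ?_, ?_⟩, ?_⟩
  · rw [← Algebra.map_top, Subalgebra.map_toSubmodule, Algebra.top_toSubmodule]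
    exact hfin.fg_top.map _
  · rintro _ ⟨a, rfl⟩ σ x
    let g : WithConv (H →ₐ[Rp] Qb) := WithConv.toConv ((galR p σ).toAlgHom.comp (e.symm x).ofConv)
    have h1 : e g = σ • x := by
      have := heq σ (e.symm x) g fun h => rfl
      rwa [Equiv.apply_symm_apply] at this
    show (e.symm (σ • x)).ofConv a = galR p σ ((e.symm x).ofConv a)
    rw [← h1, Equiv.symm_apply_apply]
    rfl
  · apply e.symm.injective
    exact congrArg WithConv.toConv (AlgHom.ext fun a => hxy _ ⟨a, rfl⟩)
  · rintro _ ⟨a, rfl⟩
    have e1 : (fun z : G × G => ev a (z.1 + z.2)) = fun z =>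
        Algebra.TensorProduct.lmul' Rp (Algebra.TensorProduct.map (e.symm z.1).ofConv
          (e.symm z.2).ofConv (Coalgebra.comul (R := Rp) a)) := by
      funext z
      show (e.symm (z.1 + z.2)).ofConv a = _
      rw [show e.symm (z.1 + z.2) = e.symm z.1 * e.symm z.2 by
        rw [Equiv.symm_apply_eq, hadd, Equiv.apply_symm_apply, Equiv.apply_symm_apply]]
      rfl
    show (fun z : G × G => ev a (z.1 + z.2)) ∈ _
    rw [e1]
    generalize Coalgebra.comul (R := Rp) a = t
    induction t using TensorProduct.induction_on with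
    | zero => simp only [map_zero]; exact zero_mem _
    | tmul u w => exact Submodule.subset_span ⟨ev u, ⟨u, rfl⟩, ev w, ⟨w, rfl⟩, rfl⟩
    | add u w hu hw => simp only [map_add]; exact add_mem hu hw
  · rintro x y hxy _ ⟨a, rfl⟩
    exact hred (e.symm x) (e.symm y) (by rwa [Equiv.apply_symm_apply, Equiv.apply_symm_apply]) a

variable {G G₀ ι : Type} [AddCommGroup G] [Finite G] [AddCommGroup G₀] [Finite G₀] [Finite ι]
  {act : GQ →* AddMonoid.End G} {act₀ : GQ →* AddMonoid.End G₀}

/-- Pullbacks of an order along a jointly injective equivariant family generate an order, and keep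
the congruences. -/
theorem exists_order_pullback (hP : P.LiesOverPrime p) {H₀ : Subalgebra Rp (G₀ → Qb)}
    (hH₀ : IsOrder (galR p) act₀ H₀) (f : ι → G →+ G₀)
    (heq : ∀ i σ x, f i (act σ x) = act₀ σ (f i x))
    (hinj : ∀ x y, (∀ i, f i x = f i y) → x = y) :
    ∃ H : Subalgebra Rp (G → Qb), IsOrder (galR p) act H ∧
      ∀ x y, (∀ i, ∀ a ∈ H₀, P.valuation (a (f i x) - a (f i y)) < 1) →
        ∀ a ∈ H, P.valuation (a x - a y) < 1 := by
  classical
  obtain ⟨s, hs⟩ := hH₀.fg
  have hfin₀ : Module.Finite Rp H₀ := hH₀.finite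
  let pull : ι → ((G₀ → Qb) →ₐ[Rp] (G → Qb)) := fun i =>
    AlgHom.pi fun x => Pi.evalAlgHom Rp (fun _ : G₀ => Qb) (f i x)
  let S : Set (G → Qb) := ⋃ i, pull i '' (s : Set (G₀ → Qb))
  have hsH : ∀ a ∈ (s : Set (G₀ → Qb)), a ∈ H₀ := fun a ha => by
    rw [← Subalgebra.mem_toSubmodule, ← hs]; exact Submodule.subset_span ha
  have hgen : ∀ i, ∀ a ∈ H₀, pull i a ∈ Algebra.adjoin Rp S := fun i a ha => by
    rw [← Subalgebra.mem_toSubmodule, ← hs] at ha
    induction ha using Submodule.span_induction with
    | mem a ha => exact Algebra.subset_adjoin (Set.mem_iUnion.mpr ⟨i, a, ha, rfl⟩)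
    | zero => rw [map_zero]; exact zero_mem _
    | add a b _ _ ha hb => rw [map_add]; exact add_mem ha hb
    | smul r a _ ha => rw [map_smul]; exact Subalgebra.smul_mem _ ha r
  set H := Algebra.adjoin Rp S with hH
  have hfg : (Subalgebra.toSubmodule H).FG := by
    refine fg_adjoin_of_finite (Set.finite_iUnion fun i => s.finite_toSet.image _) ?_
    rintro _ hx
    obtain ⟨i, a, ha, rfl⟩ := Set.mem_iUnion.mp hx
    exact ((Algebra.IsIntegral.isIntegral (R := Rp) (⟨a, hsH a ha⟩ : H₀)).map H₀.val).map (pull i)
  have hord : IsOrder (galR p) act H := by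
    refine ⟨hfg, fun a ha σ x => ?_, span_eq_top_of_separates _ fun x y hxy => ?_, fun a ha => ?_⟩
    · induction ha using Algebra.adjoin_induction generalizing x with
      | mem a ha =>
        obtain ⟨i, b, hb, rfl⟩ := Set.mem_iUnion.mp ha
        show b (f i (act σ x)) = galR p σ (b (f i x))
        rw [heq, hH₀.equivariant b (hsH b hb)]
      | algebraMap r => exact ((galR p σ).commutes r).symm
      | add a b _ _ ha hb => simp only [Pi.add_apply, map_add, ha, hb]
      | mul a b _ _ ha hb => simp only [Pi.mul_apply, map_mul, ha, hb]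
    · exact hinj x y fun i => hH₀.separates fun a ha => hxy _ (hgen i a ha)
    · induction ha using Algebra.adjoin_induction with
      | mem a ha =>
        obtain ⟨i, b, hb, rfl⟩ := Set.mem_iUnion.mp ha
        have key : ∀ F ∈ prodSpan (Subalgebra.toSubmodule H₀) (Subalgebra.toSubmodule H₀),
            (fun z : G × G => F (f i z.1, f i z.2)) ∈
              prodSpan (Subalgebra.toSubmodule H) (Subalgebra.toSubmodule H) := by
          intro F hF
          induction hF using Submodule.span_induction with
          | mem F hF =>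
            obtain ⟨u, hu, w, hw, rfl⟩ := hF
            exact Submodule.subset_span ⟨_, hgen i u hu, _, hgen i w hw, rfl⟩
          | zero => exact zero_mem _
          | add F F' _ _ h h' => exact add_mem h h'
          | smul r F _ h => exact Submodule.smul_mem _ r h
        convert key _ (hH₀.comul b (hsH b hb)) using 1
        funext z
        show b (f i (z.1 + z.2)) = b (f i z.1 + f i z.2)
        rw [map_add]
      | algebraMap r =>
        have h := Submodule.smul_mem _ r (one_mem_prodSpan H H)
        convert h using 1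
        funext z
        simp [Algebra.smul_def]
      | add a b _ _ ha hb => exact add_mem ha hb
      | mul a b _ _ ha hb => exact mul_mem_prodSpan H H ha hb
  refine ⟨H, hord, fun x y hxy a ha => ?_⟩
  have hA := algebraMap_ratLocalized_mem (P := P) hP
  induction ha using Algebra.adjoin_induction with
  | mem a ha =>
    obtain ⟨i, b, hb, rfl⟩ := Set.mem_iUnion.mp ha
    exact hxy i b (hsH b hb)
  | algebraMap r => simp
  | add a b _ _ ha hb =>
    rw [Pi.add_apply, Pi.add_apply, add_sub_add_comm]
    exact lt_of_le_of_lt (Valuation.map_add _ _ _) (max_lt ha hb)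
  | mul a b ha' hb' ha hb =>
    rw [Pi.mul_apply, Pi.mul_apply,
      show a x * b x - a y * b y = (a x - a y) * b x + a y * (b x - b y) by ring]
    refine lt_of_le_of_lt (Valuation.map_add _ _ _) (max_lt ?_ ?_)
    · rw [map_mul]
      exact lt_of_le_of_lt (mul_le_of_le_one_right' (val_order_apply_le hord hA hb' x)) ha
    · rw [map_mul]
      exact lt_of_le_of_lt (mul_le_of_le_one_left' (val_order_apply_le hord hA ha' y)) hb

/-- A point all whose images lie in the open unit ball has no component outside the stable line. -/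
theorem snd_eq_zero_of_ball {k : Type} [Field k] [Finite k] [CharP k p] {M : MatRep k}
    {ϖ ζ : Qb} {τ₀ : GQ} (hN : RedNormal M P p ϖ ζ τ₀) (hdet : DetCyclotomic M p)
    (hP : P.LiesOverPrime p) (hp2 : p ≠ 2) {H₀ : Subalgebra Rp (G₀ → Qb)}
    (hH₀ : IsOrder (galR p) act₀ H₀) (f : ι → Vec k →+ G₀)
    (heq : ∀ i σ x, f i (resAct M σ x) = act₀ σ (f i x))
    (hinj : ∀ x, (∀ i, f i x = 0) → x = 0) {x : Vec k}
    (hx : ∀ i, ∀ a ∈ H₀, P.valuation (a (f i x) - a 0) < 1) : x 1 = 0 := by
  obtain ⟨H, hH, hball⟩ := exists_order_pullback hP hH₀ f heq fun x y h =>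
    sub_eq_zero.mp (hinj _ fun i => by rw [map_sub, h i, sub_self])
  refine hN.snd_eq_zero_of_nrm_lt hdet hP hp2 hH ?_
  obtain ⟨a, ha, hax⟩ := exists_eq_nrm hH (algebraMap_ratLocalized_mem hP) x
  rw [← hax]
  exact hball x 0 (fun i b hb => by rw [map_zero]; exact hx i b hb) a ha

end FLTAgent.Lower.Lift.HopP
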