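import Fermat.Agent.Lower.Lift.HopP.Jacobian
import Fermat.Agent.Ihara.Degeneracy

/-!
# Classes killed by both pushforwards in characters

`mem_pushKer_iff`: a torsion class of `J₀(M p)` lies in `pushKer` if and only if its character is
killed by both corestrictions to level `M`. The first is `jTorsionEquiv_push`; the second follows
because the second degeneracy map is the first composed with the Atkin–Lehner automorphism at `p`.
-/

set_option autoImplicit false
set_option linter.style.haveILetI false
set_option linter.unusedSectionVars false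
set_option synthInstance.maxHeartbeats 400000
set_option maxHeartbeats 1600000

noncomputable section

open ModularCurve AlgebraicCurve SemilinearAut

namespace FLTAgent.Lower.Lift

open FLTAgent.MazurP (levelData)
open FLTAgent.LowerQ (galF wAut)

local notation "Qb" => AlgebraicClosure ℚ

variable (A : ValuationSubring Qb) {M p : ℕ} [NeZero M] [NeZero p] [Fact p.Prime]
variable (hp : p.Prime) (hpM : ¬ p ∣ M) (hA : A.LiesOverPrime p)

include hpM in
theorem finrankAlong_alphaBar_eq [Fintype (CongruenceSubgroup.Gamma0 M ⧸ Degen.subG0 M (M * p))] :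
    finrankAlong Qb (heckeAlphaBar Qb M p) =
      Fintype.card (CongruenceSubgroup.Gamma0 M ⧸ Degen.subG0 M (M * p)) := by
  rw [ModularCosets.finrankAlong_alphaBar Fact.out, if_neg hpM,
    ← Fintype.card_congr (Ihara.cosEquiv (N := M) hpM), Fintype.card_option, Fintype.card_fin]

/-- The places: `β = w ∘ α`. -/
theorem restrictAlong_beta (w : Place Qb (modularFunctionFieldBar (M * p))) :
    (wAut hp hpM • w).restrictAlong (heckeAlphaBar Qb M p) (FF.isIntegral_alongFF _) =
      w.restrictAlong (heckeBetaBar Qb M p) (FF.isIntegral_alongFF _) := by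
  apply Place.ext
  ext x
  rw [Kronecker.mem_restrictAlong_iff, Kronecker.mem_restrictAlong_iff,
    SemilinearAut.smul_toValuationSubring, ValuationSubring.mem_pointwise_smul_iff_inv_smul_mem,
    inv_eq_of_mul_eq_one_right (LowerQ.wAut_mul_self hp hpM), LowerQ.wAut_smul,
    BadQ.atkinLehner_alpha]

/-- A torsion class whose corestriction vanishes dies on the small curve. -/
theorem resα_eq_zero_iff {n : ℕ} [NeZero n] (z : Reps.tors (M * p) n) :
    (levelData A p M hp hpM hA).resPic (levelData A p M hp hpM hA).resα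
        (levelData A p M hp hpM hA).principal_resα (z : JZero (M * p)) = 0 ↔
      Degen.corH (N := M) (ZMod n) (ZMod n)
        (Torsion.jTorsionEquiv (M * p) Reps.qbarEmb n z) = 0 := by
  letI : Fintype (CongruenceSubgroup.Gamma0 M ⧸ Degen.subG0 M (M * p)) :=
    Fintype.ofEquiv _ (Ihara.cosEquiv (N := M) hpM)
  obtain ⟨z, hz⟩ := z
  obtain ⟨D, rfl⟩ := Pic0.mk_surjective z
  rw [resPic_mk_eq_zero_iff]
  set hα : (heckeAlphaBar Qb M p).toRingHom.IsIntegral := FF.isIntegral_alongFF _
  let E : Divisor.degZero (K := Qb) (F := modularFunctionFieldBar M) :=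
    ⟨Divisor.pushforwardAlong (heckeAlphaBar Qb M p) hα D, by
      rw [Divisor.mem_degZero, Divisor.degree_pushforwardAlong]
      exact D.2⟩
  have hEn : Pic0.mk E ∈ Pic0.torsion Qb (modularFunctionFieldBar M) n := by
    have h1 := Pic0.mem_torsion.mp hz
    rw [natCast_zsmul] at h1
    rw [Pic0.mem_torsion, natCast_zsmul]
    refine FLTAgent.Lift.pic0_mk_eq_zero.mpr ?_
    have h2 := FLTAgent.Lift.pic0_mk_eq_zero.mp (show Pic0.mk (n • D) = 0 from h1)
    rw [AddSubgroupClass.coe_nsmul] at h2 ⊢
    show n • Divisor.pushforwardAlong (heckeAlphaBar Qb M p) hα D ∈ _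
    rw [← map_nsmul]
    obtain ⟨y, hy0, hy⟩ := h2
    exact Divisor.isPrincipal_pushforwardAlong _ _ (FF.finiteAlong _)
      (FF.normFormulaAlong _ (FF.finiteAlong _) (FF.separableAlong _)) ⟨y, hy0, hy⟩
  have h := jTorsionEquiv_push Reps.qbarEmb (finrankAlong_alphaBar_eq hpM) hα D hz E rfl hEn
  rw [← h, AddEquiv.map_eq_zero_iff, Subtype.ext_iff, AddSubgroup.coe_zero,
    show ((⟨Pic0.mk E, hEn⟩ : Reps.tors M n) : JZero M) = Pic0.mk E from rfl,
    FLTAgent.Lift.pic0_mk_eq_zero]
  show Finsupp.mapDomain (fun w : Place Qb (modularFunctionFieldBar (M * p)) =>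
    w.restrictAlong (heckeAlphaBar Qb M p) hα) _ ∈ _ ↔ _
  rw [BadQ.mapDomain_restrictAlong]

/-- A torsion class killed by both pushforwards, in characters. -/
theorem mem_pushKer_iff {n : ℕ} [NeZero n] (z : Reps.tors (M * p) n) :
    (z : JZero (M * p)) ∈ pushKer A hp hpM hA ↔
      Degen.corH (N := M) (ZMod n) (ZMod n) (Torsion.jTorsionEquiv (M * p) Reps.qbarEmb n z) = 0 ∧
        Degen.corH (N := M) (ZMod n) (ZMod n) (Ihara.thetaH (ZMod n) (ZMod n) hpM
          (Torsion.jTorsionEquiv (M * p) Reps.qbarEmb n z)) = 0 := by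
  rw [pushKer, AddSubgroup.mem_inf, AddMonoidHom.mem_ker, AddMonoidHom.mem_ker,
    resα_eq_zero_iff A hp hpM hA]
  have hβ := resα_eq_zero_iff A hp hpM hA (n := n)
    ⟨wAut (Fact.out : p.Prime) hpM • (z : JZero (M * p)), BadOdd.wAut_mem_torsion hpM z.2⟩
  rw [BadOdd.jTorsionEquiv_wAut hpM] at hβ
  rw [← hβ]
  refine and_congr Iff.rfl ?_
  obtain ⟨z, hz⟩ := z
  obtain ⟨D, rfl⟩ := Pic0.mk_surjective z
  show _ ↔ (levelData A p M hp hpM hA).resPic _ _ (wAut (Fact.out : p.Prime) hpM • Pic0.mk D) = 0
  rw [pic0_smul_mk, resPic_mk_eq_zero_iff, resPic_mk_eq_zero_iff, coe_degZeroSMulHom]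
  show _ ↔ Finsupp.mapDomain (fun w : Place Qb (modularFunctionFieldBar (M * p)) =>
    w.restrictAlong (heckeAlphaBar Qb M p) (FF.isIntegral_alongFF _)) _ ∈ _
  have e : Finsupp.mapDomain (fun w : Place Qb (modularFunctionFieldBar (M * p)) =>
      w.restrictAlong (heckeAlphaBar Qb M p) (FF.isIntegral_alongFF _))
        (wAut hp hpM • (D : Divisor Qb (modularFunctionFieldBar (M * p)))) =
      Finsupp.mapDomain (levelData A p M hp hpM hA).resβ
        (D : Divisor Qb (modularFunctionFieldBar (M * p))) := by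
    induction (D : Divisor Qb (modularFunctionFieldBar (M * p))) using Finsupp.induction_linear with
    | zero => rw [smul_zero, Finsupp.mapDomain_zero, Finsupp.mapDomain_zero]
    | add f g hf hg => rw [smul_add, Finsupp.mapDomain_add, Finsupp.mapDomain_add, hf, hg]
    | single a b =>
      rw [SemilinearAut.smul_single, Finsupp.mapDomain_single, Finsupp.mapDomain_single,
        restrictAlong_beta hp hpM]
      rfl
  rw [← e]

end FLTAgent.Lower.Lift
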