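import Fermat.Agent.Lower.Lift.HopP.Torsion
import Fermat.Agent.Lower.Levels.GalH
import Fermat.Agent.Kronecker.HeckeReduction

/-!
# The kernel of reduction in coordinates over a `ℤ_p`-algebra

`redKer N p n A`: the vectors over `R` whose classes modulo `p ^ n` reduce to zero at `A`, for a
level prime to `p`. The decomposition group (`tateMat_mem_redKer`) and the Hecke ring
(`heckeMat_mem_redKer`) preserve it, inertia moves every vector by it, and so does
`φ² - T_p φ + p` for a Frobenius `φ` at `A` (`frobenius_mem_redKer`, Eichler–Shimura).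
-/

set_option autoImplicit false
set_option linter.style.haveILetI false
set_option linter.unusedSectionVars false

noncomputable section

open ModularCurve Matrix
open scoped Pointwise

namespace FLTAgent.Lower.Lift.HopP

open FLTAgent.Reps FLTAgent.FlatHopf

local notation "Qb" => AlgebraicClosure ℚ
local notation "GQ" => (AlgebraicClosure ℚ ≃ₐ[ℚ] AlgebraicClosure ℚ)

variable (N p : ℕ) [NeZero N] [Fact p.Prime] (n : ℕ)

/-- The class in `J₀(N)[p ^ n]` with given coordinates. -/
def levPoint : (Fin (Period.rankH N) → ZMod (p ^ n)) →+ JZero N :=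
  (tors N (p ^ n)).subtype.comp (coordTors N (p ^ n)).symm.toAddMonoidHom

theorem levPoint_injective : Function.Injective (levPoint N p n) :=
  Subtype.val_injective.comp (coordTors N (p ^ n)).symm.injective

theorem levPoint_coordTors (x : tors N (p ^ n)) :
    levPoint N p n (coordTors N (p ^ n) x) = x :=
  congrArg Subtype.val ((coordTors N (p ^ n)).symm_apply_apply x)

/-- Galois on the coordinates. -/
def levAct : GQ →* AddMonoid.End (Fin (Period.rankH N) → ZMod (p ^ n)) where
  toFun σ := AddMonoidHom.mk' (fun v => galMat N (p ^ n) σ *ᵥ v) fun _ _ => mulVec_add _ _ _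
  map_one' := AddMonoidHom.ext fun v => by
    show galMat N (p ^ n) 1 *ᵥ v = v
    rw [map_one, one_mulVec]
  map_mul' σ τ := AddMonoidHom.ext fun v => by
    show galMat N (p ^ n) (σ * τ) *ᵥ v = galMat N (p ^ n) σ *ᵥ (galMat N (p ^ n) τ *ᵥ v)
    rw [map_mul, mulVec_mulVec]

theorem levPoint_galMat (σ : GQ) (v : Fin (Period.rankH N) → ZMod (p ^ n)) :
    levPoint N p n (galMat N (p ^ n) σ *ᵥ v) = σ • levPoint N p n v := by
  obtain ⟨x, rfl⟩ := (coordTors N (p ^ n)).surjective v
  rw [galMat_mulVec, levPoint_coordTors, levPoint_coordTors]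
  rfl

theorem levPoint_hecke (ℓ : Nat.Primes) (v : Fin (Period.rankH N) → ZMod (p ^ n)) :
    levPoint N p n ((Int.castRingHom (ZMod (p ^ n))).mapMatrix
        (HeckeH.heckeMatHom N (heckeGenOf N ℓ)) *ᵥ v) =
      heckeOperatorBar N ℓ (levPoint N p n v) := by
  obtain ⟨x, rfl⟩ := (coordTors N (p ^ n)).surjective v
  rw [← coordTors_hecke, levPoint_coordTors, levPoint_coordTors]

theorem levPoint_heckeT {ℓ : ℕ} (hℓ : ℓ.Prime) (hℓN : ¬ ℓ ∣ N)
    (v : Fin (Period.rankH N) → ZMod (p ^ n)) :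
    levPoint N p n ((Int.castRingHom (ZMod (p ^ n))).mapMatrix
        (HeckeH.heckeMatHom N (heckeTOf hℓ hℓN)) *ᵥ v) =
      heckeOperatorBar N (⟨ℓ, hℓ⟩ : Nat.Primes) (levPoint N p n v) := by
  rw [← heckeGenOf_T N hℓ hℓN]
  exact levPoint_hecke N p n ⟨ℓ, hℓ⟩ v

/-- An order on `J₀(N)[p ^ n]` in which the kernel of reduction is in the open unit ball. -/
theorem exists_order_lev (hpN : ¬ p ∣ N) {A : ValuationSubring Qb} (hA : A.LiesOverPrime p) :
    ∃ H : Subalgebra (GaloisRep.ratLocalizedAt p)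
        ((Fin (Period.rankH N) → ZMod (p ^ n)) → Qb),
      IsOrder (galR p) (levAct N p n) H ∧
      ∀ v, reductionModL A N (levPoint N p n v) = 0 → ∀ a ∈ H, A.valuation (a v - a 0) < 1 := by
  letI : DistribMulAction GQ (Fin (Period.rankH N) → ZMod (p ^ n)) :=
    DistribMulAction.compHom _ (levAct N p n)
  obtain ⟨H, hH, hball⟩ := exists_order_of_hasModelRed
    (FlatJ.exists_modelRed_jZero N p hpN A hA 1 (levPoint N p n) 0
      (fun σ v => levPoint_galMat N p n σ v) (fun _ _ => rfl)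
      (fun g h he => levPoint_injective N p n (congrArg Prod.fst he)) (fun _ _ => (0 : JZero N))
      (fun σ _ _ => smul_zero (A := JZero N) σ) (fun g h => by rw [map_add, add_zero]))
  refine ⟨H, hH, fun v hv a ha => hball v 0 ⟨rfl, ?_⟩ a ha⟩
  rw [hv, map_zero, map_zero]

variable {R : Type*} [CommRing R] (A : ValuationSubring Qb)

/-- The vectors all whose classes modulo `p ^ n` reduce to zero at `A`. -/
def redKer : AddSubgroup (Fin (Period.rankH N) → R) where
  carrier := {v | ∀ c : R →+ ZMod (p ^ n), reductionModL A N (levPoint N p n (c.compLeft _ v)) = 0}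
  zero_mem' c := by rw [map_zero, map_zero, map_zero]
  add_mem' {a b} ha hb c := by rw [map_add, map_add, map_add, ha c, hb c, add_zero]
  neg_mem' {a} ha c := by rw [map_neg, map_neg, map_neg, ha c, neg_zero]

variable {N p n A}

theorem mem_redKer {v : Fin (Period.rankH N) → R} :
    v ∈ redKer N p n A ↔
      ∀ c : R →+ ZMod (p ^ n), reductionModL A N (levPoint N p n (c.compLeft _ v)) = 0 :=
  Iff.rfl

theorem smul_mem_redKer (r : R) {v : Fin (Period.rankH N) → R} (hv : v ∈ redKer N p n A) :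
    r • v ∈ redKer N p n A := fun c => by
  refine Eq.trans ?_ (hv (c.comp (AddMonoidHom.mulLeft r)))
  rfl

theorem mem_redKer_of_forall_eq_zero {v : Fin (Period.rankH N) → R}
    (hv : ∀ (c : R →+ ZMod (p ^ n)) (i : Fin (Period.rankH N)), c (v i) = 0) :
    v ∈ redKer N p n A := fun c => by
  rw [show c.compLeft _ v = 0 from funext (hv c), map_zero, map_zero]

theorem map_map_mul (f : ℤ_[p] →+* R) (c : R →+ ZMod (p ^ n)) (a : ℤ_[p]) (r : R) :
    c (f a * r) = PadicInt.toZModPow n a * c r := by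
  haveI : NeZero (p ^ n) := ⟨pow_ne_zero _ (Fact.out : p.Prime).ne_zero⟩
  set k := (PadicInt.toZModPow n a).val with hk
  obtain ⟨b, hb⟩ : ∃ b : ℤ_[p], a = (k : ℤ_[p]) + (p : ℤ_[p]) ^ n * b := by
    obtain ⟨b, hb⟩ : (p : ℤ_[p]) ^ n ∣ a - k := by
      rw [← Ideal.mem_span_singleton, ← PadicInt.ker_toZModPow, RingHom.mem_ker, map_sub,
        map_natCast, hk, ZMod.natCast_zmod_val, sub_self]
    exact ⟨b, by rw [← hb]; ring⟩
  have hkill : ∀ x : R, c (((p ^ n : ℕ) : R) * x) = 0 := fun x => by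
    rw [← nsmul_eq_mul, map_nsmul, nsmul_eq_mul, ZMod.natCast_self, zero_mul]
  conv_lhs => rw [hb]
  rw [map_add f, map_natCast f, map_mul f, map_pow f, map_natCast f, add_mul, map_add c, mul_assoc,
    ← Nat.cast_pow, hkill, add_zero, ← nsmul_eq_mul, map_nsmul, nsmul_eq_mul, hk,
    ZMod.natCast_zmod_val]

theorem compLeft_tateMat (f : ℤ_[p] →+* R) (c : R →+ ZMod (p ^ n)) (σ : GQ)
    (v : Fin (Period.rankH N) → R) :
    c.compLeft _ ((tateMat N p σ).map f *ᵥ v) = galMat N (p ^ n) σ *ᵥ c.compLeft _ v := by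
  funext i
  show c (∑ j, f (tateMat N p σ i j) * v j) = ∑ j, galMat N (p ^ n) σ i j * c (v j)
  rw [map_sum]
  refine Finset.sum_congr rfl fun j _ => ?_
  rw [map_map_mul, ← toZModPow_tateMat]
  rfl

theorem compLeft_intMat (c : R →+ ZMod (p ^ n))
    (X : Matrix (Fin (Period.rankH N)) (Fin (Period.rankH N)) ℤ) (v : Fin (Period.rankH N) → R) :
    c.compLeft _ (X.map (Int.castRingHom R) *ᵥ v) =
      (Int.castRingHom (ZMod (p ^ n))).mapMatrix X *ᵥ c.compLeft _ v := by
  funext i
  show c (∑ j, (X i j : R) * v j) = ∑ j, (X i j : ZMod (p ^ n)) * c (v j)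
  simp only [map_sum, ← zsmul_eq_mul, map_zsmul]

/-- The decomposition group preserves the kernel of reduction. -/
theorem tateMat_mem_redKer (hpN : ¬ p ∣ N) (hA : A.LiesOverPrime p) (f : ℤ_[p] →+* R) {σ : GQ}
    (hσ : σ ∈ A.decompositionSubgroup ℚ) {v : Fin (Period.rankH N) → R}
    (hv : v ∈ redKer N p n A) : (tateMat N p σ).map f *ᵥ v ∈ redKer N p n A := fun c => by
  rw [compLeft_tateMat, levPoint_galMat,
    Kronecker.reductionModL_smul (Kronecker.reductionInputs N Fact.out hpN hA) ⟨σ, hσ⟩, hv c]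
  exact smul_zero (A := JZeroC (IsLocalRing.ResidueField A) N)
    (Kronecker.coeffGalois N (Kronecker.resAut A ⟨σ, hσ⟩))

/-- Inertia moves vectors by the kernel of reduction. -/
theorem inertia_sub_mem_redKer (hpN : ¬ p ∣ N) (hA : A.LiesOverPrime p) (f : ℤ_[p] →+* R) {σ : GQ}
    (hσ : σ ∈ A.inertiaSubgroupIn ℚ) (v : Fin (Period.rankH N) → R) :
    (tateMat N p σ).map f *ᵥ v - v ∈ redKer N p n A := fun c => by
  obtain ⟨g, rfl, hg⟩ := Kronecker.resAut_eq_one_of_mem_inertia hσ
  rw [map_sub, compLeft_tateMat, map_sub, levPoint_galMat, map_sub,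
    Kronecker.reductionModL_smul (Kronecker.reductionInputs N Fact.out hpN hA), hg, map_one,
    one_smul, sub_self]

theorem heckeGenOf_mem_redKer (hpN : ¬ p ∣ N) (hA : A.LiesOverPrime p) (ℓ : Nat.Primes)
    {v : Fin (Period.rankH N) → R} (hv : v ∈ redKer N p n A) :
    (HeckeH.heckeMatHom N (heckeGenOf N ℓ)).map (Int.castRingHom R) *ᵥ v ∈ redKer N p n A :=
  fun c => by
    rw [compLeft_intMat, levPoint_hecke]
    exact Kronecker.reductionModL_heckeOperatorBar_eq_zero N hpN A hA ℓ _ (hv c)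

/-- The Hecke ring preserves the kernel of reduction. -/
theorem heckeMat_mem_redKer (hpN : ¬ p ∣ N) (hA : A.LiesOverPrime p) (t : TZ N)
    {v : Fin (Period.rankH N) → R} (hv : v ∈ redKer N p n A) :
    (HeckeH.heckeMatHom N t).map (Int.castRingHom R) *ᵥ v ∈ redKer N p n A := by
  obtain ⟨t, ht⟩ := t
  have key : ∀ v ∈ redKer (R := R) N p n A,
      (HeckeH.heckeMatHom N ⟨t, ht⟩).map (Int.castRingHom R) *ᵥ v ∈ redKer N p n A := by
    induction ht using Algebra.adjoin_induction with
    | mem x hx =>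
      intro v hv
      rcases hx with ⟨ℓ, hℓ, hℓN, hℓS, rfl⟩ | ⟨q, hqN, hq, hqS, rfl⟩
      · have h := heckeGenOf_mem_redKer hpN hA ⟨ℓ, hℓ⟩ hv
        rw [heckeGenOf_T N hℓ hℓN] at h
        exact h
      · have h := heckeGenOf_mem_redKer hpN hA ⟨q, hq⟩ hv
        have e : heckeGenOf N ⟨q, hq⟩ = CuspForm.heckeAlgebra.U (k := 2) (S := (∅ : Set ℕ)) hq hqN
            (Set.notMem_empty _) := dif_pos hqN
        rw [e] at h
        exact h
    | algebraMap r =>
      intro v hv
      have e : (⟨algebraMap ℤ _ r, Subalgebra.algebraMap_mem _ r⟩ : TZ N) = (r : TZ N) :=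
        Subtype.ext (by simp)
      rw [e, map_intCast, ← Int.smul_one_eq_cast, Matrix.map_smul' _ _ _ (map_mul _),
        Matrix.map_one _ (map_zero _) (map_one _), smul_mulVec, one_mulVec]
      exact smul_mem_redKer _ hv
    | add x y hx hy hx' hy' =>
      intro v hv
      rw [show (⟨x + y, add_mem hx hy⟩ : TZ N) = ⟨x, hx⟩ + ⟨y, hy⟩ from rfl, map_add,
        Matrix.map_add _ (map_add _), add_mulVec]
      exact add_mem (hx' v hv) (hy' v hv)
    | mul x y hx hy hx' hy' =>
      intro v hv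
      rw [show (⟨x * y, mul_mem hx hy⟩ : TZ N) = ⟨x, hx⟩ * ⟨y, hy⟩ from rfl, map_mul,
        Matrix.map_mul, ← mulVec_mulVec]
      exact hx' _ (hy' v hv)
  exact key v hv

set_option maxHeartbeats 1600000 in
set_option synthInstance.maxHeartbeats 400000 in
/-- Eichler–Shimura: `φ² - T_p φ + p` moves every vector into the kernel of reduction. -/
theorem frobenius_mem_redKer (hpN : ¬ p ∣ N) (hA : A.LiesOverPrime p) (f : ℤ_[p] →+* R) {φ : GQ}
    (hφ : A.IsFrobeniusAt φ p) (v : Fin (Period.rankH N) → R) :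
    (tateMat N p φ).map f *ᵥ ((tateMat N p φ).map f *ᵥ v) -
      (HeckeH.heckeMatHom N (heckeTOf Fact.out hpN)).map (Int.castRingHom R) *ᵥ
        ((tateMat N p φ).map f *ᵥ v) + p • v ∈ redKer N p n A := fun c => by
  have hp : p.Prime := Fact.out
  haveI := GalCommon.charP_residueField hp hA
  haveI : ExpChar (IsLocalRing.ResidueField A) p := .prime hp
  haveI := GalCommon.isAlgClosed_residueField A hp hA
  have h := Kronecker.reductionInputs N hp hpN hA
  have e := Kronecker.frobenius_relation hpN h (levPoint N p n (c.compLeft _ v))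
  simp only [map_add, map_sub, map_nsmul, compLeft_intMat, compLeft_tateMat, levPoint_galMat]
  rw [levPoint_heckeT N p n hp hpN, levPoint_galMat,
    ← Reps.galois_smul_heckeOperatorBar N φ (⟨p, hp⟩ : Nat.Primes), Kronecker.reductionModL_smul h ⟨φ, hφ.mem_decompositionSubgroup⟩,
    Kronecker.reductionModL_smul h ⟨φ, hφ.mem_decompositionSubgroup⟩,
    Kronecker.reductionModL_smul h ⟨φ, hφ.mem_decompositionSubgroup⟩,
    Kronecker.resAut_eq_frobenius hφ]
  exact e

/-- The functionals to `ZMod m` separate a group killed by `m`. -/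
theorem exists_zmod_hom_ne_zero {G : Type*} [AddCommGroup G] [Finite G] (m : ℕ) [NeZero m]
    (hm : ∀ g : G, m • g = 0) {g : G} (hg : g ≠ 0) : ∃ c : G →+ ZMod m, c g ≠ 0 := by
  classical
  obtain ⟨ι, _, q, hq, ⟨e⟩⟩ := AddCommGroup.equiv_directSum_zmod_of_finite' G
  obtain ⟨i, hi⟩ : ∃ i, e g i ≠ 0 := by
    by_contra h
    push Not at h
    exact hg (e.injective ((DFinsupp.ext h).trans (map_zero e).symm))
  have hqm : q i ∣ m := by
    have h := congrArg (fun z => e z i) (hm (e.symm (DirectSum.of (fun j => ZMod (q j)) i 1)))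
    simp only [map_nsmul, AddEquiv.apply_symm_apply, map_zero] at h
    rw [DFinsupp.smul_apply, DirectSum.of_eq_same, DirectSum.zero_apply, nsmul_one] at h
    exact (ZMod.natCast_eq_zero_iff _ _).mp h
  obtain ⟨d, hd⟩ := hqm
  have hd0 : d ≠ 0 := fun h => NeZero.ne m (by rw [hd, h, mul_zero])
  have hq0 : q i ≠ 0 := fun h => NeZero.ne m (by rw [hd, h, zero_mul])
  haveI : NeZero (q i) := ⟨hq0⟩
  let j : ZMod (q i) →+ ZMod m := ZMod.lift (q i) ⟨(Int.castAddHom (ZMod m)).comp
    (AddMonoidHom.mulRight (d : ℤ)), by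
      simp [← Nat.cast_mul, ← hd]⟩
  refine ⟨(j.comp (DFinsupp.evalAddMonoidHom i)).comp e.toAddMonoidHom, fun h => hi ?_⟩
  obtain ⟨a, ha⟩ := ZMod.intCast_surjective (e g i)
  have h' : ((a * d : ℤ) : ZMod m) = 0 := by
    have := h
    simp only [AddMonoidHom.comp_apply] at this
    change j (e g i) = 0 at this
    rw [← ha] at this
    simpa [j] using this
  rw [ZMod.intCast_zmod_eq_zero_iff_dvd, hd, Nat.cast_mul] at h'
  rw [← ha, ZMod.intCast_zmod_eq_zero_iff_dvd]
  exact (mul_dvd_mul_iff_right (Int.natCast_ne_zero.mpr hd0)).mp h'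

end FLTAgent.Lower.Lift.HopP
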