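import Fermat.Agent.Lower.Lift.HopP.RedKer
import Fermat.Agent.LocP.Ordinary

/-!
# Nilpotence of `τ₀ + 1` on the kernel of reduction

For a module embedded in coordinates compatibly with Galois and a ring `T` (`CoordAct`) whose
residual representation is in normal form at `p`, with inertia element `τ₀`: on vectors reducing
to zero `τ₀ + 1` kills the socle (`CoordAct.socle`), so by induction over powers of the maximal
ideal `(τ₀ + 1) ^ (J n)` kills them modulo `p ^ n` (`CoordAct.pow_mul_null`).
-/

set_option autoImplicit false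
set_option linter.style.haveILetI false
set_option linter.unusedSectionVars false

noncomputable section

open ModularCurve Matrix

namespace FLTAgent.Lower.Lift.HopP

open FLTAgent.Reps FLTAgent.Deform FLTAgent.TW FLTAgent.LocP
open IsLocalRing (ResidueField maximalIdeal residue)

local notation "Qb" => AlgebraicClosure ℚ
local notation "GQ" => (AlgebraicClosure ℚ ≃ₐ[ℚ] AlgebraicClosure ℚ)

variable {N p : ℕ} [NeZero N] [Fact p.Prime] {R : Type} [CommRing R]

/-- The vectors killed by every functional to `ZMod (p ^ n)`. -/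
def nullVec (N p n : ℕ) (R : Type) [CommRing R] : AddSubgroup (Fin (Period.rankH N) → R) where
  carrier := {v | ∀ (c : R →+ ZMod (p ^ n)) (i : Fin (Period.rankH N)), c (v i) = 0}
  zero_mem' c _ := map_zero c
  add_mem' {a b} ha hb c i := by rw [Pi.add_apply, map_add, ha c i, hb c i, add_zero]
  neg_mem' {a} ha c i := by rw [Pi.neg_apply, map_neg, ha c i, neg_zero]

theorem nullVec_le_redKer {n : ℕ} {A : ValuationSubring Qb} {v : Fin (Period.rankH N) → R}
    (hv : v ∈ nullVec N p n R) : v ∈ redKer N p n A :=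
  mem_redKer_of_forall_eq_zero hv

theorem mulVec_mem_nullVec {n : ℕ} (X : Matrix (Fin (Period.rankH N)) (Fin (Period.rankH N)) R)
    {v : Fin (Period.rankH N) → R} (hv : v ∈ nullVec N p n R) : X *ᵥ v ∈ nullVec N p n R :=
  fun c i => by
    show c (∑ j, X i j * v j) = 0
    rw [map_sum]
    exact Finset.sum_eq_zero fun j _ => hv (c.comp (AddMonoidHom.mulLeft (X i j))) j

theorem pow_nsmul_mem_nullVec (n : ℕ) (v : Fin (Period.rankH N) → R) :
    (p ^ n) • v ∈ nullVec N p n R := fun c i => by
  rw [Pi.smul_apply, map_nsmul, nsmul_eq_mul, ZMod.natCast_self, zero_mul]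

/-- The matrix with second column `x` and first column zero. -/
def colT {T : Type*} [CommRing T] : (Fin 2 → T) →ₗ[T] Matrix (Fin 2) (Fin 2) T where
  toFun x := Matrix.of fun a b => if b = 1 then x a else 0
  map_add' x y := by ext a b; by_cases h : b = 1 <;> simp [h]
  map_smul' c x := by ext a b; by_cases h : b = 1 <;> simp [h]

theorem mul_colT {T : Type*} [CommRing T] (X : Matrix (Fin 2) (Fin 2) T) (x : Fin 2 → T) :
    X * colT x = colT (X *ᵥ x) := by
  ext a b
  by_cases h : b = 1 <;>
    simp [colT, Matrix.mul_apply, Fin.sum_univ_two, h] <;> fin_cases a <;> rfl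

variable {T : Type} [CommRing T] [IsLocalRing T] [Finite (ResidueField T)] [CharP (ResidueField T) p]
  {Y : Type*} [AddCommGroup Y] [Module T Y] (j : Y →+ (Fin (Period.rankH N) → R))
  (f : ℤ_[p] →+* R) (M : GQ →* Matrix (Fin 2) (Fin 2) T)
  (Ψ : Matrix (Fin 2) (Fin 2) T →ₐ[T] Module.End T Y)

/-- The module embeds into coordinates compatibly with Galois and the operators of `T`. -/
structure CoordAct (A : ValuationSubring Qb) : Prop where
  galois : ∀ σ y, j (Ψ (M σ) y) = (tateMat N p σ).map f *ᵥ j y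
  coeff : ∀ t : T, ∃ X : Matrix (Fin (Period.rankH N)) (Fin (Period.rankH N)) R,
    (∀ (n : ℕ) (v : Fin (Period.rankH N) → R), v ∈ redKer N p n A → X *ᵥ v ∈ redKer N p n A) ∧
      ∀ y, j (t • y) = X *ᵥ j y
  span : Submodule.span T (Set.range M) = ⊤

variable {j f M Ψ} {A : ValuationSubring Qb} {n : ℕ}

theorem CoordAct.smul_redKer (h : CoordAct j f M Ψ A) (t : T) {y : Y}
    (hy : j y ∈ redKer N p n A) : j (t • y) ∈ redKer N p n A := by
  obtain ⟨X, hX, hjX⟩ := h.coeff t
  rw [hjX]
  exact hX n _ hy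

theorem CoordAct.smul_null (h : CoordAct j f M Ψ A) (t : T) {y : Y}
    (hy : j y ∈ nullVec N p n R) : j (t • y) ∈ nullVec N p n R := by
  obtain ⟨X, -, hjX⟩ := h.coeff t
  rw [hjX]
  exact mulVec_mem_nullVec X hy

theorem CoordAct.apply_null (h : CoordAct j f M Ψ A) (X : Matrix (Fin 2) (Fin 2) T) {y : Y}
    (hy : j y ∈ nullVec N p n R) : j (Ψ X y) ∈ nullVec N p n R := by
  have hX : X ∈ Submodule.span T (Set.range M) := h.span ▸ Submodule.mem_top
  induction hX using Submodule.span_induction with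
  | mem X hX => obtain ⟨σ, rfl⟩ := hX; rw [h.galois]; exact mulVec_mem_nullVec _ hy
  | zero => rw [map_zero, LinearMap.zero_apply, map_zero]; exact zero_mem _
  | add X X' _ _ hX hX' => rw [map_add, LinearMap.add_apply, map_add]; exact add_mem hX hX'
  | smul t X _ hX => rw [map_smul, LinearMap.smul_apply]; exact h.smul_null t hX

/-- A matrix with entries in the maximal ideal kills a socle vector modulo `p ^ n`. -/
theorem CoordAct.apply_null_of_mem (h : CoordAct j f M Ψ A) (X : Matrix (Fin 2) (Fin 2) T)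
    (hX : ∀ a b, X a b ∈ maximalIdeal T) {y : Y}
    (hy : ∀ t ∈ maximalIdeal T, j (t • y) ∈ nullVec N p n R) :
    j (Ψ X y) ∈ nullVec N p n R := by
  rw [Matrix.matrix_eq_sum_single X, map_sum, LinearMap.sum_apply, map_sum]
  refine sum_mem fun a _ => ?_
  rw [map_sum, LinearMap.sum_apply, map_sum]
  refine sum_mem fun b _ => ?_
  rw [show Matrix.single a b (X a b) = X a b • Matrix.single a b (1 : T) by
    rw [Matrix.smul_single, smul_eq_mul, mul_one], map_smul, LinearMap.smul_apply, ← map_smul]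
  exact h.apply_null _ (hy _ (hX a b))

theorem CoordAct.apply_redKer (h : CoordAct j f M Ψ A) (hpN : ¬ p ∣ N) (hA : A.LiesOverPrime p)
    {τ₀ : GQ} (hτ : τ₀ ∈ A.decompositionSubgroup ℚ) {y : Y} (hy : j y ∈ redKer N p n A) :
    j (Ψ (M τ₀ + 1) y) ∈ redKer N p n A := by
  rw [map_add, map_one, LinearMap.add_apply, Module.End.one_apply, map_add, h.galois]
  exact add_mem (tateMat_mem_redKer hpN hA f hτ hy) hy

variable {ϖ ζ : Qb} {τ₀ : GQ}

set_option maxHeartbeats 1000000 in
/-- A socle vector in the kernel of reduction is killed by `τ₀ + 1` modulo `p ^ n`. -/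
theorem CoordAct.socle (h : CoordAct j f M Ψ A) (hp2 : p ≠ 2) (hpN : ¬ p ∣ N)
    (hA : A.LiesOverPrime p) [Finite (R →+ ZMod (p ^ n))]
    (hdet : DetCyclotomic (mapRep (residue T) M) p)
    (hN : RedNormal (mapRep (residue T) M) A p ϖ ζ τ₀) {y : Y} (hy : j y ∈ redKer N p n A)
    (hsoc : ∀ t ∈ maximalIdeal T, j (t • y) ∈ nullVec N p n R) :
    j (Ψ (M τ₀ + 1) y) ∈ nullVec N p n R := by
  set z := Ψ (M τ₀ + 1) y
  have hz : j z ∈ redKer N p n A :=
    h.apply_redKer hpN hA (GalCommon.inertiaSubgroupIn_le_decomposition hN.tau_mem) hy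
  let F : (Fin 2 → T) →+ (Fin (Period.rankH N) → R) :=
    AddMonoidHom.mk' (fun x => j (Ψ (colT x) y)) fun x x' => by
      rw [map_add colT, map_add Ψ, LinearMap.add_apply, map_add j]
  have hcongr : ∀ x x' : Fin 2 → T, (∀ a, residue T (x a) = residue T (x' a)) →
      F x - F x' ∈ nullVec N p n R := by
    intro x x' hxx'
    rw [← map_sub]
    refine h.apply_null_of_mem _ (fun a b => ?_) hsoc
    show (if b = 1 then (x - x') a else 0) ∈ maximalIdeal T
    split
    · rw [← IsLocalRing.residue_eq_zero_iff, Pi.sub_apply, map_sub, hxx' a, sub_self]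
    · exact zero_mem _
  have htwo : F ![0, 2] - j z ∈ nullVec N p n R := by
    show j (Ψ (colT ![0, 2]) y) - j z ∈ _
    rw [← map_sub, ← LinearMap.sub_apply, ← map_sub]
    refine h.apply_null_of_mem _ (fun a b => ?_) hsoc
    rw [← IsLocalRing.residue_eq_zero_iff]
    have e : residue T (M τ₀ a b) = (!![-1, 0; 0, 1] : Matrix (Fin 2) (Fin 2) (ResidueField T)) a b :=
      congrFun (congrFun hN.tau a) b
    fin_cases a <;> fin_cases b <;> simp [colT] at e ⊢ <;> simp [e, map_ofNat, one_add_one_eq_two]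
  have hequi : ∀ σ x, F (M σ *ᵥ x) = (tateMat N p σ).map f *ᵥ F x := fun σ x => by
    show j (Ψ (colT (M σ *ᵥ x)) y) = (tateMat N p σ).map f *ᵥ j (Ψ (colT x) y)
    rw [← mul_colT, map_mul, Module.End.mul_apply, h.galois]
  by_contra hznot
  -- a vector with image zero is zero
  have hker : ∀ x : Fin 2 → T, F x ∈ nullVec N p n R → ∀ a, residue T (x a) = 0 := by
    intro x hx a
    by_contra ha
    obtain ⟨w, hw⟩ := (IsLocalRing.notMem_maximalIdeal.mp fun hm =>
      ha (IsLocalRing.residue_eq_zero_iff _ |>.mpr hm)).exists_left_inv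
    refine hznot ?_
    have e : colT ![0, 2] = (w • (Matrix.of fun r s => if s = a then (![0, 2] : Fin 2 → T) r else 0) :
        Matrix (Fin 2) (Fin 2) T) * colT x := by
      rw [mul_colT]
      refine congrArg colT (funext fun r => ?_)
      rw [Matrix.smul_mulVec, Pi.smul_apply, smul_eq_mul]
      have : (Matrix.of fun r s => if s = a then (![0, 2] : Fin 2 → T) r else 0) *ᵥ x =
          x a • ![0, 2] := by
        funext r
        simp [Matrix.mulVec, dotProduct, mul_comm]
      rw [this, Pi.smul_apply, smul_eq_mul, ← mul_assoc, hw, one_mul]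
    have h2 : F ![0, 2] ∈ nullVec N p n R := by
      show j (Ψ (colT ![0, 2]) y) ∈ _
      rw [e, map_mul, Module.End.mul_apply]
      exact h.apply_null _ hx
    have := sub_mem h2 htwo
    rwa [sub_sub_cancel] at this
  -- the residual map
  have hsurj : Function.Surjective (residue T) := IsLocalRing.residue_surjective
  choose s hs using hsurj
  let fc : (R →+ ZMod (p ^ n)) → Vec (ResidueField T) →+ (Fin (Period.rankH N) → ZMod (p ^ n)) :=
    fun c => AddMonoidHom.mk' (fun x => c.compLeft _ (F fun a => s (x a))) fun x x' => by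
      rw [← map_add, ← map_add, ← sub_eq_zero, ← map_sub]
      refine funext fun i => hcongr _ _ (fun a => ?_) c i
      rw [hs, Pi.add_apply, Pi.add_apply, map_add, hs, hs]
  obtain ⟨H₀, hH₀, hball⟩ := exists_order_lev N p n hpN hA
  have hx := snd_eq_zero_of_ball hN hdet hA hp2 hH₀ fc (fun c σ x => ?_) (fun x hx => ?_)
    (x := ![0, 2]) fun c b hb => hball _ ?_ b hb
  · exact two_ne_zero' (k := ResidueField T) hp2 (by simpa using hx)
  · show c.compLeft _ (F fun a => s ((resAct (mapRep (residue T) M) σ x) a)) =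
      galMat N (p ^ n) σ *ᵥ c.compLeft _ (F fun a => s (x a))
    rw [← compLeft_tateMat f, ← hequi, ← sub_eq_zero, ← map_sub]
    refine funext fun i => hcongr _ _ (fun a => ?_) c i
    rw [hs]
    show (((residue T).mapMatrix (M σ)) *ᵥ x) a = residue T (∑ b, M σ a b * s (x b))
    rw [map_sum]
    simp only [map_mul, hs]
    rfl
  · funext a
    refine (hs (x a)).symm.trans (hker (fun a => s (x a)) (fun c i => ?_) a)
    exact congrFun (hx c) i
  · show reductionModL A N (levPoint N p n (c.compLeft _ (F fun a => s (![0, 2] a)))) = 0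
    have h2 : F (fun a => s ((![0, 2] : Vec (ResidueField T)) a)) - j z ∈ nullVec N p n R := by
      have h3 := add_mem (hcongr (fun a => s ((![0, 2] : Vec (ResidueField T)) a)) ![0, 2]
        (fun a => by fin_cases a <;> simp [hs, map_ofNat])) htwo
      rwa [sub_add_sub_cancel] at h3
    have h4 := add_mem (nullVec_le_redKer (A := A) h2) hz
    rw [sub_add_cancel] at h4
    exact h4 c

/-- `τ₀ + 1` is nilpotent of explicit order on the kernel of reduction modulo `p ^ n`. -/
theorem CoordAct.pow_null (h : CoordAct j f M Ψ A) (hp2 : p ≠ 2) (hpN : ¬ p ∣ N)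
    (hA : A.LiesOverPrime p) [Finite (R →+ ZMod (p ^ n))]
    (hdet : DetCyclotomic (mapRep (residue T) M) p)
    (hN : RedNormal (mapRep (residue T) M) A p ϖ ζ τ₀) (J : ℕ) :
    ∀ y : Y, j y ∈ redKer N p n A →
      (∀ t ∈ maximalIdeal T ^ J, j (t • y) ∈ nullVec N p n R) →
      j (Ψ ((M τ₀ + 1) ^ J) y) ∈ nullVec N p n R := by
  induction J with
  | zero =>
    intro y _ hy
    rw [pow_zero, map_one, Module.End.one_apply, ← one_smul T y]
    exact hy 1 (by rw [pow_zero, Ideal.one_eq_top]; exact Submodule.mem_top)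
  | succ J ih =>
    intro y hy hJ
    rw [pow_succ, map_mul, Module.End.mul_apply]
    refine ih _ (h.apply_redKer hpN hA
      (GalCommon.inertiaSubgroupIn_le_decomposition hN.tau_mem) hy) fun t ht => ?_
    rw [← map_smul]
    refine h.socle hp2 hpN hA hdet hN (h.smul_redKer t hy) fun t' ht' => ?_
    rw [smul_smul, mul_comm]
    exact hJ _ (pow_succ (maximalIdeal T) J ▸ Ideal.mul_mem_mul ht ht')

/-- The kernel of reduction modulo `p ^ n` is killed by `(τ₀ + 1) ^ (J n)`, `𝔪 ^ J ≤ (p)`. -/
theorem CoordAct.pow_mul_null (h : CoordAct j f M Ψ A) (hp2 : p ≠ 2) (hpN : ¬ p ∣ N)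
    (hA : A.LiesOverPrime p) [Finite (R →+ ZMod (p ^ n))]
    (hdet : DetCyclotomic (mapRep (residue T) M) p)
    (hN : RedNormal (mapRep (residue T) M) A p ϖ ζ τ₀) {J : ℕ}
    (hJ : maximalIdeal T ^ J ≤ Ideal.span {(p : T)}) {y : Y} (hy : j y ∈ redKer N p n A) :
    j (Ψ ((M τ₀ + 1) ^ (J * n)) y) ∈ nullVec N p n R := by
  refine h.pow_null hp2 hpN hA hdet hN (J * n) y hy fun t ht => ?_
  rw [pow_mul] at ht
  have h1 := Ideal.pow_right_mono hJ n ht
  rw [Ideal.span_singleton_pow, Ideal.mem_span_singleton] at h1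
  obtain ⟨s, rfl⟩ := h1
  rw [mul_smul, ← Nat.cast_pow, Nat.cast_smul_eq_nsmul, map_nsmul]
  exact pow_nsmul_mem_nullVec n _

end FLTAgent.Lower.Lift.HopP
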