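import Fermat.Agent.Lower.Lift.HopP.Order
import Fermat.Agent.FlatJ.Main
import Fermat.Agent.Reps.Existence
import Fermat.Agent.Kronecker.Specialization

/-!
# `J₀(N)[p] ⊗ F` in coordinates

Galois (`galF`) and the Hecke ring (`heckeF`) on coordinate vectors, an order on `J₀(N)[p]` with
the kernel of reduction at a place over `p` in the open unit ball (`exists_order_tors`), and
Eichler–Shimura on reductions: `T_p` minus Frobenius reduces to zero
(`redZero_hecke_sub_frobenius`), for `p ∤ N`.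
-/

set_option autoImplicit false
set_option linter.style.haveILetI false
set_option linter.unusedSectionVars false

noncomputable section

open ModularCurve Matrix
open scoped Pointwise

namespace FLTAgent.Lower.Lift.HopP

open FLTAgent.Reps FLTAgent.FlatHopf

local notation "Qb" => AlgebraicClosure ℚ
local notation "GQ" => (AlgebraicClosure ℚ ≃ₐ[ℚ] AlgebraicClosure ℚ)

variable (N p : ℕ) [NeZero N] [Fact p.Prime]

/-- Coordinates of `J₀(N)[p]`. -/
abbrev TorsCoord : Type := Fin (Period.rankH N) → ZMod (p ^ 1)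

/-- The torsion class with given coordinates. -/
def torsPoint : TorsCoord N p →+ JZero N :=
  (tors N (p ^ 1)).subtype.comp (coordTors N (p ^ 1)).symm.toAddMonoidHom

theorem torsPoint_injective : Function.Injective (torsPoint N p) :=
  Subtype.val_injective.comp (coordTors N (p ^ 1)).symm.injective

/-- Galois on the coordinates. -/
def torsAct : GQ →* AddMonoid.End (TorsCoord N p) where
  toFun σ := AddMonoidHom.mk' (fun v => galMat N (p ^ 1) σ *ᵥ v) fun _ _ => mulVec_add _ _ _
  map_one' := AddMonoidHom.ext fun v => by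
    show galMat N (p ^ 1) 1 *ᵥ v = v
    rw [map_one, one_mulVec]
  map_mul' σ τ := AddMonoidHom.ext fun v => by
    show galMat N (p ^ 1) (σ * τ) *ᵥ v = galMat N (p ^ 1) σ *ᵥ (galMat N (p ^ 1) τ *ᵥ v)
    rw [map_mul, mulVec_mulVec]

theorem torsPoint_act (σ : GQ) (v : TorsCoord N p) :
    torsPoint N p (galMat N (p ^ 1) σ *ᵥ v) = σ • torsPoint N p v := by
  obtain ⟨x, rfl⟩ := (coordTors N (p ^ 1)).surjective v
  rw [galMat_mulVec]
  show (((coordTors N (p ^ 1)).symm _ : tors N (p ^ 1)) : JZero N) =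
    σ • (((coordTors N (p ^ 1)).symm _ : tors N (p ^ 1)) : JZero N)
  rw [AddEquiv.symm_apply_apply, AddEquiv.symm_apply_apply]
  rfl

theorem torsPoint_hecke {ℓ : ℕ} (hℓ : ℓ.Prime) (hℓN : ¬ ℓ ∣ N) (v : TorsCoord N p) :
    torsPoint N p ((Int.castRingHom (ZMod (p ^ 1))).mapMatrix
        (HeckeH.heckeMatHom N (heckeTOf hℓ hℓN)) *ᵥ v) =
      heckeOperatorBar N ⟨ℓ, hℓ⟩ (torsPoint N p v) := by
  obtain ⟨x, rfl⟩ := (coordTors N (p ^ 1)).surjective v
  rw [← heckeGenOf_T N hℓ hℓN]
  refine (congrArg (torsPoint N p) (coordTors_hecke N (p ^ 1) ⟨ℓ, hℓ⟩ x).symm).trans ?_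
  show (((coordTors N (p ^ 1)).symm _ : tors N (p ^ 1)) : JZero N) =
    heckeOperatorBar N ⟨ℓ, hℓ⟩ (((coordTors N (p ^ 1)).symm _ : tors N (p ^ 1)) : JZero N)
  rw [AddEquiv.symm_apply_apply, AddEquiv.symm_apply_apply]

theorem nsmul_torsPoint (v : TorsCoord N p) : p • torsPoint N p v = 0 := by
  rw [← map_nsmul, ← map_zero (torsPoint N p)]
  refine congrArg _ (funext fun i => ?_)
  have h0 : ((p : ℕ) : ZMod (p ^ 1)) = 0 := (ZMod.natCast_eq_zero_iff _ _).mpr (by rw [pow_one])
  rw [Pi.smul_apply, nsmul_eq_mul, h0, zero_mul, Pi.zero_apply]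

/-- An order on `J₀(N)[p]` in which the kernel of reduction is in the open unit ball. -/
theorem exists_order_tors (hpN : ¬ p ∣ N) {A : ValuationSubring Qb} (hA : A.LiesOverPrime p) :
    ∃ H : Subalgebra (GaloisRep.ratLocalizedAt p) (TorsCoord N p → Qb),
      IsOrder (galR p) (torsAct N p) H ∧
      ∀ v, reductionModL A N (torsPoint N p v) = 0 → ∀ a ∈ H, A.valuation (a v - a 0) < 1 := by
  letI : DistribMulAction GQ (TorsCoord N p) := DistribMulAction.compHom _ (torsAct N p)
  obtain ⟨H, hH, hball⟩ := exists_order_of_hasModelRed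
    (FlatJ.exists_modelRed_jZero N p hpN A hA 1 (torsPoint N p) 0
      (fun σ v => torsPoint_act N p σ v) (fun _ _ => rfl)
      (fun g h he => torsPoint_injective N p (congrArg Prod.fst he)) (fun _ _ => (0 : JZero N))
      (fun σ _ _ => smul_zero (A := JZero N) σ) (fun g h => by rw [map_add, add_zero]))
  refine ⟨H, hH, fun v hv a ha => hball v 0 ⟨rfl, ?_⟩ a ha⟩
  rw [hv, map_zero, map_zero]

variable (F : Type) [Field F] [CharP F p]

/-- `ℤ/p → F`. -/
def toF : ZMod (p ^ 1) →+* F := ZMod.castHom (by rw [pow_one]) F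

/-- Galois on `J₀(N)[p] ⊗ F`. -/
def galF : GQ →* Matrix (Fin (Period.rankH N)) (Fin (Period.rankH N)) F :=
  (toF p F).mapMatrix.toMonoidHom.comp (galMat N (p ^ 1))

/-- The Hecke ring on `J₀(N)[p] ⊗ F`. -/
def heckeF : TZ N →+* Matrix (Fin (Period.rankH N)) (Fin (Period.rankH N)) F :=
  (Int.castRingHom F).mapMatrix.comp (HeckeH.heckeMatHom N)

variable {N p F}

/-- Coordinates along a functional on `F`. -/
def coordAlong (c : F →+ ZMod (p ^ 1)) : (Fin (Period.rankH N) → F) →+ TorsCoord N p :=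
  c.compLeft _

theorem map_toF_mul (c : F →+ ZMod (p ^ 1)) (a : ZMod (p ^ 1)) (x : F) :
    c (toF p F a * x) = a * c x := by
  haveI : NeZero (p ^ 1) := ⟨pow_ne_zero _ (Fact.out : p.Prime).ne_zero⟩
  obtain ⟨n, rfl⟩ := ZMod.natCast_zmod_surjective a
  rw [map_natCast, ← nsmul_eq_mul, map_nsmul, nsmul_eq_mul]

theorem coordAlong_galF (c : F →+ ZMod (p ^ 1)) (σ : GQ) (v : Fin (Period.rankH N) → F) :
    coordAlong c (galF N p F σ *ᵥ v) = galMat N (p ^ 1) σ *ᵥ coordAlong c v := by
  funext i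
  show c (∑ j, toF p F (galMat N (p ^ 1) σ i j) * v j) = ∑ j, galMat N (p ^ 1) σ i j * c (v j)
  simp only [map_sum, map_toF_mul]

theorem coordAlong_heckeF (c : F →+ ZMod (p ^ 1)) (t : TZ N) (v : Fin (Period.rankH N) → F) :
    coordAlong c (heckeF N F t *ᵥ v) =
      (Int.castRingHom (ZMod (p ^ 1))).mapMatrix (HeckeH.heckeMatHom N t) *ᵥ coordAlong c v := by
  funext i
  show c (∑ j, (HeckeH.heckeMatHom N t i j : F) * v j) =
    ∑ j, (HeckeH.heckeMatHom N t i j : ZMod (p ^ 1)) * c (v j)
  simp only [map_sum, ← zsmul_eq_mul, map_zsmul]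

/-- All coordinates reduce to zero at `A`. -/
def RedZero (A : ValuationSubring Qb) (v : Fin (Period.rankH N) → F) : Prop :=
  ∀ c : F →+ ZMod (p ^ 1), reductionModL A N (torsPoint N p (coordAlong c v)) = 0

set_option maxHeartbeats 1600000 in
set_option synthInstance.maxHeartbeats 400000 in
/-- On reductions at `p` the Hecke operator `T_p` is Frobenius. -/
theorem redZero_hecke_sub_frobenius (hpN : ¬ p ∣ N) {A : ValuationSubring Qb}
    (hA : A.LiesOverPrime p) {φ : GQ} (hφ : A.IsFrobeniusAt φ p)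
    (v : Fin (Period.rankH N) → F) :
    RedZero (p := p) A (heckeF N F (heckeTOf Fact.out hpN) *ᵥ v - galF N p F φ *ᵥ v) := by
  intro c
  have hp : p.Prime := Fact.out
  have h := Kronecker.reductionInputs N hp hpN hA
  haveI := GalCommon.charP_residueField hp hA
  haveI : ExpChar (IsLocalRing.ResidueField A) p := .prime hp
  haveI := GalCommon.isAlgClosed_residueField A hp hA
  rw [map_sub, map_sub, map_sub, coordAlong_heckeF, coordAlong_galF, torsPoint_hecke,
    torsPoint_act, Kronecker.reductionModL_heckeOperatorBar hpN h,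
    Kronecker.reductionModL_smul h ⟨φ, hφ.mem_decompositionSubgroup⟩,
    Kronecker.resAut_eq_frobenius hφ]
  rw [add_sub_cancel_left]
  refine (Kronecker.smul_nsmul_comm _ p _).symm.trans ?_
  rw [show p • reductionModL A N (torsPoint N p (coordAlong c v)) = 0 by
    rw [← map_nsmul, nsmul_torsPoint, map_zero]]
  exact smul_zero (A := JZeroC (IsLocalRing.ResidueField A) N)
    (Kronecker.coeffGalois N (frobeniusEquiv (IsLocalRing.ResidueField A) p))⁻¹

end FLTAgent.Lower.Lift.HopP
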